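import Mathlib
import Fermat.Agent.G.Desc.Inst
import Fermat.Agent.G.Desc.Theta
import Fermat.Agent.G.Desc.Kummer

/-!
# Program G / S30, package G/Adic, row (FIN-J): finiteness of the `n`-torsion of `J₀(N)(ℚ̄)`,
given the finiteness of `W_n(F_ℂ) / F_ℂ^{× n}` (Kum row FIN = `gkm_fin`) as a hypothesis.

`gadj_finite_torsion_gen` : generic (`K ⊆ L` algebraically closed of characteristic `0`);
`gadj_finite_torsion_of_fin` : the instance `K = ℚ̄`, `L = ℂ`, `F₀ = modularFunctionFieldFull N`.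

Route: `x ∈ Pic⁰(F_K)[n]` is the class of `(1/n) div f_x` (`gdkRep_surj`); `ι f_x ∈ W_n(F_L)`
(`gd_descent_map`) is related to some `s_x` in the finite set `S`; `x ↦ s_x` is injective:
`s_x = s_y` gives `ι f_x ~ ι f_y`, hence `f_x ~ f_y` (`gd_rel_of_iota_rel`), hence `x = y`
(`gdkRep_of_rel`, `gdkRep_unique`).
-/

set_option autoImplicit false
set_option linter.style.haveILetI false

noncomputable section

namespace Fermat.Agent.G

open ModularCurve AlgebraicCurve HahnSeries IntermediateField Fermat.Agent.S24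

section Generic

variable {K L : Type*} [Field K] [Field L] [Algebra K L] [Algebra ℚ K] [Algebra ℚ L]
  [IsScalarTower ℚ K L] [IsAlgClosed K] [IsAlgClosed L] [CharZero K] [CharZero L]
variable (F₀ : IntermediateField ℚ (LaurentSeries ℚ)) (hj : jq ∈ F₀)

theorem gadj_finite_torsion_gen (hK : IsSepGen K (gdJ K F₀ hj)) (n : ℕ) (hn : 0 < n)
    (hfin : ∃ S : Finset (laurentBaseChange L F₀), ∀ x' : laurentBaseChange L F₀, x' ≠ 0 →
      GdDiv L (laurentBaseChange L F₀) n x' → ∃ s ∈ S, GdRel n s x') :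
    {x : Pic0 K (laurentBaseChange K F₀) | n • x = 0}.Finite := by
  haveI : HasPrincipalDivisors K (laurentBaseChange K F₀) := hK.hasPrincipalDivisors
  obtain ⟨S, hS⟩ := hfin
  have hex : ∀ x : {x : Pic0 K (laurentBaseChange K F₀) | n • x = 0},
      ∃ f : laurentBaseChange K F₀, f ≠ 0 ∧ GdkRep (K := K) n f x.1 := fun x =>
    gdkRep_surj (by
      rw [Pic0.mem_torsion, natCast_zsmul]
      exact x.2)
  choose f hf0 hfrep using hex
  have hex2 : ∀ x : {x : Pic0 K (laurentBaseChange K F₀) | n • x = 0},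
      ∃ s ∈ S, GdRel n s (gdIota K L F₀ (f x)) := fun x =>
    hS _ ((map_ne_zero_iff _ (gdIota K L F₀).injective).mpr (hf0 x))
      (gd_descent_map F₀ n (f x) (gdkRep_div (hfrep x)))
  choose s hsS hsrel using hex2
  have hinj : Function.Injective
      (fun x : {x : Pic0 K (laurentBaseChange K F₀) | n • x = 0} => (⟨s x, hsS x⟩ : S)) := by
    intro x y hxy
    have hs : s x = s y := congrArg Subtype.val hxy
    have h1 : GdRel n (gdIota K L F₀ (f x)) (gdIota K L F₀ (f y)) := by
      have h2 := hsrel y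
      rw [← hs] at h2
      exact gdRel_trans (gdRel_symm (hsrel x)) h2
    have h3 : GdRel n (f x) (f y) := gd_rel_of_iota_rel F₀ n hn (hf0 x) (hf0 y) h1
    exact Subtype.ext (gdkRep_unique hn (gdkRep_of_rel (hf0 x) h3 (hfrep x)) (hfrep y))
  exact Set.finite_coe_iff.mp (Finite.of_injective _ hinj)

end Generic

/-- **(FIN-J)** with the finiteness of `W_n(F_ℂ) / F_ℂ^{× n}` as a hypothesis. -/
theorem gadj_finite_torsion_of_fin (N : ℕ) [NeZero N] (n : ℕ) (hn : 0 < n)
    (hfin : ∃ S : Finset (gdqFC N), ∀ x' : gdqFC N, x' ≠ 0 →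
      GdDiv ℂ (gdqFC N) n x' → ∃ s ∈ S, GdRel n s x') :
    {x : JZero N | n • x = 0}.Finite := by
  letI : Algebra QBar ℂ := iotaBar.toAlgebra
  haveI : IsScalarTower ℚ QBar ℂ := IsScalarTower.of_algebraMap_eq fun r => by
    simp
  exact gadj_finite_torsion_gen (modularFunctionFieldFull N) (gdq_jq_mem N) (gdq_isSepGen N) n hn
    hfin

end Fermat.Agent.G
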