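import Mathlib
import Fermat.Agent.G.Adic.FinTorsAux
import Fermat.Agent.G.Kum.Main

/-!
# Program G / S30, package G/Adic, row (FIN-J): `gad_finite_torsion`

VERBATIM from `G/Adic/Spec3.lean` (origin/helper2 8698e09): the `n`-torsion of `J₀(N)(ℚ̄)` is
finite.  Wiring of `gadj_finite_torsion_of_fin` (`FinTorsAux.lean`, G/Desc only, no stubs) with
the Kum row FIN `gkm_fin` (`G/Kum/Main.lean`).
-/

set_option autoImplicit false

noncomputable section

namespace Fermat.Agent.G

open CongruenceSubgroup ModularCurve AlgebraicCurve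
open scoped MatrixGroups

/-- **(FIN-J)** the `n`-torsion of `J₀(N)(ℚ̄)` is finite.
(Kummer model `gdkRep_surj`: `x ∈ J[n]` is the class of `(1/n) div f`; `x` is determined by the
class of `f` modulo `n`-th powers (`gdkRep_of_rel` + `gdkRep_unique`); the classes inject into
those of `F_ℂ` (`gd_rel_of_iota_rel`), which are finitely many (Kum `gkm_fin` = `hfin`).) -/
theorem gad_finite_torsion (N : ℕ) [NeZero N] (n : ℕ) (hn : 0 < n) :
    {x : JZero N | n • x = 0}.Finite :=
  gadj_finite_torsion_of_fin N n hn (gkm_fin hn)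

end Fermat.Agent.G
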