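import Fermat.Agent.G.Cliff

/-!
# Program G / S30, leaf (A5): the Clifford lemma over an arbitrary field

`F` ANY field, `ρ : G →* End_F W` on a nonzero finite-dimensional `W` with
`ρ(g)² = t(g) ρ(g) - d(g)` for all `g`.  Assume that the quadratics `X² - t(g) X + d(g)` of a set
`S` of elements whose images span the image algebra have a root in `F` (always true after a finite
extension of `F`).  Then there is a `G`-stable subspace `U ⊆ W` which is either a line, or a plane
on which `charpoly (ρ g) = X² - t(g) X + d(g)` for all `g` (`gac_core`).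

No finiteness of `F`, no hypothesis on the characteristic, no Wedderburn/Burnside: a minimal stable
subspace `U` is simple; if some `g₀ ∈ S` is not a scalar on `U`, then `ρ(g₀) - λ` is a nonzero
zero divisor of the image algebra and `gcl_finrank_le_two_of_zero_divisor` (G/Cliff.lean) gives
`dim U ≤ 2`; otherwise everything is scalar on `U` and `U` is a line.
-/

set_option autoImplicit false
set_option linter.unusedVariables false
set_option linter.unusedSectionVars false
set_option linter.style.haveILetI false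

namespace Fermat.Agent.G

open Polynomial

section Core

variable {F : Type*} [Field F] {G : Type*} [Group G] {W : Type*} [AddCommGroup W] [Module F W]

/-- `U` is stable under `ρ` -/
def GacStable (ρ : G →* Module.End F W) (U : Submodule F W) : Prop :=
  ∀ g, ∀ v ∈ U, ρ g v ∈ U

/-- restriction of a representation to a stable subspace -/
def gacRestrict (ρ : G →* Module.End F W) (U : Submodule F W) (hU : GacStable ρ U) :
    G →* Module.End F ↥U where
  toFun g := (ρ g).restrict (hU g)
  map_one' := by
    ext v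
    simp [LinearMap.restrict_apply]
  map_mul' g g' := by
    ext v
    simp [LinearMap.restrict_apply]

@[simp] theorem gacRestrict_apply (ρ : G →* Module.End F W) (U : Submodule F W)
    (hU : GacStable ρ U) (g : G) (v : ↥U) : ((gacRestrict ρ U hU g v : ↥U) : W) = ρ g (v : W) :=
  rfl

theorem gacRestrict_rel {ρ : G →* Module.End F W} {t : G → F} {d : G →* Fˣ} (h : GclRel ρ t d)
    (U : Submodule F W) (hU : GacStable ρ U) : GclRel (gacRestrict ρ U hU) t d := by
  intro g
  ext v
  have h3 := congrArg (fun A : Module.End F W => A (v : W)) (h g)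
  simp only [Module.End.mul_apply, LinearMap.sub_apply, LinearMap.smul_apply,
    Module.End.one_apply] at h3
  simpa using h3

/-- a minimal nonzero stable subspace is simple -/
theorem gac_exists_simple [Module.Finite F W] [Nontrivial W] (ρ : G →* Module.End F W) :
    ∃ (U : Submodule F W) (hU : GacStable ρ U), U ≠ ⊥ ∧ GclSimple (gacRestrict ρ U hU) := by
  classical
  have hex : ∃ n : ℕ, ∃ (U : Submodule F W), GacStable ρ U ∧ U ≠ ⊥ ∧ Module.finrank F U = n :=
    ⟨_, ⊤, fun g v _ => Submodule.mem_top, top_ne_bot, rfl⟩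
  obtain ⟨U, hU, hU0, hUn⟩ := Nat.find_spec hex
  refine ⟨U, hU, hU0, ?_⟩
  intro U' hU'
  by_cases h0 : U' = ⊥
  · exact Or.inl h0
  · right
    -- the image of `U'` in `W`
    set U'' : Submodule F W := U'.map U.subtype with hU''
    have hst : GacStable ρ U'' := by
      rintro g _ ⟨v, hv, rfl⟩
      exact ⟨gacRestrict ρ U hU g v, hU' g v hv, rfl⟩
    have hne : U'' ≠ ⊥ := by
      intro h
      apply h0
      rw [eq_bot_iff]
      intro v hv
      have h1 : (v : W) ∈ U'' := ⟨v, hv, rfl⟩
      rw [h, Submodule.mem_bot] at h1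
      rw [Submodule.mem_bot]
      exact Subtype.ext h1
    have hrk : Module.finrank F U'' = Module.finrank F U' :=
      (Submodule.equivMapOfInjective U.subtype U.injective_subtype U').finrank_eq.symm
    have hmin : Nat.find hex ≤ Module.finrank F U'' := Nat.find_min' hex ⟨U'', hst, hne, rfl⟩
    apply Submodule.eq_top_of_finrank_eq
    have hle : Module.finrank F U' ≤ Module.finrank F U := Submodule.finrank_le U'
    omega

/-- if every element of a set `S` whose images span the image algebra acts on `U` as a scalar,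
so does every element -/
theorem gac_scalar_of_span (ρ : G →* Module.End F W) (U : Submodule F W) (S : Set G)
    (hS : ∀ g, ρ g ∈ Submodule.span F (ρ '' S))
    (hsc : ∀ g ∈ S, ∃ c : F, ∀ v ∈ U, ρ g v = c • v) (g : G) :
    ∃ c : F, ∀ v ∈ U, ρ g v = c • v := by
  refine Submodule.span_induction (p := fun A _ => ∃ c : F, ∀ v ∈ U, A v = c • v)
    ?_ ?_ ?_ ?_ (hS g)
  · rintro _ ⟨s, hs, rfl⟩
    exact hsc s hs
  · exact ⟨0, fun v _ => by simp⟩
  · rintro A B _ _ ⟨a, ha⟩ ⟨b, hb⟩
    exact ⟨a + b, fun v hv => by rw [LinearMap.add_apply, ha v hv, hb v hv, add_smul]⟩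
  · rintro r A _ ⟨a, ha⟩
    exact ⟨r * a, fun v hv => by rw [LinearMap.smul_apply, ha v hv, smul_smul]⟩

/-- a simple representation all of whose elements are scalars is a line -/
theorem gac_finrank_eq_one_of_scalar [Module.Finite F W] [Nontrivial W]
    (ρ : G →* Module.End F W) (hs : GclSimple ρ) (hsc : ∀ g, ∃ c : F, ∀ v, ρ g v = c • v) :
    Module.finrank F W = 1 := by
  obtain ⟨v, hv⟩ := exists_ne (0 : W)
  have hst : ∀ g, ∀ w ∈ Submodule.span F {v}, ρ g w ∈ Submodule.span F {v} := by
    intro g w hw
    obtain ⟨c, hc⟩ := hsc g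
    rw [hc]
    exact Submodule.smul_mem _ _ hw
  rcases hs _ hst with h0 | h1
  · exact absurd ((Submodule.span_singleton_eq_bot).mp h0) hv
  · have h3 := finrank_span_singleton (K := F) hv
    rw [h1, finrank_top] at h3
    exact h3

/-- a simple representation with a non-scalar element whose quadratic has a root has dimension
two -/
theorem gac_finrank_eq_two [Module.Finite F W] [Nontrivial W] {ρ : G →* Module.End F W}
    {t : G → F} {d : G →* Fˣ} (h : GclRel ρ t d) (hs : GclSimple ρ) (g₀ : G)
    (hns : ∀ c : F, ρ g₀ ≠ c • (1 : Module.End F W)) (lam : F)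
    (hlam : lam * lam - t g₀ * lam + ((d g₀ : Fˣ) : F) = 0) : Module.finrank F W = 2 := by
  have D := gcl_data_of_simple ρ t d h hs
  -- `(ρ g₀ - lam)(ρ g₀ - mu) = 0`
  set mu : F := t g₀ - lam with hmu
  have hprod : (ρ g₀ - lam • (1 : Module.End F W)) * (ρ g₀ - mu • (1 : Module.End F W)) = 0 := by
    have hd : ((d g₀ : Fˣ) : F) = lam * mu := by rw [hmu]; linear_combination hlam
    rw [sub_mul, mul_sub, mul_sub, h g₀, hd, smul_mul_assoc, one_mul, mul_smul_comm, mul_one,
      smul_mul_smul_comm, mul_one, hmu]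
    module
  -- a `lam`-eigenvector
  have hne : ρ g₀ - mu • (1 : Module.End F W) ≠ 0 := fun h0 => hns mu (sub_eq_zero.mp h0)
  obtain ⟨u, hu⟩ : ∃ u : W, (ρ g₀ - mu • (1 : Module.End F W)) u ≠ 0 := by
    by_contra hcon
    push Not at hcon
    exact hne (LinearMap.ext hcon)
  set s : W := (ρ g₀ - mu • (1 : Module.End F W)) u with hs'
  have hls : (ρ g₀ - lam • (1 : Module.End F W)) s = 0 := by
    rw [hs', ← Module.End.mul_apply, hprod, LinearMap.zero_apply]
  -- the element of the group algebra
  set l : G →₀ F := Finsupp.single g₀ 1 - Finsupp.single 1 lam with hl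
  have hπl : gclPi ρ l = ρ g₀ - lam • (1 : Module.End F W) := by
    rw [hl, map_sub, gclPi_single, gclPi_single, one_smul, map_one]
  have hle : Module.finrank F W ≤ 2 :=
    gcl_finrank_le_two_of_zero_divisor D (l := l) (s := s) hu (by rw [hπl]; exact hls)
      (by rw [hπl]; exact fun h0 => hns lam (sub_eq_zero.mp h0))
  have hpos : 0 < Module.finrank F W := Module.finrank_pos
  have hne1 : Module.finrank F W ≠ 1 := by
    intro h1
    obtain ⟨v, hv0, hv⟩ := finrank_eq_one_iff'.mp h1
    obtain ⟨c, hc⟩ := hv (ρ g₀ v)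
    apply hns c
    ext w
    obtain ⟨a, rfl⟩ := hv w
    rw [map_smul, ← hc, LinearMap.smul_apply, Module.End.one_apply, smul_comm]
  omega

/-- characteristic polynomials on a simple plane -/
theorem gac_charpoly_of_finrank_two [Module.Finite F W] {ρ : G →* Module.End F W}
    {t : G → F} {d : G →* Fˣ} (h : GclRel ρ t d) (h2 : Module.finrank F W = 2) (g₀ : G)
    (hns : ∀ c : F, ρ g₀ ≠ c • (1 : Module.End F W)) (g : G) :
    LinearMap.charpoly (ρ g) = X ^ 2 - C (t g) * X + C (((d g : Fˣ) : F)) := by
  classical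
  let b := Module.finBasisOfFinrankEq F W h2
  let e := LinearMap.toMatrixAlgEquiv b
  let ρ' : G →* Matrix (Fin 2) (Fin 2) F := (MonoidHomClass.toMonoidHom e).comp ρ
  have hρ' : ∀ g, ρ' g = e (ρ g) := fun g => rfl
  have hrel : ∀ g, ρ' g * ρ' g =
      t g • ρ' g - ((d g : Fˣ) : F) • (1 : Matrix (Fin 2) (Fin 2) F) := by
    intro g
    rw [hρ', ← map_mul, h g, map_sub, map_smul, map_smul, map_one]
  have hg₀ : ∀ c : F, ρ' g₀ ≠ c • (1 : Matrix (Fin 2) (Fin 2) F) := by
    intro c hc
    apply hns c
    apply e.injective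
    rw [map_smul, map_one, ← hc, hρ']
  have h3 := gcl_mat_charpoly ρ' t d hrel g₀ hg₀ g
  rw [← h3, hρ']
  exact (LinearMap.charpoly_toMatrix (ρ g) b).symm

/-- **the Clifford lemma over an arbitrary field** -/
theorem gac_core [Module.Finite F W] [Nontrivial W] (ρ : G →* Module.End F W) (t : G → F)
    (d : G →* Fˣ) (h : GclRel ρ t d) (S : Set G)
    (hS : ∀ g, ρ g ∈ Submodule.span F (ρ '' S))
    (hsplit : ∀ g ∈ S, ∃ lam : F, lam * lam - t g * lam + ((d g : Fˣ) : F) = 0) :
    ∃ (U : Submodule F W) (hU : GacStable ρ U),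
      Module.finrank F U = 1 ∨
        (Module.finrank F U = 2 ∧
          (∃ g₀ : G, ∀ c : F, gacRestrict ρ U hU g₀ ≠ c • (1 : Module.End F ↥U)) ∧
          ∀ g, LinearMap.charpoly (gacRestrict ρ U hU g) =
            X ^ 2 - C (t g) * X + C (((d g : Fˣ) : F))) := by
  classical
  obtain ⟨U, hU, hU0, hsimple⟩ := gac_exists_simple ρ
  haveI : Nontrivial ↥U := (Submodule.nontrivial_iff_ne_bot).mpr hU0
  have hrelU := gacRestrict_rel h U hU
  refine ⟨U, hU, ?_⟩
  by_cases hsc : ∀ g ∈ S, ∃ c : F, ∀ v ∈ U, ρ g v = c • v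
  · left
    apply gac_finrank_eq_one_of_scalar (gacRestrict ρ U hU) hsimple
    intro g
    obtain ⟨c, hc⟩ := gac_scalar_of_span ρ U S hS hsc g
    exact ⟨c, fun v => Subtype.ext (by rw [gacRestrict_apply, hc v v.2]; rfl)⟩
  · right
    push Not at hsc
    obtain ⟨g₀, hg₀S, hg₀⟩ := hsc
    have hns : ∀ c : F, gacRestrict ρ U hU g₀ ≠ c • (1 : Module.End F ↥U) := by
      intro c hc
      obtain ⟨v, hvU, hv⟩ := hg₀ c
      apply hv
      have := congrArg (fun A : Module.End F ↥U => ((A ⟨v, hvU⟩ : ↥U) : W)) hc
      simpa using this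
    obtain ⟨lam, hlam⟩ := hsplit g₀ hg₀S
    have h2 := gac_finrank_eq_two hrelU hsimple g₀ hns lam hlam
    exact ⟨h2, ⟨g₀, hns⟩, fun g => gac_charpoly_of_finrank_two hrelU h2 g₀ hns g⟩

end Core

/-! ### matrix form, with the finite extension -/

section Mat

universe u

variable {K : Type u} [Field K] {G : Type*} [Group G] {r : ℕ}

/-- the representation on `K''^r` obtained from a matrix representation over `K` -/
noncomputable def gacMapRep (ρ : G →* Matrix (Fin r) (Fin r) K) (K'' : Type*) [Field K'']
    [Algebra K K''] : G →* Module.End K'' (Fin r → K'') where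
  toFun g := Matrix.toLin' ((algebraMap K K'').mapMatrix (ρ g))
  map_one' := by rw [map_one, map_one, Matrix.toLin'_one]; rfl
  map_mul' g g' := by rw [map_mul, map_mul, Matrix.toLin'_mul]; rfl

theorem gacMapRep_apply (ρ : G →* Matrix (Fin r) (Fin r) K) (K'' : Type*) [Field K'']
    [Algebra K K''] (g : G) :
    gacMapRep ρ K'' g = Matrix.toLin' ((algebraMap K K'').mapMatrix (ρ g)) := rfl

/-- the character `d` with values in `K''` -/
def gacMapChar (d : G →* Kˣ) (K'' : Type*) [Field K''] [Algebra K K''] : G →* K''ˣ :=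
  (Units.map ((algebraMap K K'' : K →+* K'') : K →* K'')).comp d

theorem gacMapChar_coe (d : G →* Kˣ) (K'' : Type*) [Field K''] [Algebra K K''] (g : G) :
    ((gacMapChar d K'' g : K''ˣ) : K'') = algebraMap K K'' ((d g : Kˣ) : K) := rfl

theorem gacMapRep_rel {ρ : G →* Matrix (Fin r) (Fin r) K} {t : G → K} {d : G →* Kˣ}
    (h : ∀ g, ρ g * ρ g = t g • ρ g - ((d g : Kˣ) : K) • (1 : Matrix (Fin r) (Fin r) K))
    (K'' : Type*) [Field K''] [Algebra K K''] :
    GclRel (gacMapRep ρ K'') (fun g => algebraMap K K'' (t g)) (gacMapChar d K'') := by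
  intro g
  have h1 := congrArg (algebraMap K K'').mapMatrix (h g)
  rw [map_mul, map_sub] at h1
  have e1 : (algebraMap K K'').mapMatrix (t g • ρ g) =
      algebraMap K K'' (t g) • (algebraMap K K'').mapMatrix (ρ g) := by
    ext i j
    simp
  have e2 : (algebraMap K K'').mapMatrix (((d g : Kˣ) : K) • (1 : Matrix (Fin r) (Fin r) K)) =
      algebraMap K K'' ((d g : Kˣ) : K) • (1 : Matrix (Fin r) (Fin r) K'') := by
    ext i j
    by_cases hij : i = j
    · subst hij; simp
    · simp [hij]
  rw [e1, e2] at h1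
  rw [gacMapRep_apply, gacMapChar_coe]
  have h2 := congrArg Matrix.toLin' h1
  rw [Matrix.toLin'_mul, map_sub, map_smul, map_smul, Matrix.toLin'_one] at h2
  exact h2

theorem gac_quad_eq (a b : K) :
    (X ^ 2 - C a * X + C b : K[X]) = X ^ 2 + (C (-a) * X + C b) := by
  rw [C_neg]; ring

theorem gac_quad_degree_lt (a b : K) : (C (-a) * X + C b : K[X]).degree < ((2 : ℕ) : WithBot ℕ) := by
  refine lt_of_le_of_lt (Polynomial.degree_add_le _ _) ?_
  refine max_lt (lt_of_le_of_lt (Polynomial.degree_C_mul_X_le _) (by norm_num))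
    (lt_of_le_of_lt Polynomial.degree_C_le (by norm_num))

theorem gac_quad_monic (a b : K) : (X ^ 2 - C a * X + C b : K[X]).Monic := by
  rw [gac_quad_eq]
  exact Polynomial.monic_X_pow_add (gac_quad_degree_lt a b)

theorem gac_quad_degree (a b : K) : (X ^ 2 - C a * X + C b : K[X]).degree = 2 := by
  rw [gac_quad_eq, Polynomial.degree_add_eq_left_of_degree_lt, Polynomial.degree_X_pow]
  · rfl
  · rw [Polynomial.degree_X_pow]
    exact gac_quad_degree_lt a b

/-- **matrix form of the Clifford lemma, with the finite extension.** -/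
theorem gac_matrix [NeZero r] (ρ : G →* Matrix (Fin r) (Fin r) K) (t : G → K) (d : G →* Kˣ)
    (h : ∀ g, ρ g * ρ g = t g • ρ g - ((d g : Kˣ) : K) • (1 : Matrix (Fin r) (Fin r) K)) :
    ∃ (K'' : Type u) (_ : Field K'') (_ : Algebra K K'') (_ : FiniteDimensional K K'')
      (U : Submodule K'' (Fin r → K'')) (hU : GacStable (gacMapRep ρ K'') U),
      Module.finrank K'' U = 1 ∨
        (Module.finrank K'' U = 2 ∧
          (∃ g₀ : G, ∀ c : K'', gacRestrict (gacMapRep ρ K'') U hU g₀ ≠
            c • (1 : Module.End K'' ↥U)) ∧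
          ∀ g, LinearMap.charpoly (gacRestrict (gacMapRep ρ K'') U hU g) =
            X ^ 2 - C (algebraMap K K'' (t g)) * X + C (algebraMap K K'' ((d g : Kˣ) : K))) := by
  classical
  -- a finite set of group elements whose images span the image algebra
  have hfg : (Submodule.span K (Set.range ρ)).FG := IsNoetherian.noetherian _
  obtain ⟨s', hs'sub, hs'span⟩ := (Submodule.fg_span_iff_fg_span_finset_subset _).mp hfg
  choose! γ hγ using fun M (hM : M ∈ s') => hs'sub hM
  set S : Finset G := s'.image γ with hSdef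
  have hSspan : ∀ g, ρ g ∈ Submodule.span K (ρ '' (S : Set G)) := by
    intro g
    have h1 : ρ g ∈ Submodule.span K (Set.range ρ) := Submodule.subset_span ⟨g, rfl⟩
    rw [hs'span] at h1
    refine Submodule.span_mono ?_ h1
    intro M hM
    exact ⟨γ M, by rw [hSdef]; exact Finset.mem_coe.mpr (Finset.mem_image_of_mem γ hM), hγ M hM⟩
  -- the splitting field
  set q : G → K[X] := fun g => X ^ 2 - C (t g) * X + C (((d g : Kˣ) : K)) with hq
  set f : K[X] := ∏ g ∈ S, q g with hf
  have hqmonic : ∀ g, (q g).Monic := fun g => gac_quad_monic _ _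
  have hfmonic : f.Monic := Polynomial.monic_prod_of_monic _ _ fun g _ => hqmonic g
  refine ⟨f.SplittingField, inferInstance, inferInstance,
    Polynomial.IsSplittingField.finiteDimensional f.SplittingField f, ?_⟩
  set φ : K →+* f.SplittingField := algebraMap K f.SplittingField with hφ
  have hsplit : ∀ g ∈ S, ∃ lam : f.SplittingField,
      lam * lam - φ (t g) * lam + ((gacMapChar d f.SplittingField g : f.SplittingField ˣ) :
        f.SplittingField) = 0 := by
    intro g hg
    have h1 : (f.map φ).Splits := SplittingField.splits f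
    have h2 : ((q g).map φ).Splits :=
      Splits.of_dvd h1 (hfmonic.map φ).ne_zero
        (Polynomial.map_dvd φ (Finset.dvd_prod_of_mem q hg))
    have h3 : ((q g).map φ).degree ≠ 0 := by
      rw [(hqmonic g).degree_map]
      show (X ^ 2 - C (t g) * X + C (((d g : Kˣ) : K)) : K[X]).degree ≠ 0
      rw [gac_quad_degree]
      norm_num
    obtain ⟨a, ha⟩ := h2.exists_eval_eq_zero h3
    refine ⟨a, ?_⟩
    rw [gacMapChar_coe]
    have ha' : eval a ((X ^ 2 - C (t g) * X + C (((d g : Kˣ) : K)) : K[X]).map φ) = 0 := ha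
    replace ha := ha'
    simp only [Polynomial.map_add, Polynomial.map_sub, Polynomial.map_mul, Polynomial.map_pow,
      Polynomial.map_X, Polynomial.map_C, eval_add, eval_sub, eval_mul, eval_pow, eval_X,
      eval_C] at ha
    rw [← ha]
    ring
  -- the images of `S` span over the extension
  have hSspan'' : ∀ g, gacMapRep ρ f.SplittingField g ∈
      Submodule.span f.SplittingField (gacMapRep ρ f.SplittingField '' (S : Set G)) := by
    intro g
    refine Submodule.span_induction
      (p := fun A _ => Matrix.toLin' (φ.mapMatrix A) ∈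
        Submodule.span f.SplittingField (gacMapRep ρ f.SplittingField '' (S : Set G)))
      ?_ ?_ ?_ ?_ (hSspan g)
    · rintro _ ⟨s, hs, rfl⟩
      exact Submodule.subset_span ⟨s, hs, rfl⟩
    · rw [map_zero, map_zero]
      exact Submodule.zero_mem _
    · intro A B _ _ hA hB
      rw [map_add, map_add]
      exact Submodule.add_mem _ hA hB
    · intro c A _ hA
      have e : φ.mapMatrix (c • A) = φ c • φ.mapMatrix A := by
        ext i j
        simp
      rw [e, map_smul]
      exact Submodule.smul_mem _ _ hA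
  haveI : Nonempty (Fin r) := ⟨⟨0, Nat.pos_of_ne_zero (NeZero.ne r)⟩⟩
  exact gac_core (gacMapRep ρ f.SplittingField) (fun g => φ (t g))
    (gacMapChar d f.SplittingField) (gacMapRep_rel h f.SplittingField) (S : Set G) hSspan'' hsplit

end Mat

end Fermat.Agent.G
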