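import Mathlib
import Fermat.Prelude.Def_GaloisRep_Adic
import Fermat.Prelude.Def_EllipticCurve_FrobeniusTrace
import Fermat.Prelude.Def_FLTPrelim_Ramification

/-!
# Program G / S30, package G/Adic, leaf (CYC) : the `p`-adic cyclotomic character in `𝒪'ˣ`

`gad_exists_cyclo` : for a complete DVR `𝒪'` with `p ∈ 𝔪` there is `d : G_ℚ →* 𝒪'ˣ` with
`d σ ≡ e mod p^n` whenever `σ ζ = ζ ^ e` on `μ_{p^n}`.

Route: Mathlib's `cyclotomicCharacter ℚ̄ p : (ℚ̄ ≃+* ℚ̄) →* ℤ_[p]ˣ` composed with the canonical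
ring homomorphism `ℤ_[p] →+* 𝒪'` (`gadc_padicHom`, from `IsAdicComplete.liftRingHom`).
-/

set_option autoImplicit false

noncomputable section

namespace Fermat.Agent.G

open Polynomial IsLocalRing

local notation "Qb" => AlgebraicClosure ℚ
local notation "GQ" => (AlgebraicClosure ℚ ≃ₐ[ℚ] AlgebraicClosure ℚ)

section PadicHom

variable (p : ℕ) [Fact p.Prime]

/-- Two ring homomorphisms from `ℤ_[p]` to a ring killed by `p ^ m` agree. -/
theorem gadc_ringHom_ext {R : Type*} [CommRing R] (m : ℕ) (hR : ((p : R)) ^ m = 0)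
    (g₁ g₂ : ℤ_[p] →+* R) : g₁ = g₂ := by
  have key : ∀ (g : ℤ_[p] →+* R) (x : ℤ_[p]), g x = ((x.appr m : ℕ) : R) := by
    intro g x
    have h := PadicInt.appr_spec m x
    rw [Ideal.mem_span_singleton] at h
    obtain ⟨c, hc⟩ := h
    have hx : x = (x.appr m : ℤ_[p]) + (p : ℤ_[p]) ^ m * c := by rw [← hc]; ring
    conv_lhs => rw [hx]
    rw [map_add, map_mul, map_pow, map_natCast, map_natCast, hR, zero_mul, add_zero]
  ext x
  rw [key g₁, key g₂]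

variable {S : Type*} [CommRing S] (I : Ideal S)

omit [Fact p.Prime] in
theorem gadc_natCast_pow_quot (hp : (p : S) ∈ I) (n : ℕ) :
    ((p : S ⧸ I ^ n)) ^ n = 0 := by
  have h : ((p : S)) ^ n ∈ I ^ n := Ideal.pow_mem_pow hp n
  have := (Ideal.Quotient.eq_zero_iff_mem (I := I ^ n)).mpr h
  rwa [map_pow, map_natCast] at this

/-- the level-`n` map `ℤ_[p] → ℤ/p^n → S ⧸ I ^ n`. -/
def gadcLevel (hp : (p : S) ∈ I) (n : ℕ) : ℤ_[p] →+* S ⧸ I ^ n :=
  (ZMod.castHom (ringChar.dvd (R := S ⧸ I ^ n) (x := p ^ n)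
      (by rw [Nat.cast_pow]; exact gadc_natCast_pow_quot p I hp n)) (S ⧸ I ^ n)).comp
    (PadicInt.toZModPow n)

variable [IsAdicComplete I S]

/-- The canonical ring homomorphism `ℤ_[p] →+* S` for an `I`-adically complete ring `S` with
`p ∈ I`. -/
def gadcPadicHom (hp : (p : S) ∈ I) : ℤ_[p] →+* S :=
  IsAdicComplete.liftRingHom I (gadcLevel p I hp) (fun {m _} _ =>
    gadc_ringHom_ext p m (gadc_natCast_pow_quot p I hp m) _ _)

theorem gadcPadicHom_mem_span (hp : (p : S) ∈ I) (n : ℕ) (y : ℤ_[p])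
    (hy : y ∈ Ideal.span {(p : ℤ_[p]) ^ n}) :
    gadcPadicHom p I hp y ∈ Ideal.span {((p ^ n : ℕ) : S)} := by
  rw [Ideal.mem_span_singleton] at hy ⊢
  obtain ⟨c, rfl⟩ := hy
  rw [map_mul, map_pow, map_natCast, Nat.cast_pow]
  exact Dvd.intro _ rfl

end PadicHom

/-- if `σ ζ = ζ ^ e` on `μ_{p^n}`, the `p`-adic cyclotomic character of `σ` is `≡ e mod p^n`. -/
theorem gadc_cyclo_sub_mem (p : ℕ) [Fact p.Prime] (n : ℕ) (g : Qb ≃+* Qb) (e : ℕ)
    (h : ∀ ζ : Qb, ζ ^ p ^ n = 1 → g ζ = ζ ^ e) :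
    ((cyclotomicCharacter Qb p g : ℤ_[p]ˣ) : ℤ_[p]) - (e : ℤ_[p]) ∈
      Ideal.span {(p : ℤ_[p]) ^ n} := by
  rw [← PadicInt.ker_toZModPow, RingHom.mem_ker, map_sub, map_natCast, sub_eq_zero,
    cyclotomicCharacter.toZModPow]
  symm
  have hu := modularCyclotomicCharacter.unique Qb
    (HasEnoughRootsOfUnity.natCard_rootsOfUnity Qb (p ^ n)) g (c := ((e : ℕ) : ZMod (p ^ n)))
    (fun t ht => by
      have ht1 : ((t : Qbˣ) : Qb) ^ p ^ n = 1 := by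
        have := (mem_rootsOfUnity _ _).mp ht
        rw [← Units.val_pow_eq_pow_val, this, Units.val_one]
      rw [h _ ht1, ZMod.val_natCast]
      conv_lhs => rw [← Nat.div_add_mod e (p ^ n), pow_add, pow_mul, ht1, one_pow, one_mul])
  rw [← hu]

/-- **(CYC)** the `p`-adic cyclotomic character with values in `𝒪'ˣ`. -/
theorem gad_exists_cyclo (p : ℕ) [Fact p.Prime] (𝒪' : Type) [CommRing 𝒪'] [IsDomain 𝒪']
    [IsDiscreteValuationRing 𝒪'] [IsAdicComplete (maximalIdeal 𝒪') 𝒪']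
    (hp : (p : 𝒪') ∈ maximalIdeal 𝒪') :
    ∃ d : GQ →* 𝒪'ˣ, ∀ (n : ℕ) (σ : GQ) (e : ℕ),
      (∀ ζ : Qb, ζ ^ p ^ n = 1 → σ ζ = ζ ^ e) →
        ((d σ : 𝒪'ˣ) : 𝒪') - (e : 𝒪') ∈ Ideal.span {((p ^ n : ℕ) : 𝒪')} := by
  let F : ℤ_[p] →+* 𝒪' := gadcPadicHom p (maximalIdeal 𝒪') hp
  refine ⟨(Units.map (F : ℤ_[p] →* 𝒪')).comp
    ((cyclotomicCharacter Qb p).comp (MulSemiringAction.toRingAut GQ Qb)), ?_⟩
  intro n σ e h
  have hmem := gadc_cyclo_sub_mem p n (MulSemiringAction.toRingAut GQ Qb σ) e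
    (fun ζ hζ => h ζ hζ)
  have := gadcPadicHom_mem_span p (maximalIdeal 𝒪') hp n _ hmem
  rw [map_sub, map_natCast] at this
  exact this

end Fermat.Agent.G
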