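import Mathlib
import Fermat.Prelude.Thm_IsLocalRing_isAdicComplete_of_module_finite
import Fermat.Prelude.Thm_Algebra_finite_maximalSpectrum_and_bijective_localization_of_module_finite

/-!
# Program G / S30, package G/Adic, leaf (A6): the ring of integers of a finite extension of the
fraction field of a complete DVR

`gad_exists_dvr_extension` : `𝒪'` a complete DVR of characteristic `0` with finite residue field,
`K''` a finite extension of `Frac 𝒪'`.  Then `𝒪'' := integralClosure 𝒪' K''` is a complete DVR,
finite over `𝒪'`, with finite residue field, `𝒪' → 𝒪''` is an injective local homomorphism and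
`K''` is the fraction field of `𝒪''`.

* Dedekind + `Module.Finite` + fraction field: Mathlib (`char 0 ⟹ separable`);
* LOCAL: a finite algebra over a complete local noetherian ring is the product of its
  localisations at the maximal ideals (Prelude), and `𝒪''` is a domain (`gadd_isLocalRing`);
* complete: Prelude `IsLocalRing.isAdicComplete_of_module_finite`.
-/

set_option autoImplicit false

noncomputable section

namespace Fermat.Agent.G

open Polynomial IsLocalRing

/-- a domain which is a finite algebra over a complete local noetherian ring is local -/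
theorem gadd_isLocalRing {𝒪 : Type} [CommRing 𝒪] [IsLocalRing 𝒪] [IsNoetherianRing 𝒪]
    [IsAdicComplete (maximalIdeal 𝒪) 𝒪] (B : Type) [CommRing B] [IsDomain B] [Algebra 𝒪 B]
    [Module.Finite 𝒪 B] : IsLocalRing B := by
  classical
  obtain ⟨-, hbij, -, -⟩ :=
    Algebra.finite_maximalSpectrum_and_bijective_localization_of_module_finite (𝒪 := 𝒪) B
  obtain ⟨M, hM⟩ := Ideal.exists_maximal B
  refine IsLocalRing.of_unique_max_ideal ⟨M, hM, fun M' hM' => ?_⟩
  by_contra hne
  set I : MaximalSpectrum B := ⟨M, hM⟩ with hI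
  set I' : MaximalSpectrum B := ⟨M', hM'⟩ with hI'
  have hII' : I' ≠ I := fun h => hne (congrArg MaximalSpectrum.asIdeal h)
  -- the two idempotents
  obtain ⟨e, he⟩ := hbij.2 (Pi.single I (1 : Localization.AtPrime I.asIdeal))
  obtain ⟨e', he'⟩ := hbij.2 (Pi.single I' (1 : Localization.AtPrime I'.asIdeal))
  have hmul : e * e' = 0 := by
    apply hbij.1
    rw [map_mul, he, he', map_zero]
    funext J
    rw [Pi.mul_apply, Pi.zero_apply]
    by_cases hJ : J = I
    · subst hJ
      rw [Pi.single_eq_of_ne (Ne.symm hII'), mul_zero]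
    · rw [Pi.single_eq_of_ne hJ, zero_mul]
  have hne0 : e ≠ 0 := by
    rintro rfl
    rw [map_zero] at he
    have := congrFun he I
    rw [Pi.zero_apply, Pi.single_eq_same] at this
    exact zero_ne_one this
  have hne0' : e' ≠ 0 := by
    rintro rfl
    rw [map_zero] at he'
    have := congrFun he' I'
    rw [Pi.zero_apply, Pi.single_eq_same] at this
    exact zero_ne_one this
  rcases mul_eq_zero.1 hmul with h | h
  · exact hne0 h
  · exact hne0' h

/-- **(A6)** the ring of integers `𝒪''` of a finite extension `K''` of `K = Frac 𝒪'`: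
a complete DVR, finite over `𝒪'`, with finite residue field, whose fraction field is `K''`. -/
theorem gad_exists_dvr_extension (𝒪' : Type) [CommRing 𝒪'] [IsDomain 𝒪']
    [IsDiscreteValuationRing 𝒪'] [IsAdicComplete (maximalIdeal 𝒪') 𝒪']
    [Finite (ResidueField 𝒪')] [CharZero 𝒪']
    (K'' : Type) [Field K''] [Algebra (FractionRing 𝒪') K'']
    [FiniteDimensional (FractionRing 𝒪') K''] :
    ∃ (𝒪'' : Type) (_ : CommRing 𝒪'') (_ : IsDomain 𝒪'') (_ : IsDiscreteValuationRing 𝒪'')
      (_ : IsAdicComplete (maximalIdeal 𝒪'') 𝒪'') (_ : Finite (ResidueField 𝒪''))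
      (_ : CharZero 𝒪'') (_ : Algebra 𝒪' 𝒪'') (_ : Module.Finite 𝒪' 𝒪'')
      (_ : IsLocalHom (algebraMap 𝒪' 𝒪'')) (j : 𝒪'' →+* K''),
      Function.Injective (algebraMap 𝒪' 𝒪'') ∧ Function.Injective j ∧
      (∀ x : K'', ∃ a b : 𝒪'', b ≠ 0 ∧ x * j b = j a) ∧
      ∀ a : 𝒪', j (algebraMap 𝒪' 𝒪'' a) =
        algebraMap (FractionRing 𝒪') K'' (algebraMap 𝒪' (FractionRing 𝒪') a) := by
  classical
  letI : Algebra 𝒪' K'' :=
    ((algebraMap (FractionRing 𝒪') K'').comp (algebraMap 𝒪' (FractionRing 𝒪'))).toAlgebra
  haveI : IsScalarTower 𝒪' (FractionRing 𝒪') K'' := IsScalarTower.of_algebraMap_eq fun _ => rfl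
  haveI : CharZero (FractionRing 𝒪') :=
    charZero_of_injective_algebraMap (IsFractionRing.injective 𝒪' (FractionRing 𝒪'))
  haveI : CharZero K'' :=
    charZero_of_injective_algebraMap (algebraMap (FractionRing 𝒪') K'').injective
  haveI : Algebra.IsSeparable (FractionRing 𝒪') K'' := Algebra.IsSeparable.of_integral _ _
  have hinjK : Function.Injective (algebraMap 𝒪' K'') :=
    (algebraMap (FractionRing 𝒪') K'').injective.comp
      (IsFractionRing.injective 𝒪' (FractionRing 𝒪'))
  set B := integralClosure 𝒪' K'' with hB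
  haveI hded : IsDedekindDomain B := integralClosure.isDedekindDomain 𝒪' (FractionRing 𝒪') K''
  haveI hfin : Module.Finite 𝒪' B :=
    IsIntegralClosure.finite 𝒪' (FractionRing 𝒪') K'' B
  haveI hfrac : IsFractionRing B K'' :=
    integralClosure.isFractionRing_of_finite_extension (FractionRing 𝒪') K''
  have hinjB : Function.Injective (algebraMap 𝒪' B) := by
    intro a b hab
    apply hinjK
    have := congrArg (algebraMap B K'') hab
    rwa [← IsScalarTower.algebraMap_apply, ← IsScalarTower.algebraMap_apply] at this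
  haveI : FaithfulSMul 𝒪' B := (faithfulSMul_iff_algebraMap_injective 𝒪' B).2 hinjB
  haveI hint : Algebra.IsIntegral 𝒪' B := inferInstance
  haveI hlocal : IsLocalRing B := gadd_isLocalRing (𝒪 := 𝒪') B
  haveI hlochom : IsLocalHom (algebraMap 𝒪' B) := Algebra.IsIntegral.isLocalHom 𝒪' B
  have hnotfield : ¬ IsField B := fun hf =>
    IsDiscreteValuationRing.not_isField 𝒪' (isField_of_isIntegral_of_isField hinjB hf)
  haveI hdvr : IsDiscreteValuationRing B :=
    ((IsDiscreteValuationRing.TFAE B hnotfield).out 0 2).2 hded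
  haveI hcomp : IsAdicComplete (maximalIdeal B) B :=
    IsLocalRing.isAdicComplete_of_module_finite (𝒪 := 𝒪') (T := B)
  haveI hresfin : Finite (ResidueField B) :=
    IsLocalRing.ResidueField.finite_of_finite (R := 𝒪') (S := B) inferInstance
  haveI hchar : CharZero B :=
    charZero_of_injective_algebraMap (R := 𝒪') hinjB
  refine ⟨B, inferInstance, inferInstance, hdvr, hcomp, hresfin, hchar, inferInstance, hfin,
    hlochom, algebraMap B K'', hinjB, IsFractionRing.injective B K'', ?_, fun a => ?_⟩
  · intro x
    obtain ⟨⟨a, b⟩, hab⟩ := IsLocalization.surj (nonZeroDivisors B) x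
    exact ⟨a, b, nonZeroDivisors.coe_ne_zero b, hab⟩
  · rw [← IsScalarTower.algebraMap_apply, ← IsScalarTower.algebraMap_apply]

end Fermat.Agent.G
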