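import Mathlib
import Fermat.Agent.G.Asm.Defs
import Fermat.Agent.G.Per.HeckeField
import Fermat.Prelude.Def_CuspForm_HeckeAlgebra

/-!
# Program G / S30, package G/Adic, row 565 (PER'): `gad_exists_eigenchar`

Every ring homomorphism `χ` from the Hecke algebra to a FIELD `K` (any characteristic) is the
system of eigenvalues of a nonzero character `Γ₀(N)^ab → K` killing parabolic and elliptic classes.
This is `gprz_main` (Per/HeckeField.lean) restated with `GasmPE` / `gasmTr`.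
-/

set_option autoImplicit false

noncomputable section

namespace Fermat.Agent.G

open CongruenceSubgroup ModularCurve AlgebraicCurve Fermat.Agent.S16LB
open scoped MatrixGroups

/-- **(PER')** every ring homomorphism `χ` from the Hecke algebra (away from `S ⊇ {q ∣ N}`) to a
FIELD `K` (any characteristic) is realised by a nonzero additive character `ω` of `Γ₀(N)^ab`
killing parabolic and elliptic classes: `ω ∘ tr_ℓ = χ (T_ℓ) ω` for all primes `ℓ ∤ N`, `ℓ ∉ S`. -/
theorem gad_exists_eigenchar (N : ℕ) [NeZero N] (S : Finset ℕ)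
    (hNS : ∀ q : ℕ, q.Prime → q ∣ N → q ∈ S) {K : Type*} [Field K]
    (χ : CuspForm.heckeAlgebra N 2 (↑S : Set ℕ) →+* K) :
    ∃ ω : s16lbAb N →+ K, ω ≠ 0 ∧ GasmPE ω ∧
      ∀ (ℓ : ℕ) [Fact ℓ.Prime] (hℓN : ¬ ℓ ∣ N) (hℓS : ℓ ∉ (↑S : Set ℕ)),
        ω.comp (gasmTr N ℓ hℓN) = χ (CuspForm.heckeAlgebra.T Fact.out hℓN hℓS) • ω := by
  obtain ⟨ω, hPE, hne, heig⟩ := gprz_main N (↑S : Set ℕ) χ
  refine ⟨ω, hne, hPE, ?_⟩
  intro ℓ _ hℓN hℓS
  have h := heig ℓ Fact.out hℓN hℓS
  rw [gprT_eq N hℓN] at h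
  exact h

end Fermat.Agent.G
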