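import Mathlib
import Fermat.Prelude.Def_GaloisRep_Adic
import Fermat.Prelude.Def_EllipticCurve_FrobeniusTrace
import Fermat.Prelude.Def_FLTPrelim_Ramification
import Fermat.Agent.S05.Inertia

/-!
# Program G / S30, package G/Adic : leaf (CYC-F) `gad_frob_root`

A Frobenius element at `q ≠ p` raises every `p`-power root of unity to the `q`-th power, and inertia
at `q ≠ p` fixes them.  Statement VERBATIM from `G/Adic/Spec.lean` (origin/helper2 0dbfe9f).

Key point: `1 - η` is a unit of `A` (a place over `q ≠ p`) for every `p`-power root of unity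
`η ≠ 1` (`gadf_valuation_one_sub_pow`), by induction from the case of primitive `p`-th roots
(`p = ∏ (1 - μ)`), using `1 - η ∣ 1 - η ^ p`.
-/

set_option autoImplicit false

noncomputable section

namespace Fermat.Agent.G

open Polynomial IsLocalRing

local notation "Qb" => AlgebraicClosure ℚ
local notation "GQ" => (AlgebraicClosure ℚ ≃ₐ[ℚ] AlgebraicClosure ℚ)

/-- a root of unity has valuation one -/
theorem gadf_valuation_eq_one {K : Type*} [Field K] (A : ValuationSubring K) {ζ : K} {n : ℕ}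
    (hn : n ≠ 0) (h : ζ ^ n = 1) : A.valuation ζ = 1 := by
  have h1 : A.valuation ζ ^ n = 1 := by rw [← map_pow, h, map_one]
  rcases lt_trichotomy (A.valuation ζ) 1 with hlt | heq | hgt
  · exact absurd h1 (ne_of_lt (pow_lt_one₀ zero_le hlt hn))
  · exact heq
  · exact absurd h1 (ne_of_gt (one_lt_pow₀ hgt hn))

/-- `p = ∏ (1 - μ)` over the primitive `p`-th roots of unity -/
theorem gadf_prod_one_sub {K : Type*} [Field K] {p : ℕ} [Fact p.Prime] {η : K}
    (hη : IsPrimitiveRoot η p) : (p : K) = ∏ μ ∈ primitiveRoots p K, (1 - μ) := by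
  have h1 := Polynomial.cyclotomic_eq_prod_X_sub_primitiveRoots hη
  have h2 := congrArg (Polynomial.eval 1) h1
  rw [Polynomial.eval_one_cyclotomic_prime, Polynomial.eval_prod] at h2
  simpa using h2

/-- if `A` lies over `q ≠ p`, then `1 - η` is a unit of `A` for a primitive `p`-th root `η` -/
theorem gadf_valuation_one_sub {K : Type*} [Field K] {p : ℕ} [Fact p.Prime] {q : ℕ}
    (hq : q.Prime) (hqp : q ≠ p) (A : ValuationSubring K) (hA : A.LiesOverPrime q) {η : K}
    (hη : IsPrimitiveRoot η p) : A.valuation (1 - η) = 1 := by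
  classical
  have hp : p.Prime := Fact.out
  have hle : ∀ μ ∈ primitiveRoots p K, A.valuation (1 - μ) ≤ 1 := by
    intro μ hμ
    have hμ' : μ ^ p = 1 := ((mem_primitiveRoots hp.pos).1 hμ).pow_eq_one
    refine le_trans (A.valuation.map_sub _ _) ?_
    rw [map_one, gadf_valuation_eq_one A hp.ne_zero hμ', max_self]
  have hvp : A.valuation ((p : ℤ) : K) = 1 := by
    rw [Fermat.Agent.S05.valuation_intCast_eq_one_iff A hq hA]
    intro hdvd
    have : q ∣ p := by exact_mod_cast hdvd
    exact hqp ((Nat.prime_dvd_prime_iff_eq hq hp).1 this)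
  rw [Int.cast_natCast, gadf_prod_one_sub hη, map_prod] at hvp
  have hmem : η ∈ primitiveRoots p K := (mem_primitiveRoots hp.pos).2 hη
  rw [← Finset.mul_prod_erase _ _ hmem] at hvp
  refine le_antisymm (hle η hmem) ?_
  by_contra hlt
  rw [not_le] at hlt
  have h3 : ∏ μ ∈ (primitiveRoots p K).erase η, A.valuation (1 - μ) ≤ 1 :=
    Finset.prod_le_one' fun μ hμ => hle μ (Finset.mem_of_mem_erase hμ)
  have h4 : A.valuation (1 - η) * ∏ μ ∈ (primitiveRoots p K).erase η, A.valuation (1 - μ) < 1 :=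
    calc _ ≤ A.valuation (1 - η) * 1 := by gcongr
      _ < 1 := by simpa using hlt
  rw [hvp] at h4
  exact lt_irrefl _ h4

/-- `v(1 - η ^ k) ≤ v(1 - η)` for integral `η` (`1 - η` divides `1 - η ^ k` in `A`) -/
theorem gadf_valuation_one_sub_pow_le {K : Type*} [Field K] (A : ValuationSubring K) {η : K}
    (hη : η ∈ A) (k : ℕ) : A.valuation (1 - η ^ k) ≤ A.valuation (1 - η) := by
  have h1 : 1 - η ^ k = (∑ i ∈ Finset.range k, η ^ i) * (1 - η) := by
    have := geom_sum_mul η k
    linear_combination this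
  have h2 : (∑ i ∈ Finset.range k, η ^ i) ∈ A :=
    sum_mem fun i _ => pow_mem hη i
  rw [h1, map_mul]
  calc A.valuation (∑ i ∈ Finset.range k, η ^ i) * A.valuation (1 - η)
      ≤ 1 * A.valuation (1 - η) := by
        gcongr
        exact (A.valuation_le_one_iff _).2 h2
    _ = A.valuation (1 - η) := one_mul _

/-- if `A` lies over `q ≠ p`, then `1 - η` is a unit of `A` for every `p`-power root of unity
`η ≠ 1` -/
theorem gadf_valuation_one_sub_pow {K : Type*} [Field K] {p : ℕ} [Fact p.Prime] {q : ℕ}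
    (hq : q.Prime) (hqp : q ≠ p) (A : ValuationSubring K) (hA : A.LiesOverPrime q) (n : ℕ) :
    ∀ {η : K}, η ^ p ^ n = 1 → η ≠ 1 → A.valuation (1 - η) = 1 := by
  have hp : p.Prime := Fact.out
  induction n with
  | zero =>
    intro η h1 hne
    rw [pow_zero, pow_one] at h1
    exact absurd h1 hne
  | succ n ih =>
    intro η h1 hne
    have hpn : p ^ (n + 1) ≠ 0 := pow_ne_zero _ hp.ne_zero
    have hvη : A.valuation η = 1 := gadf_valuation_eq_one A hpn h1
    have hηA : η ∈ A := (A.valuation_le_one_iff η).1 hvη.le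
    have hle : A.valuation (1 - η) ≤ 1 := by
      refine le_trans (A.valuation.map_sub _ _) ?_
      rw [map_one, hvη, max_self]
    by_cases hμ : η ^ p = 1
    · have hprim : IsPrimitiveRoot η p :=
        isPrimitiveRoot_of_mem_nthRootsFinset hp
          ((Polynomial.mem_nthRootsFinset hp.pos _).2 hμ) hne
      exact gadf_valuation_one_sub hq hqp A hA hprim
    · have h2 : (η ^ p) ^ p ^ n = 1 := by rw [← pow_mul, ← pow_succ']; exact h1
      have h3 := ih h2 hμ
      have h4 := gadf_valuation_one_sub_pow_le A hηA p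
      rw [h3] at h4
      exact le_antisymm hle h4

/-- two `p`-power roots of unity which are congruent modulo a place over `q ≠ p` are equal -/
theorem gadf_root_eq_of_sub_mem {K : Type*} [Field K] {p : ℕ} [Fact p.Prime] {q : ℕ}
    (hq : q.Prime) (hqp : q ≠ p) (A : ValuationSubring K) (hA : A.LiesOverPrime q) (n : ℕ)
    {ζ ξ : K} (hζ : ζ ^ p ^ n = 1) (hξ : ξ ^ p ^ n = 1) (h : ξ - ζ ∈ A.nonunits) : ξ = ζ := by
  have hp : p.Prime := Fact.out
  have hpn : p ^ n ≠ 0 := pow_ne_zero _ hp.ne_zero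
  by_contra hne
  have hζ0 : ζ ≠ 0 := fun h => by
    rw [h, zero_pow hpn] at hζ
    exact zero_ne_one hζ
  have hvζ : A.valuation ζ = 1 := gadf_valuation_eq_one A hpn hζ
  have hsub : A.valuation (ξ - ζ) < 1 := (ValuationSubring.mem_nonunits_iff (A := A)).1 h
  have hηp : (ξ / ζ) ^ p ^ n = 1 := by rw [div_pow, hξ, hζ, div_one]
  have hη1 : ξ / ζ ≠ 1 := fun h => hne ((div_eq_one_iff_eq hζ0).1 h)
  have h1 := gadf_valuation_one_sub_pow hq hqp A hA n hηp hη1
  have h2 : A.valuation (1 - ξ / ζ) = A.valuation (ξ - ζ) := by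
    rw [Valuation.map_sub_swap, show ξ / ζ - 1 = (ξ - ζ) / ζ by field_simp, map_div₀, hvζ,
      div_one]
  rw [h2] at h1
  rw [h1] at hsub
  exact lt_irrefl _ hsub

/-- the Frobenius congruence on the valuation ring -/
theorem gadf_frob_congr (A : ValuationSubring Qb) (φ : GQ) (q : ℕ) (hφ : A.IsFrobeniusAt φ q)
    (x : Qb) (hx : x ∈ A) : φ x - x ^ q ∈ A.nonunits := by
  obtain ⟨hdec, hres⟩ := hφ
  set b : A := ⟨x, hx⟩ with hb
  have h1 := hres (IsLocalRing.residue A b)
  rw [← IsLocalRing.ResidueField.residue_smul, ← map_pow] at h1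
  have h2 : (⟨φ, hdec⟩ : A.decompositionSubgroup ℚ) • b - b ^ q ∈ IsLocalRing.maximalIdeal A :=
    Ideal.Quotient.eq.mp h1
  rw [← ValuationSubring.coe_mem_nonunits_iff] at h2
  exact h2

/-- **(CYC-F)** a Frobenius element at `q ≠ p` raises every `p`-power root of unity to the
`q`-th power, and inertia at `q ≠ p` fixes them.  (As `gar_cycloChar_frob` / `s56tw_dvd_sub_one`:
`1 - η` is a unit at `A ∣ q` for every `p`-power root of unity `η ≠ 1`.) -/
theorem gad_frob_root (p : ℕ) [Fact p.Prime] {q : ℕ} (hq : q.Prime) (hqp : q ≠ p)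
    (A : ValuationSubring Qb) (hA : A.LiesOverPrime q) (n : ℕ) (ζ : Qb) (hζ : ζ ^ p ^ n = 1) :
    (∀ φ : GQ, A.IsFrobeniusAt φ q → φ ζ = ζ ^ q) ∧
      ∀ τ ∈ A.inertiaSubgroupIn ℚ, τ ζ = ζ := by
  have hp : p.Prime := Fact.out
  have hpn : p ^ n ≠ 0 := pow_ne_zero _ hp.ne_zero
  have hvζ : A.valuation ζ = 1 := gadf_valuation_eq_one A hpn hζ
  have hζA : ζ ∈ A := (A.valuation_le_one_iff ζ).1 hvζ.le
  constructor
  · intro φ hφ
    have h1 := gadf_frob_congr A φ q hφ ζ hζA
    exact gadf_root_eq_of_sub_mem hq hqp A hA n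
      (by rw [← pow_mul, mul_comm, pow_mul, hζ, one_pow])
      (by rw [← map_pow, hζ, map_one]) h1
  · intro τ hτ
    have hin := Fermat.Agent.S05.isInertial_of_mem_inertiaSubgroupIn A τ hτ
    exact gadf_root_eq_of_sub_mem hq hqp A hA n hζ
      (by rw [← map_pow, hζ, map_one]) (hin.sub_mem ζ hζA)

end Fermat.Agent.G
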