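import Mathlib

/-!
# Program G / S30, package G/Adic, row LAT: dual bases of `H / ⟨PE⟩ / torsion` and `Hom_pe(H, ℤ)`

`H̄ := (H ⧸ span PE) ⧸ torsion` is a finitely generated torsion-free `ℤ`-module, hence free of finite
rank; `h i` are lifts of a basis, `e i` the coordinates composed with the projection.  A character
`ω` of `H` killing `PE` with values in a torsion-free group kills every element whose image in `H̄`
vanishes, hence is determined by its values at the `h i`.
-/

set_option autoImplicit false

noncomputable section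

namespace Fermat.Agent.G

open scoped TensorProduct

/-- **(LAT)** dual bases: `h i ∈ H`, `e i ∈ Hom(H, ℤ)` killing `PE`, `e i (h j) = δ i j`, and
every character of `H` killing `PE` with values in a TORSION-FREE group is determined by its
values at the `h i`.  (`H̄ := H / closure PE / torsion` is finitely generated torsion-free, hence
free; lift a basis; the `e i` are the coordinates.) -/
theorem gad_exists_dual_basis {H : Type} [AddCommGroup H] (hH : AddGroup.FG H) (PE : Set H) :
    ∃ (s : ℕ) (h : Fin s → H) (e : Fin s → (H →+ ℤ)),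
      (∀ i, ∀ x ∈ PE, e i x = 0) ∧ (∀ i j, e i (h j) = if i = j then 1 else 0) ∧
      ∀ (A : Type) [AddCommGroup A] [IsAddTorsionFree A] (ω : H →+ A),
        (∀ x ∈ PE, ω x = 0) → ∀ x : H, ω x = ∑ i, e i x • ω (h i) := by
  classical
  have hfin : Module.Finite ℤ H := Module.Finite.iff_addGroup_fg.2 hH
  -- the quotients
  set P : Submodule ℤ H := Submodule.span ℤ PE with hP
  set Tor : Submodule ℤ (H ⧸ P) := Submodule.torsion ℤ (H ⧸ P) with hTor
  -- the projection
  set π : H →ₗ[ℤ] ((H ⧸ P) ⧸ Tor) := Tor.mkQ.comp P.mkQ with hπ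
  have hπsurj : Function.Surjective π :=
    (Submodule.mkQ_surjective Tor).comp (Submodule.mkQ_surjective P)
  -- `π y = 0` iff a nonzero multiple of `y` lies in `span PE`
  have hker : ∀ y : H, π y = 0 → ∃ n : ℤ, n ≠ 0 ∧ n • y ∈ P := by
    intro y hy
    have h1 : P.mkQ y ∈ Tor := by
      have : Tor.mkQ (P.mkQ y) = 0 := hy
      rwa [Submodule.mkQ_apply, Submodule.Quotient.mk_eq_zero] at this
    obtain ⟨a, ha⟩ := (Submodule.mem_torsion_iff _).1 h1
    refine ⟨(a : ℤ), nonZeroDivisors.coe_ne_zero a, ?_⟩
    have h2 : P.mkQ ((a : ℤ) • y) = 0 := by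
      rw [map_smul]
      exact ha
    rwa [Submodule.mkQ_apply, Submodule.Quotient.mk_eq_zero] at h2
  -- a basis of the free quotient
  set b := Module.finBasis ℤ ((H ⧸ P) ⧸ Tor) with hb
  set s := Module.finrank ℤ ((H ⧸ P) ⧸ Tor) with hs
  choose lift hlift using hπsurj
  refine ⟨s, fun i => lift (b i), fun i => ((b.coord i).comp π).toAddMonoidHom, ?_, ?_, ?_⟩
  · intro i x hx
    have hx0 : π x = 0 := by
      have h1 : P.mkQ x = 0 := by
        rw [Submodule.mkQ_apply, Submodule.Quotient.mk_eq_zero]
        exact Submodule.subset_span hx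
      show Tor.mkQ (P.mkQ x) = 0
      rw [h1, map_zero]
    show (b.coord i) (π x) = 0
    rw [hx0, map_zero]
  · intro i j
    show (b.coord i) (π (lift (b j))) = _
    rw [hlift, Module.Basis.coord_apply, Module.Basis.repr_self, Finsupp.single_apply]
    by_cases hij : i = j
    · rw [if_pos hij, if_pos hij.symm]
    · rw [if_neg hij, if_neg (fun h => hij h.symm)]
  · intro A _ _ ω hω x
    -- `ω` kills `span PE`
    have hωP : ∀ y ∈ P, ω y = 0 := by
      intro y hy
      have hle : P ≤ LinearMap.ker ω.toIntLinearMap :=
        Submodule.span_le.2 fun z hz => hω z hz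
      exact hle hy
    -- the defect
    set y : H := x - ∑ i, ((b.coord i) (π x)) • lift (b i) with hy
    have hπy : π y = 0 := by
      rw [hy, map_sub, map_sum]
      have h1 : ∀ i, π (((b.coord i) (π x)) • lift (b i)) = (b.repr (π x) i) • b i := by
        intro i
        rw [map_smul, hlift, Module.Basis.coord_apply]
      rw [Finset.sum_congr rfl fun i _ => h1 i, Module.Basis.sum_repr, sub_self]
    obtain ⟨n, hn0, hn⟩ := hker y hπy
    have h2 : n • ω y = 0 := by
      rw [← map_zsmul]
      exact hωP _ hn
    have h3 : ω y = 0 := by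
      have := zsmul_right_injective (G := A) hn0
      apply this
      simpa using h2
    rw [hy, map_sub, sub_eq_zero, map_sum] at h3
    rw [h3]
    refine Finset.sum_congr rfl fun i _ => ?_
    rw [map_zsmul]
    rfl

end Fermat.Agent.G
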