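import Mathlib

/-!
# Program G / S30, package G/Adic : saturated lattices in a subspace

`R` a principal ideal domain with fraction field `F` (given by an injective `j : R →+* F` such that
every element of `F` is a quotient).  For a subspace `U ⊆ F^r` the lattice
`U₀ := {w ∈ R^r | j ∘ w ∈ U}` is free of rank `dim U`: `gadl_exists_lattice_basis`.
-/

set_option autoImplicit false
set_option linter.unusedVariables false
set_option linter.unusedSectionVars false
set_option linter.style.haveILetI false

noncomputable section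

namespace Fermat.Agent.G

section Lattice

variable {R : Type*} [CommRing R] {F : Type*} [Field F] (j : R →+* F)

/-- the coordinatewise map `R^r → F^r` -/
def gadlJ (r : ℕ) (w : Fin r → R) : Fin r → F := fun i => j (w i)

@[simp] theorem gadlJ_apply (r : ℕ) (w : Fin r → R) (i : Fin r) : gadlJ j r w i = j (w i) := rfl

theorem gadlJ_add (r : ℕ) (w w' : Fin r → R) : gadlJ j r (w + w') = gadlJ j r w + gadlJ j r w' := by
  ext i; simp

theorem gadlJ_zero (r : ℕ) : gadlJ j r (0 : Fin r → R) = 0 := by
  ext i; simp

theorem gadlJ_smul (r : ℕ) (c : R) (w : Fin r → R) : gadlJ j r (c • w) = j c • gadlJ j r w := by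
  ext i; simp

theorem gadlJ_sum (r : ℕ) {ι : Type*} (s : Finset ι) (c : ι → R) (w : ι → (Fin r → R)) :
    gadlJ j r (∑ k ∈ s, c k • w k) = ∑ k ∈ s, j (c k) • gadlJ j r (w k) := by
  classical
  induction s using Finset.induction_on with
  | empty => simp [gadlJ_zero]
  | insert a s ha ih => rw [Finset.sum_insert ha, Finset.sum_insert ha, gadlJ_add, gadlJ_smul, ih]

theorem gadlJ_injective (hj : Function.Injective j) (r : ℕ) : Function.Injective (gadlJ j r) := by
  intro w w' h
  ext i
  exact hj (congrFun h i)

/-- the lattice of integral vectors of a subspace -/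
def gadlLattice (r : ℕ) (U : Submodule F (Fin r → F)) : Submodule R (Fin r → R) where
  carrier := {w | gadlJ j r w ∈ U}
  add_mem' := by
    intro w w' hw hw'
    show gadlJ j r (w + w') ∈ U
    rw [gadlJ_add]
    exact U.add_mem hw hw'
  zero_mem' := by
    show gadlJ j r 0 ∈ U
    rw [gadlJ_zero]
    exact U.zero_mem
  smul_mem' := by
    intro c w hw
    show gadlJ j r (c • w) ∈ U
    rw [gadlJ_smul]
    exact U.smul_mem _ hw

theorem mem_gadlLattice (r : ℕ) (U : Submodule F (Fin r → F)) (w : Fin r → R) :
    w ∈ gadlLattice j r U ↔ gadlJ j r w ∈ U := Iff.rfl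

variable (hj : Function.Injective j) (hfrac : ∀ x : F, ∃ a b : R, b ≠ 0 ∧ x * j b = j a)

include hj hfrac in
/-- common denominators -/
theorem gadl_exists_common_denom [IsDomain R] {ι : Type*} (s : Finset ι) (x : ι → F) :
    ∃ (b : R) (a : ι → R), b ≠ 0 ∧ ∀ i ∈ s, x i * j b = j (a i) := by
  classical
  induction s using Finset.induction_on with
  | empty => exact ⟨1, fun _ => 0, one_ne_zero, fun i hi => absurd hi (Finset.notMem_empty i)⟩
  | insert k s hk ih =>
    obtain ⟨b, a, hb, ha⟩ := ih
    obtain ⟨a', b', hb', ha'⟩ := hfrac (x k)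
    refine ⟨b * b', fun i => if i = k then a' * b else a i * b', mul_ne_zero hb hb', ?_⟩
    intro i hi
    rcases Finset.mem_insert.mp hi with rfl | his
    · show x i * j (b * b') = j (if i = i then a' * b else a i * b')
      rw [if_pos rfl, map_mul, map_mul, ← ha']
      ring
    · have hik : i ≠ k := fun h => hk (h ▸ his)
      show x i * j (b * b') = j (if i = k then a' * b else a i * b')
      rw [if_neg hik, map_mul, map_mul, ← ha i his]
      ring

include hj hfrac in
/-- **the lattice of a subspace is free of the same rank**, with a basis which becomes a basis of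
the subspace. -/
theorem gadl_exists_lattice_basis [IsDomain R] [IsPrincipalIdealRing R] {r : ℕ}
    (U : Submodule F (Fin r → F)) :
    ∃ (n : ℕ) (B : Module.Basis (Fin n) R (gadlLattice j r U)) (BU : Module.Basis (Fin n) F U),
      n = Module.finrank F U ∧
      ∀ k, ((BU k : U) : Fin r → F) = gadlJ j r ((B k : gadlLattice j r U) : Fin r → R) := by
  classical
  obtain ⟨n, B⟩ := Submodule.basisOfPid (Pi.basisFun R (Fin r)) (gadlLattice j r U)
  set v : Fin n → (Fin r → R) := fun k => ((B k : gadlLattice j r U) : Fin r → R) with hv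
  have hvU : ∀ k, gadlJ j r (v k) ∈ U := fun k => (B k).2
  have hrepr : ∀ w : Fin r → R, gadlJ j r w ∈ U → ∃ c : Fin n → R, w = ∑ k, c k • v k := by
    intro w hw
    have hw' : w ∈ gadlLattice j r U := hw
    refine ⟨fun k => B.repr ⟨w, hw'⟩ k, ?_⟩
    have h1 := B.sum_repr ⟨w, hw'⟩
    have h2 : ((∑ i, (B.repr ⟨w, hw'⟩) i • B i : gadlLattice j r U) : Fin r → R) = w :=
      congrArg (Subtype.val) h1
    refine h2.symm.trans ?_
    rw [Submodule.coe_sum]
    rfl
  have hBind : ∀ c : Fin n → R, ∑ k, c k • v k = 0 → ∀ k, c k = 0 := by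
    intro c hc
    have h1 : ∑ k, c k • B k = 0 := by
      apply Subtype.ext
      simpa [hv] using hc
    exact Fintype.linearIndependent_iff.mp B.linearIndependent c h1
  have hli : LinearIndependent F (fun k => gadlJ j r (v k)) := by
    rw [Fintype.linearIndependent_iff]
    intro c hc k
    obtain ⟨b, a, hb, ha⟩ := gadl_exists_common_denom j hj hfrac Finset.univ c
    have h1 : gadlJ j r (∑ k, a k • v k) = 0 := by
      rw [gadlJ_sum]
      have h2 : ∑ k, j (a k) • gadlJ j r (v k) = j b • ∑ k, c k • gadlJ j r (v k) := by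
        rw [Finset.smul_sum]
        refine Finset.sum_congr rfl fun k _ => ?_
        rw [smul_smul, ← ha k (Finset.mem_univ k), mul_comm]
      rw [h2, hc, smul_zero]
    have h3 : ∑ k, a k • v k = 0 := gadlJ_injective j hj r (by rw [h1, gadlJ_zero])
    have h4 := hBind a h3 k
    have h5 := ha k (Finset.mem_univ k)
    rw [h4, map_zero] at h5
    have hjb : j b ≠ 0 := fun h => hb (hj (by rw [h, map_zero]))
    exact (mul_eq_zero.mp h5).resolve_right hjb
  have hspan : ∀ u ∈ U, u ∈ Submodule.span F (Set.range fun k => gadlJ j r (v k)) := by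
    intro u hu
    obtain ⟨b, a, hb, ha⟩ := gadl_exists_common_denom j hj hfrac Finset.univ u
    have hjb : j b ≠ 0 := fun h => hb (hj (by rw [h, map_zero]))
    have h1 : gadlJ j r a = j b • u := by
      ext i
      rw [gadlJ_apply, Pi.smul_apply, smul_eq_mul, ← ha i (Finset.mem_univ i), mul_comm]
    have h2 : gadlJ j r a ∈ U := by rw [h1]; exact U.smul_mem _ hu
    obtain ⟨c, hc⟩ := hrepr a h2
    have h3 : u = (j b)⁻¹ • gadlJ j r a := by
      rw [h1, smul_smul, inv_mul_cancel₀ hjb, one_smul]
    rw [h3, hc, gadlJ_sum]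
    refine Submodule.smul_mem _ _ (Submodule.sum_mem _ fun k _ => Submodule.smul_mem _ _ ?_)
    exact Submodule.subset_span ⟨k, rfl⟩
  -- the basis of `U`
  let f : Fin n → U := fun k => ⟨gadlJ j r (v k), hvU k⟩
  have hfli : LinearIndependent F f := by
    apply LinearIndependent.of_comp U.subtype
    exact hli
  have hfspan : ⊤ ≤ Submodule.span F (Set.range f) := by
    rintro ⟨u, hu⟩ -
    have h1 := hspan u hu
    have h2 : (Set.range fun k => gadlJ j r (v k)) = U.subtype '' Set.range f := by
      ext x
      constructor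
      · rintro ⟨k, rfl⟩
        exact ⟨f k, ⟨k, rfl⟩, rfl⟩
      · rintro ⟨_, ⟨k, rfl⟩, rfl⟩
        exact ⟨k, rfl⟩
    rw [h2, Submodule.span_image] at h1
    obtain ⟨y, hy, hyu⟩ := h1
    have : y = ⟨u, hu⟩ := Subtype.ext hyu
    rwa [← this]
  have hn : n = Module.finrank F U := by
    have hb := Module.finrank_eq_card_basis (Module.Basis.mk hfli hfspan)
    rw [Fintype.card_fin] at hb
    exact hb.symm
  refine ⟨n, B, Module.Basis.mk hfli hfspan, hn, fun k => ?_⟩
  rw [Module.Basis.mk_apply]

end Lattice

end Fermat.Agent.G
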