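import Fermat.Agent.G.Res
import Fermat.Prelude.Def_GaloisRep_Adic
import Fermat.Prelude.Thm_IsAdicComplete_of_module_finite

/-!
# Program G / S30, leaf (A4): every element of `G_ℚ` satisfies a quadratic relation, `p`-adically

`gad_exists_quadratic_of` : `𝒪'` a complete DVR with `p ∈ 𝔪`, `Λ ≠ 0` finite free with an adically
continuous action `ρ` of `G_ℚ`, every Frobenius `σ` at `ℓ ∤ N`, `ℓ ∉ S` satisfying
`ρ(σ)² - a_ℓ ρ(σ) + ℓ = 0`, `d` the `p`-adic cyclotomic character.  Then EVERY `g` satisfies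
`ρ(g)² - t ρ(g) + d(g) = 0` for some `t ∈ 𝒪'`.

Proof: at each level `𝔪 ^ n` the weak Frobenius density theorem gives a Frobenius `φ` and `b` with
`g ∈ φ ^ b U_n`; `gar_pow_quadratic` gives `t_n` with `ρ(g)² - t_n ρ(g) + d(g) ≡ 0 mod 𝔪 ^ n`; the
`t_n` form a Cauchy sequence because `ρ(g)` is invertible on `Λ ≠ 0`; completeness + Hausdorff.
-/

set_option autoImplicit false
set_option linter.unusedSectionVars false
set_option linter.unusedVariables false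
set_option linter.style.haveILetI false

noncomputable section

namespace Fermat.Agent.G

open IsLocalRing

local notation "Qb" => AlgebraicClosure ℚ
local notation "GQ" => (AlgebraicClosure ℚ ≃ₐ[ℚ] AlgebraicClosure ℚ)

local instance gadq_isAlgebraic : Algebra.IsAlgebraic ℚ (AlgebraicClosure ℚ) :=
  AlgebraicClosure.isAlgebraic ℚ
local instance gadq_isAlgClosure : IsAlgClosure ℚ (AlgebraicClosure ℚ) :=
  ⟨inferInstance, inferInstance⟩
local instance gadq_normal : Normal ℚ (AlgebraicClosure ℚ) :=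
  IsAlgClosure.normal ℚ (AlgebraicClosure ℚ)

/-! ### operators which are small for the `I`-adic topology -/

section Small

variable {R : Type*} [CommRing R] {M : Type*} [AddCommGroup M] [Module R M] (I : Ideal R)

/-- `T` maps `M` into `I M` -/
def GadSmall (T : Module.End R M) : Prop := ∀ v, T v ∈ I • (⊤ : Submodule R M)

variable {I}

theorem GadSmall.zero : GadSmall I (0 : Module.End R M) := fun v => by
  rw [LinearMap.zero_apply]; exact Submodule.zero_mem _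

theorem GadSmall.add {T T' : Module.End R M} (h : GadSmall I T) (h' : GadSmall I T') :
    GadSmall I (T + T') := fun v => by
  rw [LinearMap.add_apply]; exact Submodule.add_mem _ (h v) (h' v)

theorem GadSmall.neg {T : Module.End R M} (h : GadSmall I T) : GadSmall I (-T) := fun v => by
  rw [LinearMap.neg_apply]; exact Submodule.neg_mem _ (h v)

theorem GadSmall.sub {T T' : Module.End R M} (h : GadSmall I T) (h' : GadSmall I T') :
    GadSmall I (T - T') := fun v => by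
  rw [LinearMap.sub_apply]; exact Submodule.sub_mem _ (h v) (h' v)

theorem GadSmall.smul {T : Module.End R M} (h : GadSmall I T) (c : R) :
    GadSmall I (c • T) := fun v => by
  rw [LinearMap.smul_apply]; exact Submodule.smul_mem _ _ (h v)

theorem GadSmall.mul_right {T : Module.End R M} (h : GadSmall I T) (X : Module.End R M) :
    GadSmall I (T * X) := fun v => by
  rw [Module.End.mul_apply]; exact h _

theorem gad_map_mem (X : Module.End R M) {x : M} (hx : x ∈ I • (⊤ : Submodule R M)) :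
    X x ∈ I • (⊤ : Submodule R M) := by
  refine Submodule.smul_induction_on hx ?_ ?_
  · intro r hr m _
    rw [map_smul]
    exact Submodule.smul_mem_smul hr Submodule.mem_top
  · intro x y hx hy
    rw [map_add]
    exact Submodule.add_mem _ hx hy

theorem GadSmall.mul_left {T : Module.End R M} (h : GadSmall I T) (X : Module.End R M) :
    GadSmall I (X * T) := fun v => by
  rw [Module.End.mul_apply]; exact gad_map_mem X (h v)

theorem gad_small_smul_of_mem {c : R} (hc : c ∈ I) (X : Module.End R M) :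
    GadSmall I (c • X) := fun v => by
  rw [LinearMap.smul_apply]; exact Submodule.smul_mem_smul hc Submodule.mem_top

theorem GadSmall.mono {J : Ideal R} (hIJ : I ≤ J) {T : Module.End R M} (h : GadSmall I T) :
    GadSmall J T := fun v => Submodule.smul_mono_left hIJ (h v)

theorem gad_functional_mem (f : M →ₗ[R] R) {x : M} (hx : x ∈ I • (⊤ : Submodule R M)) :
    f x ∈ I := by
  refine Submodule.smul_induction_on hx ?_ ?_
  · intro r hr m _
    rw [map_smul, smul_eq_mul]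
    exact I.mul_mem_right _ hr
  · intro x y hx hy
    rw [map_add]
    exact I.add_mem hx hy

theorem gad_mem_of_small_smul_one [Module.Free R M] [Nontrivial M] {c : R}
    (h : GadSmall I (c • (1 : Module.End R M))) : c ∈ I := by
  classical
  let b := Module.Free.chooseBasis R M
  obtain ⟨i⟩ : Nonempty (Module.Free.ChooseBasisIndex R M) := b.index_nonempty
  have h1 := gad_functional_mem (b.coord i) (h (b i))
  rw [LinearMap.smul_apply, Module.End.one_apply, map_smul, smul_eq_mul] at h1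
  simpa using h1

end Small

/-! ### normal open subgroups -/

section Level

theorem gad_fixingSubgroup_normal {K L : Type*} [Field K] [Field L] [Algebra K L]
    (E : IntermediateField K L) [Normal K E] : E.fixingSubgroup.Normal := by
  rw [← IntermediateField.restrictNormalHom_ker]
  exact MonoidHom.normal_ker _

/-- a normal open subgroup of `G_ℚ` fixing a given number field and `μ_m` -/
theorem gad_exists_normal_level (L : IntermediateField ℚ Qb) [FiniteDimensional ℚ L] (m : ℕ)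
    (hm : m ≠ 0) :
    ∃ U : Subgroup GQ, U.Normal ∧ IsOpen (U : Set GQ) ∧ (∀ u ∈ U, ∀ x ∈ L, u x = x) ∧
      ∀ u ∈ U, ∀ ζ : Qb, ζ ^ m = 1 → u ζ = ζ := by
  haveI : NeZero m := ⟨hm⟩
  haveI : NeZero (m : Qb) := ⟨Nat.cast_ne_zero.mpr hm⟩
  obtain ⟨ζ₀, hζ₀⟩ := HasEnoughRootsOfUnity.exists_primitiveRoot Qb m
  haveI hZfd : FiniteDimensional ℚ (IntermediateField.adjoin ℚ {ζ₀}) :=
    IntermediateField.adjoin.finiteDimensional (Algebra.IsIntegral.isIntegral ζ₀)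
  set E : IntermediateField ℚ Qb := L ⊔ IntermediateField.adjoin ℚ {ζ₀} with hE
  haveI hEfd : FiniteDimensional ℚ ↥E := IntermediateField.finiteDimensional_sup L _
  set NC : IntermediateField ℚ Qb := IntermediateField.normalClosure ℚ E Qb with hNC
  haveI hNCfd : FiniteDimensional ℚ ↥NC := normalClosure.is_finiteDimensional ℚ E Qb
  haveI hNCn : Normal ℚ ↥NC := normalClosure.normal ℚ E Qb
  have hle : E ≤ NC := IntermediateField.le_normalClosure E
  refine ⟨NC.fixingSubgroup, gad_fixingSubgroup_normal NC,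
    IntermediateField.fixingSubgroup_isOpen NC, ?_, ?_⟩
  · intro u hu x hx
    exact (IntermediateField.mem_fixingSubgroup_iff _ _).1 hu x
      (hle ((le_sup_left : L ≤ E) hx))
  · intro u hu ζ hζ
    have h0 : u ζ₀ = ζ₀ := (IntermediateField.mem_fixingSubgroup_iff _ _).1 hu ζ₀
      (hle ((le_sup_right : IntermediateField.adjoin ℚ {ζ₀} ≤ E)
        (IntermediateField.mem_adjoin_simple_self ℚ ζ₀)))
    obtain ⟨i, -, rfl⟩ := hζ₀.eq_pow_of_pow_eq_one hζ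
    rw [map_pow, h0]

end Level

/-! ### the main theorem -/

section Main

variable (p : ℕ) [Fact p.Prime] (N : ℕ) (S : Finset ℕ)
  (𝒪' : Type) [CommRing 𝒪'] [IsDomain 𝒪'] [IsDiscreteValuationRing 𝒪']
  [IsAdicComplete (maximalIdeal 𝒪') 𝒪']
  {Λ : Type} [AddCommGroup Λ] [Module 𝒪' Λ] [Module.Free 𝒪' Λ] [Module.Finite 𝒪' Λ]
  [Nontrivial Λ]

theorem gad_natCast_pow_mem (hp : (p : 𝒪') ∈ maximalIdeal 𝒪') (n : ℕ) :
    Ideal.span {((p ^ n : ℕ) : 𝒪')} ≤ maximalIdeal 𝒪' ^ n := by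
  rw [Ideal.span_singleton_le_iff_mem, Nat.cast_pow]
  exact Ideal.pow_mem_pow hp n

/-- the approximate relation at level `n` -/
theorem gad_exists_quadratic_mod (hN : N ≠ 0) (hpS : p ∈ S)
    (hp : (p : 𝒪') ∈ maximalIdeal 𝒪')
    (ρ : GQ →* Module.End 𝒪' Λ) (hcont : GaloisActionIsAdicContinuous 𝒪' ρ) (a : ℕ → 𝒪')
    (hfrob : ∀ ℓ : ℕ, ℓ.Prime → ¬ ℓ ∣ N → ℓ ∉ S → ∀ A : ValuationSubring Qb,
      A.LiesOverPrime ℓ → ∀ σ : GQ, A.IsFrobeniusAt σ ℓ →
        ρ σ * ρ σ - a ℓ • ρ σ + (ℓ : 𝒪') • (1 : Module.End 𝒪' Λ) = 0)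
    (d : GQ →* 𝒪'ˣ)
    (hd : ∀ (n : ℕ) (σ : GQ) (e : ℕ), (∀ ζ : Qb, ζ ^ p ^ n = 1 → σ ζ = ζ ^ e) →
      ((d σ : 𝒪'ˣ) : 𝒪') - (e : 𝒪') ∈ Ideal.span {((p ^ n : ℕ) : 𝒪')})
    (hfr : ∀ (q : ℕ), q.Prime → q ≠ p → ∀ A : ValuationSubring Qb, A.LiesOverPrime q →
      ∀ (n : ℕ) (ζ : Qb), ζ ^ p ^ n = 1 → ∀ φ : GQ, A.IsFrobeniusAt φ q → φ ζ = ζ ^ q)
    (g : GQ) (n : ℕ) :
    ∃ t : 𝒪', GadSmall (maximalIdeal 𝒪' ^ n)
      (ρ g * ρ g - t • ρ g + ((d g : 𝒪'ˣ) : 𝒪') • (1 : Module.End 𝒪' Λ)) := by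
  classical
  have hpp : p.Prime := Fact.out
  obtain ⟨L, hLfd, hL⟩ := hcont n
  haveI := hLfd
  obtain ⟨U, hUn, hUo, hUL, hUζ⟩ :=
    gad_exists_normal_level L (p ^ n) (pow_ne_zero _ hpp.ne_zero)
  haveI := hUn
  set f : GQ →* GQ ⧸ U := QuotientGroup.mk' U with hf
  have hfker : IsOpen (f.ker : Set GQ) := by
    rw [hf, QuotientGroup.ker_mk']
    exact hUo
  obtain ⟨q, hq, hqB, a', ha', ⟨A, hA, φ, hφ, hfφ⟩, -⟩ :=
    Fermat.Agent.S56.fd_exists_isFrobeniusAt_hom f hfker g (S ∪ N.primeFactors)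
  have hqS : q ∉ S := fun h => hqB (Finset.mem_union_left _ h)
  have hqN : ¬ q ∣ N := fun h =>
    hqB (Finset.mem_union_right _ (Nat.mem_primeFactors.2 ⟨hq, h, hN⟩))
  have hqp : q ≠ p := fun h => hqS (h ▸ hpS)
  obtain ⟨b, hb⟩ := exists_pow_eq_self_of_coprime ha'
  -- `g = φ ^ b * u`, `u ∈ U`
  have hfg : f (φ ^ b) = f g := by rw [map_pow, hfφ, hb]
  obtain ⟨u, hu, hgu⟩ : ∃ u ∈ U, g = φ ^ b * u :=
    ⟨(φ ^ b)⁻¹ * g, QuotientGroup.eq.1 hfg, by group⟩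
  -- the exact relation for `φ ^ b`
  obtain ⟨t', ht'⟩ := gar_pow_quadratic (ρ φ) (a q) (q : 𝒪') (hfrob q hq hqN hqS A hA φ hφ) b
  refine ⟨t', ?_⟩
  set 𝔪n : Ideal 𝒪' := maximalIdeal 𝒪' ^ n with h𝔪n
  set P : Module.End 𝒪' Λ := ρ φ ^ b with hP
  -- `ρ u - 1` is small
  have hε : GadSmall 𝔪n (ρ u - 1) := fun v => by
    rw [LinearMap.sub_apply, Module.End.one_apply]
    exact hL u (hUL u hu) v
  set δ : Module.End 𝒪' Λ := P * (ρ u - 1) with hδ
  have hδs : GadSmall 𝔪n δ := hε.mul_left P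
  have hρg : ρ g = P + δ := by
    rw [hgu, map_mul, map_pow, hδ, mul_sub, mul_one]
    abel
  -- the cyclotomic character
  have hdφ : ((d φ : 𝒪'ˣ) : 𝒪') - (q : 𝒪') ∈ 𝔪n :=
    gad_natCast_pow_mem p 𝒪' hp n (hd n φ q fun ζ hζ => hfr q hq hqp A hA n ζ hζ φ hφ)
  have hdu : ((d u : 𝒪'ˣ) : 𝒪') - 1 ∈ 𝔪n := by
    have := gad_natCast_pow_mem p 𝒪' hp n (hd n u 1 fun ζ hζ => by rw [hUζ u hu ζ hζ, pow_one])
    simpa using this
  have hdφb : ((d φ : 𝒪'ˣ) : 𝒪') ^ b - (q : 𝒪') ^ b ∈ 𝔪n :=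
    Ideal.mem_of_dvd _ (sub_dvd_pow_sub_pow _ _ b) hdφ
  have hdg : ((d g : 𝒪'ˣ) : 𝒪') - (q : 𝒪') ^ b ∈ 𝔪n := by
    have e : ((d g : 𝒪'ˣ) : 𝒪') - (q : 𝒪') ^ b =
        ((d φ : 𝒪'ˣ) : 𝒪') ^ b * (((d u : 𝒪'ˣ) : 𝒪') - 1) +
          (((d φ : 𝒪'ˣ) : 𝒪') ^ b - (q : 𝒪') ^ b) := by
      rw [hgu, map_mul, map_pow, Units.val_mul, Units.val_pow_eq_pow_val]
      ring
    rw [e]
    exact 𝔪n.add_mem (𝔪n.mul_mem_left _ hdu) hdφb
  -- assemble
  have e : ρ g * ρ g - t' • ρ g + ((d g : 𝒪'ˣ) : 𝒪') • (1 : Module.End 𝒪' Λ) =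
      (P * P - t' • P + (q : 𝒪') ^ b • (1 : Module.End 𝒪' Λ)) +
        (P * δ + δ * P + δ * δ - t' • δ) +
        (((d g : 𝒪'ˣ) : 𝒪') - (q : 𝒪') ^ b) • (1 : Module.End 𝒪' Λ) := by
    rw [hρg, mul_add, add_mul, add_mul, smul_add, sub_smul]
    abel
  rw [e, ht', zero_add]
  exact ((((hδs.mul_left P).add (hδs.mul_right P)).add (hδs.mul_left δ)).sub
    (hδs.smul t')).add (gad_small_smul_of_mem hdg 1)

/-- **(A4)**, with the action of Frobenius on `p`-power roots of unity as a hypothesis -/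
theorem gad_exists_quadratic_of (hN : N ≠ 0) (hpS : p ∈ S)
    (hp : (p : 𝒪') ∈ maximalIdeal 𝒪')
    (ρ : GQ →* Module.End 𝒪' Λ) (hcont : GaloisActionIsAdicContinuous 𝒪' ρ) (a : ℕ → 𝒪')
    (hfrob : ∀ ℓ : ℕ, ℓ.Prime → ¬ ℓ ∣ N → ℓ ∉ S → ∀ A : ValuationSubring Qb,
      A.LiesOverPrime ℓ → ∀ σ : GQ, A.IsFrobeniusAt σ ℓ →
        ρ σ * ρ σ - a ℓ • ρ σ + (ℓ : 𝒪') • (1 : Module.End 𝒪' Λ) = 0)
    (d : GQ →* 𝒪'ˣ)
    (hd : ∀ (n : ℕ) (σ : GQ) (e : ℕ), (∀ ζ : Qb, ζ ^ p ^ n = 1 → σ ζ = ζ ^ e) →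
      ((d σ : 𝒪'ˣ) : 𝒪') - (e : 𝒪') ∈ Ideal.span {((p ^ n : ℕ) : 𝒪')})
    (hfr : ∀ (q : ℕ), q.Prime → q ≠ p → ∀ A : ValuationSubring Qb, A.LiesOverPrime q →
      ∀ (n : ℕ) (ζ : Qb), ζ ^ p ^ n = 1 → ∀ φ : GQ, A.IsFrobeniusAt φ q → φ ζ = ζ ^ q)
    (g : GQ) :
    ∃ t : 𝒪', ρ g * ρ g - t • ρ g + ((d g : 𝒪'ˣ) : 𝒪') • (1 : Module.End 𝒪' Λ) = 0 := by
  classical
  set 𝔪 : Ideal 𝒪' := maximalIdeal 𝒪' with h𝔪
  choose tn htn using
    gad_exists_quadratic_mod p N S 𝒪' hN hpS hp ρ hcont a hfrob d hd hfr g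
  -- the `tn` are Cauchy
  have hinv : ρ g * ρ g⁻¹ = 1 := by rw [← map_mul, mul_inv_cancel, map_one]
  have hc : ∀ {m n : ℕ}, m ≤ n → tn m - tn n ∈ 𝔪 ^ m := by
    intro m n hmn
    have h1 : GadSmall (𝔪 ^ m) ((tn n - tn m) • ρ g) := by
      have h2 := (htn m).sub ((htn n).mono (Ideal.pow_le_pow_right hmn))
      have e : (ρ g * ρ g - tn m • ρ g + ((d g : 𝒪'ˣ) : 𝒪') • (1 : Module.End 𝒪' Λ)) -
          (ρ g * ρ g - tn n • ρ g + ((d g : 𝒪'ˣ) : 𝒪') • (1 : Module.End 𝒪' Λ)) =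
          (tn n - tn m) • ρ g := by
        rw [sub_smul]; abel
      rwa [e] at h2
    have h3 : GadSmall (𝔪 ^ m) ((tn n - tn m) • (1 : Module.End 𝒪' Λ)) := by
      have := h1.mul_right (ρ g⁻¹)
      rwa [smul_mul_assoc, hinv] at this
    have h4 := gad_mem_of_small_smul_one h3
    have : tn m - tn n = -(tn n - tn m) := by ring
    rw [this]
    exact (𝔪 ^ m).neg_mem h4
  -- the limit
  have hprec : IsPrecomplete 𝔪 𝒪' := inferInstance
  obtain ⟨t, ht⟩ := hprec.prec (f := tn) (fun {m n} hmn => by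
    rw [SModEq.sub_mem, smul_eq_mul, Ideal.mul_top]
    exact hc hmn)
  have ht' : ∀ n, tn n - t ∈ 𝔪 ^ n := fun n => by
    have := ht n
    rwa [SModEq.sub_mem, smul_eq_mul, Ideal.mul_top] at this
  refine ⟨t, ?_⟩
  -- the relation holds modulo every power of `𝔪`
  have hall : ∀ n, GadSmall (𝔪 ^ n)
      (ρ g * ρ g - t • ρ g + ((d g : 𝒪'ˣ) : 𝒪') • (1 : Module.End 𝒪' Λ)) := by
    intro n
    have e : ρ g * ρ g - t • ρ g + ((d g : 𝒪'ˣ) : 𝒪') • (1 : Module.End 𝒪' Λ) =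
        (ρ g * ρ g - tn n • ρ g + ((d g : 𝒪'ˣ) : 𝒪') • (1 : Module.End 𝒪' Λ)) +
          (tn n - t) • ρ g := by
      rw [sub_smul]; abel
    rw [e]
    exact (htn n).add (gad_small_smul_of_mem (ht' n) _)
  haveI hcomp : IsAdicComplete 𝔪 Λ := IsAdicComplete.of_module_finite 𝔪 Λ
  ext v
  rw [LinearMap.zero_apply]
  apply IsHausdorff.haus (inferInstance : IsHausdorff 𝔪 Λ)
  intro n
  rw [SModEq.zero]
  exact hall n v

end Main

end Fermat.Agent.G
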