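import Mathlib
import Fermat.Agent.G.Adic.Cliff
import Fermat.Agent.G.Adic.Quad
import Fermat.Agent.G.Adic.Dvr
import Fermat.Agent.G.Adic.Cyclo
import Fermat.Agent.G.Adic.FrobRoot
import Fermat.Agent.G.Adic.Lattice

/-!
# Program G / S30, package G/Adic : (A7) the `p`-adic engine `gad_main`

* `gad_exists_quadratic` : (A4) every element of `G_ℚ` satisfies a quadratic relation on `Λ`.
* `gad_main_matrix`      : matrix form: a matrix representation over a complete DVR `𝒪'` all of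
  whose elements satisfy `M(g)² = t(g) M(g) - d(g)` yields, over the ring of integers `𝒪''` of a
  finite extension, a `2 × 2` matrix representation with characteristic polynomials
  `X² - t(g) X + d(g)` (Clifford over `Frac 𝒪'` + saturated lattice).
* `gad_main`             : the engine of S30.
-/

set_option autoImplicit false
set_option linter.unusedVariables false
set_option linter.unusedSectionVars false
set_option linter.style.haveILetI false

noncomputable section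

namespace Fermat.Agent.G

open Polynomial IsLocalRing

local notation "Qb" => AlgebraicClosure ℚ
local notation "GQ" => (AlgebraicClosure ℚ ≃ₐ[ℚ] AlgebraicClosure ℚ)

/-! ### (A4) -/

/-- **(A4)** every element of `G_ℚ` satisfies a quadratic relation on `Λ`. -/
theorem gad_exists_quadratic (p : ℕ) [Fact p.Prime] (N : ℕ) (hN : N ≠ 0) (S : Finset ℕ)
    (hpS : p ∈ S) (𝒪' : Type) [CommRing 𝒪'] [IsDomain 𝒪'] [IsDiscreteValuationRing 𝒪']
    [IsAdicComplete (maximalIdeal 𝒪') 𝒪'] (hp : (p : 𝒪') ∈ maximalIdeal 𝒪')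
    {Λ : Type} [AddCommGroup Λ] [Module 𝒪' Λ] [Module.Free 𝒪' Λ] [Module.Finite 𝒪' Λ]
    [Nontrivial Λ] (ρ : GQ →* Module.End 𝒪' Λ) (hcont : GaloisActionIsAdicContinuous 𝒪' ρ)
    (a : ℕ → 𝒪')
    (hfrob : ∀ ℓ : ℕ, ℓ.Prime → ¬ ℓ ∣ N → ℓ ∉ S → ∀ A : ValuationSubring Qb,
      A.LiesOverPrime ℓ → ∀ σ : GQ, A.IsFrobeniusAt σ ℓ →
        ρ σ * ρ σ - a ℓ • ρ σ + (ℓ : 𝒪') • (1 : Module.End 𝒪' Λ) = 0)
    (d : GQ →* 𝒪'ˣ)
    (hd : ∀ (n : ℕ) (σ : GQ) (e : ℕ), (∀ ζ : Qb, ζ ^ p ^ n = 1 → σ ζ = ζ ^ e) →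
      ((d σ : 𝒪'ˣ) : 𝒪') - (e : 𝒪') ∈ Ideal.span {((p ^ n : ℕ) : 𝒪')}) (g : GQ) :
    ∃ t : 𝒪', ρ g * ρ g - t • ρ g + ((d g : 𝒪'ˣ) : 𝒪') • (1 : Module.End 𝒪' Λ) = 0 :=
  gad_exists_quadratic_of p N S 𝒪' hN hpS hp ρ hcont a hfrob d hd
    (fun q hq hqp A hA n ζ hζ φ hφ => (gad_frob_root p hq hqp A hA n ζ hζ).1 φ hφ) g

/-! ### restriction of a matrix representation to a stable free submodule -/

section Restrict

variable {R : Type*} [CommRing R] {G : Type*} [Group G] {r : ℕ}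

/-- restriction of a matrix representation to a stable submodule of `R^r` -/
def gadmRestrict (M : G →* Matrix (Fin r) (Fin r) R) (L : Submodule R (Fin r → R))
    (hL : ∀ g, ∀ w ∈ L, (M g).mulVec w ∈ L) : G →* Module.End R L where
  toFun g := (Matrix.toLin' (M g)).restrict (fun w hw => by
    rw [Matrix.toLin'_apply]; exact hL g w hw)
  map_one' := by
    ext w i
    simp [LinearMap.restrict_apply]
  map_mul' g g' := by
    ext w i
    simp [LinearMap.restrict_apply, Matrix.toLin'_mul]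

@[simp] theorem gadmRestrict_apply (M : G →* Matrix (Fin r) (Fin r) R)
    (L : Submodule R (Fin r → R)) (hL : ∀ g, ∀ w ∈ L, (M g).mulVec w ∈ L) (g : G) (w : L) :
    ((gadmRestrict M L hL g w : L) : Fin r → R) = (M g).mulVec (w : Fin r → R) := by
  show Matrix.toLin' (M g) (w : Fin r → R) = _
  rw [Matrix.toLin'_apply]

variable {n : ℕ}

/-- the matrix representation on a basis of a stable free submodule -/
def gadmMat (M : G →* Matrix (Fin r) (Fin r) R) (L : Submodule R (Fin r → R))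
    (hL : ∀ g, ∀ w ∈ L, (M g).mulVec w ∈ L) (B : Module.Basis (Fin n) R L) :
    G →* Matrix (Fin n) (Fin n) R :=
  ((LinearMap.toMatrixAlgEquiv B : Module.End R L ≃ₐ[R] Matrix (Fin n) (Fin n) R) :
    Module.End R L →* Matrix (Fin n) (Fin n) R).comp (gadmRestrict M L hL)

theorem gadmMat_apply (M : G →* Matrix (Fin r) (Fin r) R) (L : Submodule R (Fin r → R))
    (hL : ∀ g, ∀ w ∈ L, (M g).mulVec w ∈ L) (B : Module.Basis (Fin n) R L) (g : G)
    (i k : Fin n) : gadmMat M L hL B g i k = B.repr (gadmRestrict M L hL g (B k)) i := by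
  show LinearMap.toMatrixAlgEquiv B (gadmRestrict M L hL g) i k = _
  rw [LinearMap.toMatrixAlgEquiv_apply]

theorem gadmMat_mulVec (M : G →* Matrix (Fin r) (Fin r) R) (L : Submodule R (Fin r → R))
    (hL : ∀ g, ∀ w ∈ L, (M g).mulVec w ∈ L) (B : Module.Basis (Fin n) R L) (g : G)
    (k : Fin n) :
    (M g).mulVec (B k : Fin r → R) = ∑ i, gadmMat M L hL B g i k • (B i : Fin r → R) := by
  have h1 := B.sum_repr (gadmRestrict M L hL g (B k))
  have h2 := congrArg (Subtype.val) h1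
  rw [gadmRestrict_apply] at h2
  rw [← h2, Submodule.coe_sum]
  refine Finset.sum_congr rfl fun i _ => ?_
  rw [gadmMat_apply]
  rfl

theorem gadmMat_rel (M : G →* Matrix (Fin r) (Fin r) R) (L : Submodule R (Fin r → R))
    (hL : ∀ g, ∀ w ∈ L, (M g).mulVec w ∈ L) (B : Module.Basis (Fin n) R L) (g : G) (t d : R)
    (h : M g * M g = t • M g - d • (1 : Matrix (Fin r) (Fin r) R)) :
    gadmMat M L hL B g * gadmMat M L hL B g =
      t • gadmMat M L hL B g - d • (1 : Matrix (Fin n) (Fin n) R) := by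
  have h1 : gadmRestrict M L hL g * gadmRestrict M L hL g =
      t • gadmRestrict M L hL g - d • (1 : Module.End R L) := by
    ext w i
    have h2 := congrArg (fun A : Matrix (Fin r) (Fin r) R => A.mulVec (w : Fin r → R) i) h
    simp only [← Matrix.mulVec_mulVec, Matrix.sub_mulVec, Matrix.smul_mulVec,
      Matrix.one_mulVec, Pi.sub_apply, Pi.smul_apply] at h2
    simpa [LinearMap.restrict_apply] using h2
  have h3 := congrArg (LinearMap.toMatrixAlgEquiv B) h1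
  have e1 : LinearMap.toMatrixAlgEquiv B (t • gadmRestrict M L hL g - d • (1 : Module.End R L)) =
      t • LinearMap.toMatrixAlgEquiv B (gadmRestrict M L hL g) - d • 1 := by
    refine (map_sub (LinearMap.toMatrixAlgEquiv B) _ _).trans ?_
    rw [map_smul, map_smul, map_one]
  rw [map_mul, e1] at h3
  exact h3

theorem gadmMat_eq_one (M : G →* Matrix (Fin r) (Fin r) R) (L : Submodule R (Fin r → R))
    (hL : ∀ g, ∀ w ∈ L, (M g).mulVec w ∈ L) (B : Module.Basis (Fin n) R L) (g : G)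
    (h : M g = 1) : gadmMat M L hL B g = 1 := by
  have h1 : gadmRestrict M L hL g = 1 := by
    ext w i
    simp [h]
  show LinearMap.toMatrixAlgEquiv B (gadmRestrict M L hL g) = 1
  rw [h1, map_one]

/-- smallness passes to a saturated stable submodule -/
theorem gadmMat_dvd (M : G →* Matrix (Fin r) (Fin r) R) (L : Submodule R (Fin r → R))
    (hL : ∀ g, ∀ w ∈ L, (M g).mulVec w ∈ L) (B : Module.Basis (Fin n) R L) (g : G) (c : R)
    (hsat : ∀ w : Fin r → R, c • w ∈ L → w ∈ L)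
    (h : ∀ i k, c ∣ (M g - 1) i k) (i k : Fin n) : c ∣ (gadmMat M L hL B g - 1) i k := by
  classical
  -- `(M g - 1) (B k) = c • w'`
  have h1 : ∀ i', c ∣ ((M g - 1).mulVec (B k : Fin r → R)) i' := by
    intro i'
    rw [Matrix.mulVec, dotProduct]
    exact Finset.dvd_sum fun k' _ => Dvd.dvd.mul_right (h i' k') _
  choose w' hw' using h1
  have h2 : (M g - 1).mulVec (B k : Fin r → R) = c • w' := by
    ext i'
    rw [hw' i']
    rfl
  have h3 : c • w' ∈ L := by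
    rw [← h2, Matrix.sub_mulVec, Matrix.one_mulVec]
    exact L.sub_mem (hL g _ (B k).2) (B k).2
  have h4 : w' ∈ L := hsat w' h3
  have h5 : gadmRestrict M L hL g (B k) - B k = c • (⟨w', h4⟩ : L) := by
    apply Subtype.ext
    rw [Submodule.coe_sub, gadmRestrict_apply, Submodule.coe_smul]
    rw [← h2, Matrix.sub_mulVec, Matrix.one_mulVec]
  have h6 : (gadmMat M L hL B g - 1) i k = B.repr (gadmRestrict M L hL g (B k) - B k) i := by
    rw [Matrix.sub_apply, gadmMat_apply, map_sub, Finsupp.sub_apply, Module.Basis.repr_self,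
      Matrix.one_apply, Finsupp.single_apply]
    congr 1
    by_cases hik : i = k
    · rw [if_pos hik, if_pos hik.symm]
    · rw [if_neg hik, if_neg (Ne.symm hik)]
  rw [h6, h5, map_smul, Finsupp.smul_apply, smul_eq_mul]
  exact Dvd.intro _ rfl

end Restrict

/-! ### the diagonal representation `ψ ⊕ d ψ⁻¹` -/

section Diag

variable {R : Type*} [CommRing R] {G : Type*} [Group G]

/-- the representation `ψ ⊕ d ψ⁻¹` -/
def gadmDiag (ψ d : G →* Rˣ) : G →* Matrix (Fin 2) (Fin 2) R where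
  toFun g := Matrix.diagonal ![((ψ g : Rˣ) : R), ((d g * (ψ g)⁻¹ : Rˣ) : R)]
  map_one' := by
    rw [map_one, map_one, inv_one, mul_one, Units.val_one, ← Matrix.diagonal_one]
    congr 1
    ext i
    fin_cases i <;> rfl
  map_mul' g g' := by
    rw [Matrix.diagonal_mul_diagonal]
    congr 1
    ext i
    fin_cases i
    · simp
    · simp only [map_mul, mul_inv_rev, Units.val_mul, Fin.mk_one, Fin.isValue,
        Matrix.cons_val_one, Matrix.cons_val_fin_one]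
      ring

theorem gadmDiag_apply (ψ d : G →* Rˣ) (g : G) :
    gadmDiag ψ d g = Matrix.diagonal ![((ψ g : Rˣ) : R), ((d g * (ψ g)⁻¹ : Rˣ) : R)] := rfl

theorem gadmDiag_charpoly [Nontrivial R] (ψ d : G →* Rˣ) (g : G) (t : R)
    (h : ((ψ g : Rˣ) : R) * ((ψ g : Rˣ) : R) = t * ((ψ g : Rˣ) : R) - ((d g : Rˣ) : R)) :
    (gadmDiag ψ d g).charpoly = X ^ 2 - C t * X + C ((d g : Rˣ) : R) := by
  rw [Matrix.charpoly_fin_two, gadmDiag_apply, Matrix.trace_fin_two, Matrix.det_fin_two]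
  simp only [Matrix.diagonal_apply_eq, Matrix.cons_val_zero, Matrix.cons_val_one,
    Matrix.cons_val_fin_one, Matrix.diagonal_apply_ne _ (show (0 : Fin 2) ≠ 1 by decide),
    Matrix.diagonal_apply_ne _ (show (1 : Fin 2) ≠ 0 by decide), mul_zero, sub_zero]
  have h1 : ((ψ g : Rˣ) : R) + ((d g * (ψ g)⁻¹ : Rˣ) : R) = t := by
    have h2 : ((ψ g : Rˣ) : R) * (((ψ g)⁻¹ : Rˣ) : R) = 1 := by
      rw [← Units.val_mul, mul_inv_cancel, Units.val_one]
    have h3 := congrArg (fun x => x * (((ψ g)⁻¹ : Rˣ) : R)) h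
    simp only [sub_mul, mul_assoc, h2, mul_one] at h3
    rw [Units.val_mul, h3]
    ring
  have h4 : ((ψ g : Rˣ) : R) * ((d g * (ψ g)⁻¹ : Rˣ) : R) = ((d g : Rˣ) : R) := by
    rw [← Units.val_mul]
    congr 1
    rw [mul_comm (d g), ← mul_assoc, mul_inv_cancel, one_mul]
  rw [h1, h4]

theorem gadmDiag_eq_one (ψ d : G →* Rˣ) (g : G) (h1 : ψ g = 1) (h2 : d g = 1) :
    gadmDiag ψ d g = 1 := by
  rw [gadmDiag_apply, h1, h2, inv_one, mul_one, Units.val_one, ← Matrix.diagonal_one]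
  congr 1
  ext i
  fin_cases i <;> rfl

theorem gadmDiag_sub_one_mem (ψ d : G →* Rˣ) (g : G) (I : Ideal R)
    (h1 : ((ψ g : Rˣ) : R) - 1 ∈ I) (h2 : ((d g : Rˣ) : R) - 1 ∈ I) (i k : Fin 2) :
    (gadmDiag ψ d g - 1) i k ∈ I := by
  have h3 : ((d g * (ψ g)⁻¹ : Rˣ) : R) - 1 ∈ I := by
    have e : ((d g * (ψ g)⁻¹ : Rˣ) : R) - 1 =
        (((ψ g)⁻¹ : Rˣ) : R) * ((((d g : Rˣ) : R) - 1) - (((ψ g : Rˣ) : R) - 1)) := by
      have h4 : (((ψ g)⁻¹ : Rˣ) : R) * ((ψ g : Rˣ) : R) = 1 := by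
        rw [← Units.val_mul, inv_mul_cancel, Units.val_one]
      rw [Units.val_mul]
      linear_combination (1 : R) * h4
    rw [e]
    exact I.mul_mem_left _ (I.sub_mem h2 h1)
  rw [Matrix.sub_apply, gadmDiag_apply]
  fin_cases i <;> fin_cases k
  · simpa using h1
  · simp
  · simp
  · simpa using h3

end Diag

/-! ### the matrix form of the engine -/

section MatrixMain

variable {G : Type*} [Group G]

/-- **matrix form of the engine**: a matrix representation over a complete DVR all of whose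
elements satisfy a quadratic relation yields a `2 × 2` matrix representation over the ring of
integers of a finite extension with the expected characteristic polynomials. -/
theorem gad_main_matrix (𝒪' : Type) [CommRing 𝒪'] [IsDomain 𝒪'] [IsDiscreteValuationRing 𝒪']
    [IsAdicComplete (maximalIdeal 𝒪') 𝒪'] [Finite (ResidueField 𝒪')] [CharZero 𝒪']
    {r : ℕ} [NeZero r] (M : G →* Matrix (Fin r) (Fin r) 𝒪') (t : G → 𝒪') (d : G →* 𝒪'ˣ)
    (h : ∀ g, M g * M g = t g • M g - ((d g : 𝒪'ˣ) : 𝒪') • (1 : Matrix (Fin r) (Fin r) 𝒪')) :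
    ∃ (𝒪'' : Type) (_ : CommRing 𝒪'') (_ : IsDomain 𝒪'') (_ : IsDiscreteValuationRing 𝒪'')
      (_ : IsAdicComplete (maximalIdeal 𝒪'') 𝒪'') (_ : Finite (ResidueField 𝒪''))
      (_ : CharZero 𝒪'') (_ : Algebra 𝒪' 𝒪'') (_ : Module.Finite 𝒪' 𝒪'')
      (_ : IsLocalHom (algebraMap 𝒪' 𝒪'')),
      Function.Injective (algebraMap 𝒪' 𝒪'') ∧
      ∃ P : G →* Matrix (Fin 2) (Fin 2) 𝒪'',
        (∀ g, (P g).charpoly = X ^ 2 - C (algebraMap 𝒪' 𝒪'' (t g)) * X +
          C (algebraMap 𝒪' 𝒪'' ((d g : 𝒪'ˣ) : 𝒪'))) ∧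
        (∀ g, M g = 1 → d g = 1 → P g = 1) ∧
        (∀ g (n : ℕ), (∀ i k, (M g - 1) i k ∈ maximalIdeal 𝒪' ^ n) →
          ((d g : 𝒪'ˣ) : 𝒪') - 1 ∈ maximalIdeal 𝒪' ^ n →
            ∀ i k, (P g - 1) i k ∈ maximalIdeal 𝒪'' ^ n) := by
  classical
  -- over the fraction field
  let φ : 𝒪' →+* FractionRing 𝒪' := algebraMap 𝒪' (FractionRing 𝒪')
  let ρK : G →* Matrix (Fin r) (Fin r) (FractionRing 𝒪') :=
    (φ.mapMatrix : Matrix (Fin r) (Fin r) 𝒪' →+*
      Matrix (Fin r) (Fin r) (FractionRing 𝒪')).toMonoidHom.comp M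
  let tK : G → FractionRing 𝒪' := fun g => φ (t g)
  let dK : G →* (FractionRing 𝒪')ˣ := (Units.map (φ : 𝒪' →* FractionRing 𝒪')).comp d
  have hρK : ∀ g, ρK g = φ.mapMatrix (M g) := fun g => rfl
  have hdK : ∀ g, ((dK g : (FractionRing 𝒪')ˣ) : FractionRing 𝒪') = φ ((d g : 𝒪'ˣ) : 𝒪') :=
    fun g => rfl
  have hmapsmul : ∀ {R₁ R₂ : Type} [CommRing R₁] [CommRing R₂] (f : R₁ →+* R₂) (c : R₁)
      (A : Matrix (Fin r) (Fin r) R₁), f.mapMatrix (c • A) = f c • f.mapMatrix A := by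
    intro R₁ R₂ _ _ f c A
    ext i k
    simp
  have hrelK : ∀ g, ρK g * ρK g = tK g • ρK g - ((dK g : (FractionRing 𝒪')ˣ) : FractionRing 𝒪') •
      (1 : Matrix (Fin r) (Fin r) (FractionRing 𝒪')) := by
    intro g
    have h1 := congrArg φ.mapMatrix (h g)
    rw [map_mul, map_sub, hmapsmul, hmapsmul, map_one] at h1
    exact h1
  obtain ⟨K'', iF, iA, iFD, U, hU, hcase⟩ := gac_matrix ρK tK dK hrelK
  obtain ⟨𝒪'', i1, i2, i3, i4, i5, i6, i7, i8, i9, j, hinj, hjinj, hfrac, hcompat⟩ :=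
    gad_exists_dvr_extension 𝒪' K''
  refine ⟨𝒪'', i1, i2, i3, i4, i5, i6, i7, i8, i9, hinj, ?_⟩
  let ψ'' : 𝒪' →+* 𝒪'' := algebraMap 𝒪' 𝒪''
  let M'' : G →* Matrix (Fin r) (Fin r) 𝒪'' :=
    (ψ''.mapMatrix : Matrix (Fin r) (Fin r) 𝒪' →+* Matrix (Fin r) (Fin r) 𝒪'').toMonoidHom.comp M
  have hM'' : ∀ g, M'' g = ψ''.mapMatrix (M g) := fun g => rfl
  have hrel'' : ∀ g, M'' g * M'' g = ψ'' (t g) • M'' g - ψ'' ((d g : 𝒪'ˣ) : 𝒪') •
      (1 : Matrix (Fin r) (Fin r) 𝒪'') := by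
    intro g
    have h1 := congrArg ψ''.mapMatrix (h g)
    rw [map_mul, map_sub, hmapsmul, hmapsmul, map_one] at h1
    exact h1
  -- the intertwining relation
  have hK1 : ∀ g (w : Fin r → 𝒪''),
      gadlJ j r ((M'' g).mulVec w) = gacMapRep ρK K'' g (gadlJ j r w) := by
    intro g w
    rw [gacMapRep_apply]
    ext i
    rw [gadlJ_apply, Matrix.toLin'_apply, Matrix.mulVec, Matrix.mulVec, dotProduct, dotProduct,
      map_sum]
    refine Finset.sum_congr rfl fun k _ => ?_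
    rw [map_mul, gadlJ_apply, hM'', hρK]
    simp only [RingHom.mapMatrix_apply, Matrix.map_apply]
    rw [hcompat]
  set L : Submodule 𝒪'' (Fin r → 𝒪'') := gadlLattice j r U with hLdef
  have hL : ∀ g, ∀ w ∈ L, (M'' g).mulVec w ∈ L := by
    intro g w hw
    rw [hLdef, mem_gadlLattice, hK1]
    exact hU g _ hw
  obtain ⟨n, B, BU, hn, hBU⟩ := gadl_exists_lattice_basis j hjinj hfrac U
  set P : G →* Matrix (Fin n) (Fin n) 𝒪'' := gadmMat M'' L hL B with hP
  -- saturation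
  have hsat : ∀ c : 𝒪'', c ≠ 0 → ∀ w : Fin r → 𝒪'', c • w ∈ L → w ∈ L := by
    intro c hc w hw
    rw [hLdef, mem_gadlLattice, gadlJ_smul] at hw
    rw [hLdef, mem_gadlLattice]
    have hjc : j c ≠ 0 := fun h0 => hc (hjinj (by rw [h0, map_zero]))
    have := U.smul_mem (j c)⁻¹ hw
    rwa [smul_smul, inv_mul_cancel₀ hjc, one_smul] at this
  -- powers of the maximal ideals
  obtain ⟨ϖ, hϖ⟩ := IsDiscreteValuationRing.exists_irreducible 𝒪''
  have hmax : ∀ m : ℕ, maximalIdeal 𝒪'' ^ m = Ideal.span {ϖ ^ m} := by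
    intro m
    rw [hϖ.maximalIdeal_eq, Ideal.span_singleton_pow]
  have hmap : ∀ (m : ℕ) (a : 𝒪'), a ∈ maximalIdeal 𝒪' ^ m → ψ'' a ∈ maximalIdeal 𝒪'' ^ m := by
    intro m a ha
    have h1 : (maximalIdeal 𝒪' ^ m).map ψ'' ≤ maximalIdeal 𝒪'' ^ m := by
      rw [Ideal.map_pow]
      exact Ideal.pow_right_mono (Ideal.map_le_iff_le_comap.mpr fun a ha =>
        Ideal.mem_comap.mpr (map_nonunit ψ'' a ha)) m
    exact h1 (Ideal.mem_map_of_mem ψ'' ha)
  have hsmall : ∀ g (m : ℕ), (∀ i k, (M g - 1) i k ∈ maximalIdeal 𝒪' ^ m) →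
      ∀ i k, (P g - 1) i k ∈ maximalIdeal 𝒪'' ^ m := by
    intro g m hg i k
    rw [hmax, Ideal.mem_span_singleton]
    refine gadmMat_dvd M'' L hL B g (ϖ ^ m) (hsat _ (pow_ne_zero m hϖ.ne_zero)) ?_ i k
    intro i' k'
    rw [← Ideal.mem_span_singleton, ← hmax]
    have h1 : (M'' g - 1) i' k' = ψ'' ((M g - 1) i' k') := by
      rw [hM'', Matrix.sub_apply, Matrix.sub_apply, map_sub, RingHom.mapMatrix_apply,
        Matrix.map_apply, Matrix.one_apply, Matrix.one_apply]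
      split_ifs <;> simp
    rw [h1]
    exact hmap m _ (hg i' k')
  -- the matrix of the restricted representation in the basis `BU`
  have hmat : ∀ g, LinearMap.toMatrix BU BU (gacRestrict (gacMapRep ρK K'') U hU g) =
      (P g).map j := by
    intro g
    ext i k
    rw [LinearMap.toMatrix_apply, Matrix.map_apply]
    have h1 : gacRestrict (gacMapRep ρK K'') U hU g (BU k) = ∑ i, j (P g i k) • BU i := by
      apply Subtype.ext
      rw [gacRestrict_apply, hBU, ← hK1, gadmMat_mulVec M'' L hL B g k, gadlJ_sum,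
        Submodule.coe_sum]
      refine Finset.sum_congr rfl fun i _ => ?_
      rw [Submodule.coe_smul, hBU]
    rw [h1, Module.Basis.repr_sum_self]
  rcases hcase with h1 | ⟨h2, -, hchar⟩
  · -- a stable line
    obtain rfl : n = 1 := hn.trans h1
    have hψmul : ∀ g g', P (g * g') 0 0 = P g 0 0 * P g' 0 0 := by
      intro g g'
      rw [map_mul, Matrix.mul_apply, Fin.sum_univ_one]
    let ψ₀ : G →* 𝒪'' :=
      { toFun := fun g => P g 0 0
        map_one' := by rw [map_one, Matrix.one_apply_eq]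
        map_mul' := hψmul }
    let ψu : G →* 𝒪''ˣ := ψ₀.toHomUnits
    have hψu : ∀ g, ((ψu g : 𝒪''ˣ) : 𝒪'') = P g 0 0 := fun g => rfl
    let d'' : G →* 𝒪''ˣ := (Units.map (ψ'' : 𝒪' →* 𝒪'')).comp d
    have hd'' : ∀ g, ((d'' g : 𝒪''ˣ) : 𝒪'') = ψ'' ((d g : 𝒪'ˣ) : 𝒪') := fun g => rfl
    refine ⟨gadmDiag ψu d'', ?_, ?_, ?_⟩
    · intro g
      have h3 := gadmDiag_charpoly ψu d'' g (ψ'' (t g)) ?_
      · rw [h3, hd'']
      · have h4 := congrFun (congrFun (gadmMat_rel M'' L hL B g _ _ (hrel'' g)) 0) 0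
        rw [Matrix.mul_apply, Fin.sum_univ_one, Matrix.sub_apply, Matrix.smul_apply,
          Matrix.smul_apply, Matrix.one_apply_eq, smul_eq_mul, smul_eq_mul, mul_one] at h4
        rw [hψu, hd'']
        exact h4
    · intro g hg hdg
      apply gadmDiag_eq_one
      · apply Units.ext
        rw [hψu, hP, gadmMat_eq_one M'' L hL B g (by rw [hM'', hg, map_one]), Units.val_one,
          Matrix.one_apply_eq]
      · show (Units.map (ψ'' : 𝒪' →* 𝒪'')) (d g) = 1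
        rw [hdg, map_one]
    · intro g m hg hdg i k
      apply gadmDiag_sub_one_mem
      · have := hsmall g m hg 0 0
        rwa [Matrix.sub_apply, Matrix.one_apply_eq] at this
      · rw [hd'']
        have := hmap m _ hdg
        rwa [map_sub, map_one] at this
  · -- a stable plane
    obtain rfl : n = 2 := hn.trans h2
    refine ⟨P, ?_, ?_, ?_⟩
    · intro g
      have h3 := hchar g
      rw [← LinearMap.charpoly_toMatrix _ BU, hmat g, Matrix.charpoly_map] at h3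
      apply Polynomial.map_injective j hjinj
      rw [h3]
      simp only [Polynomial.map_add, Polynomial.map_sub, Polynomial.map_mul, Polynomial.map_pow,
        Polynomial.map_X, Polynomial.map_C]
      rw [hcompat, hcompat]
      rfl
    · intro g hg _
      exact gadmMat_eq_one M'' L hL B g (by rw [hM'', hg, map_one])
    · intro g m hg _
      exact hsmall g m hg

end MatrixMain

/-! ### from matrices to `GaloisRepAdic` -/

section OfMatrix

variable {A : Type} [CommRing A] [IsLocalRing A]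

theorem gadm_mem_smul_top {m : ℕ} (I : Ideal A) (w : Fin m → A) (h : ∀ i, w i ∈ I) :
    w ∈ I • (⊤ : Submodule A (Fin m → A)) := by
  classical
  rw [pi_eq_sum_univ w]
  refine Submodule.sum_mem _ fun i _ => ?_
  exact Submodule.smul_mem_smul (h i) Submodule.mem_top

/-- continuity of a matrix representation, entrywise -/
def GadmCont (P : GQ →* Matrix (Fin 2) (Fin 2) A) : Prop :=
  ∀ n : ℕ, ∃ L : IntermediateField ℚ Qb, FiniteDimensional ℚ L ∧
    ∀ σ : GQ, (∀ x ∈ L, σ x = x) → ∀ i k, (P σ - 1) i k ∈ maximalIdeal A ^ n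

/-- the `GaloisRepAdic` of a continuous `2 × 2` matrix representation -/
def gadmOfMatrix (P : GQ →* Matrix (Fin 2) (Fin 2) A) (h : GadmCont P) : GaloisRepAdic A where
  V := Fin 2 → A
  finrank_eq := by simp
  ρ :=
    { toFun := fun σ => Matrix.toLin' (P σ)
      map_one' := by rw [map_one, Matrix.toLin'_one]; rfl
      map_mul' := fun σ τ => by rw [map_mul, Matrix.toLin'_mul]; rfl }
  isAdicContinuous := by
    intro n
    obtain ⟨L, hL, h1⟩ := h n
    refine ⟨L, hL, fun σ hσ v => ?_⟩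
    rw [MonoidHom.coe_mk, OneHom.coe_mk]
    have h2 : Matrix.toLin' (P σ) v - v = (P σ - 1).mulVec v := by
      rw [Matrix.toLin'_apply, Matrix.sub_mulVec, Matrix.one_mulVec]
    rw [h2]
    apply gadm_mem_smul_top
    intro i
    rw [Matrix.mulVec, dotProduct]
    exact Ideal.sum_mem _ fun k _ => Ideal.mul_mem_right _ _ (h1 σ hσ i k)

theorem gadmOfMatrix_ρ (P : GQ →* Matrix (Fin 2) (Fin 2) A) (h : GadmCont P) (σ : GQ) :
    (gadmOfMatrix P h).ρ σ = Matrix.toLin' (P σ) := rfl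

theorem gadmOfMatrix_charpoly (P : GQ →* Matrix (Fin 2) (Fin 2) A) (h : GadmCont P) (σ : GQ) :
    LinearMap.charpoly ((gadmOfMatrix P h).ρ σ) = (P σ).charpoly :=
  Matrix.charpoly_toLin' (P σ)

theorem gadmOfMatrix_eq_one (P : GQ →* Matrix (Fin 2) (Fin 2) A) (h : GadmCont P) (σ : GQ)
    (h1 : P σ = 1) : (gadmOfMatrix P h).ρ σ = 1 := by
  rw [gadmOfMatrix_ρ, h1, Matrix.toLin'_one]
  rfl

end OfMatrix

/-! ### a number field containing a given one and the `m`-th roots of unity -/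

theorem gadm_exists_level (L : IntermediateField ℚ Qb) [FiniteDimensional ℚ L] (m : ℕ)
    (hm : m ≠ 0) :
    ∃ E : IntermediateField ℚ Qb, FiniteDimensional ℚ E ∧ L ≤ E ∧
      ∀ σ : GQ, (∀ x ∈ E, σ x = x) → ∀ ζ : Qb, ζ ^ m = 1 → σ ζ = ζ := by
  haveI : NeZero m := ⟨hm⟩
  haveI : NeZero (m : Qb) := ⟨Nat.cast_ne_zero.mpr hm⟩
  obtain ⟨ζ₀, hζ₀⟩ := HasEnoughRootsOfUnity.exists_primitiveRoot Qb m
  haveI : Algebra.IsAlgebraic ℚ Qb := AlgebraicClosure.isAlgebraic ℚ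
  haveI hZfd : FiniteDimensional ℚ (IntermediateField.adjoin ℚ {ζ₀}) :=
    IntermediateField.adjoin.finiteDimensional (Algebra.IsIntegral.isIntegral ζ₀)
  refine ⟨L ⊔ IntermediateField.adjoin ℚ {ζ₀}, IntermediateField.finiteDimensional_sup L _,
    le_sup_left, ?_⟩
  intro σ hσ ζ hζ
  have h0 : σ ζ₀ = ζ₀ := hσ ζ₀ ((le_sup_right : IntermediateField.adjoin ℚ {ζ₀} ≤ _)
    (IntermediateField.mem_adjoin_simple_self ℚ ζ₀))
  obtain ⟨i, -, rfl⟩ := hζ₀.eq_pow_of_pow_eq_one hζ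
  rw [map_pow, h0]

/-! ### (A7) the engine -/

/-- **(A7) the `p`-adic engine of S30.** -/
theorem gad_main (p : ℕ) [Fact p.Prime] (N : ℕ) (hN : N ≠ 0) (S : Finset ℕ) (hpS : p ∈ S)
    (𝒪' : Type) [CommRing 𝒪'] [IsDomain 𝒪'] [IsDiscreteValuationRing 𝒪']
    [IsAdicComplete (maximalIdeal 𝒪') 𝒪'] [Finite (ResidueField 𝒪')] [CharZero 𝒪']
    (hp : (p : 𝒪') ∈ maximalIdeal 𝒪')
    {Λ : Type} [AddCommGroup Λ] [Module 𝒪' Λ] [Module.Free 𝒪' Λ] [Module.Finite 𝒪' Λ]
    [Nontrivial Λ] (ρ : GQ →* Module.End 𝒪' Λ) (hcont : GaloisActionIsAdicContinuous 𝒪' ρ)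
    (a : ℕ → 𝒪')
    (hunr : ∀ q : ℕ, q.Prime → ¬ q ∣ N → q ≠ p → ∀ A : ValuationSubring Qb,
      A.LiesOverPrime q → ∀ σ ∈ A.inertiaSubgroupIn ℚ, ρ σ = 1)
    (hfrob : ∀ ℓ : ℕ, ℓ.Prime → ¬ ℓ ∣ N → ℓ ∉ S → ∀ A : ValuationSubring Qb,
      A.LiesOverPrime ℓ → ∀ σ : GQ, A.IsFrobeniusAt σ ℓ →
        ρ σ * ρ σ - a ℓ • ρ σ + (ℓ : 𝒪') • (1 : Module.End 𝒪' Λ) = 0) :
    ∃ (𝒪'' : Type) (_ : CommRing 𝒪'') (_ : IsDomain 𝒪'') (_ : IsDiscreteValuationRing 𝒪'')
      (_ : IsAdicComplete (maximalIdeal 𝒪'') 𝒪'') (_ : Finite (ResidueField 𝒪''))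
      (_ : CharZero 𝒪'') (_ : Algebra 𝒪' 𝒪'') (_ : Module.Finite 𝒪' 𝒪'')
      (_ : IsLocalHom (algebraMap 𝒪' 𝒪'')),
      Function.Injective (algebraMap 𝒪' 𝒪'') ∧
      ∃ ρ' : GaloisRepAdic 𝒪'',
        (∀ ℓ : ℕ, ℓ.Prime → ¬ ℓ ∣ N → ℓ ∉ S → ∀ A : ValuationSubring Qb,
          A.LiesOverPrime ℓ → ∀ σ : GQ, A.IsFrobeniusAt σ ℓ →
            LinearMap.charpoly (ρ'.ρ σ) =
              X ^ 2 - C (algebraMap 𝒪' 𝒪'' (a ℓ)) * X + C ((ℓ : 𝒪''))) ∧
        ∀ q : ℕ, q.Prime → ¬ q ∣ N → q ≠ p → ρ'.IsUnramifiedAt q := by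
  classical
  have hpp : p.Prime := Fact.out
  set 𝔪 : Ideal 𝒪' := maximalIdeal 𝒪' with h𝔪
  obtain ⟨d, hd⟩ := gad_exists_cyclo p 𝒪' hp
  have hq := gad_exists_quadratic p N hN S hpS 𝒪' hp ρ hcont a hfrob d hd
  choose t ht using hq
  -- Hausdorff: an element of all `(p^n)` is zero
  have hzero : ∀ x : 𝒪', (∀ n : ℕ, x ∈ Ideal.span {((p ^ n : ℕ) : 𝒪')}) → x = 0 := by
    intro x hx
    apply IsHausdorff.haus (inferInstance : IsHausdorff 𝔪 𝒪')
    intro n
    rw [SModEq.zero, smul_eq_mul, Ideal.mul_top]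
    exact gad_natCast_pow_mem p 𝒪' hp n (hx n)
  -- the cyclotomic character at Frobenius and inertia elements
  have hdfrob : ∀ ℓ : ℕ, ℓ.Prime → ℓ ≠ p → ∀ A : ValuationSubring Qb, A.LiesOverPrime ℓ →
      ∀ σ : GQ, A.IsFrobeniusAt σ ℓ → ((d σ : 𝒪'ˣ) : 𝒪') = (ℓ : 𝒪') := by
    intro ℓ hℓ hℓp A hA σ hσ
    rw [← sub_eq_zero]
    exact hzero _ fun n => hd n σ ℓ fun ζ hζ => (gad_frob_root p hℓ hℓp A hA n ζ hζ).1 σ hσ
  have hdin : ∀ q : ℕ, q.Prime → q ≠ p → ∀ A : ValuationSubring Qb, A.LiesOverPrime q →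
      ∀ σ ∈ A.inertiaSubgroupIn ℚ, d σ = 1 := by
    intro q hq hqp A hA σ hσ
    apply Units.ext
    rw [Units.val_one, ← sub_eq_zero]
    apply hzero
    intro n
    have := hd n σ 1 fun ζ hζ => by
      rw [pow_one]
      exact (gad_frob_root p hq hqp A hA n ζ hζ).2 σ hσ
    simpa using this
  -- matrices
  set r : ℕ := Module.finrank 𝒪' Λ with hr
  haveI : NeZero r := ⟨(Module.finrank_pos (R := 𝒪') (M := Λ)).ne'⟩
  let b : Module.Basis (Fin r) 𝒪' Λ := Module.finBasis 𝒪' Λ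
  let M : GQ →* Matrix (Fin r) (Fin r) 𝒪' :=
    ((LinearMap.toMatrixAlgEquiv b : Module.End 𝒪' Λ ≃ₐ[𝒪'] Matrix (Fin r) (Fin r) 𝒪') :
      Module.End 𝒪' Λ →* Matrix (Fin r) (Fin r) 𝒪').comp ρ
  have hMdef : ∀ g, M g = LinearMap.toMatrixAlgEquiv b (ρ g) := fun g => rfl
  have hM : ∀ g, M g * M g = t g • M g - ((d g : 𝒪'ˣ) : 𝒪') • (1 : Matrix (Fin r) (Fin r) 𝒪') := by
    intro g
    have h1 := congrArg (LinearMap.toMatrixAlgEquiv b) (ht g)
    have e1 : LinearMap.toMatrixAlgEquiv b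
        (ρ g * ρ g - t g • ρ g + ((d g : 𝒪'ˣ) : 𝒪') • (1 : Module.End 𝒪' Λ)) =
        M g * M g - t g • M g + ((d g : 𝒪'ˣ) : 𝒪') • (1 : Matrix (Fin r) (Fin r) 𝒪') := by
      refine (map_add (LinearMap.toMatrixAlgEquiv b) _ _).trans ?_
      rw [map_smul, map_one]
      congr 1
      refine (map_sub (LinearMap.toMatrixAlgEquiv b) _ _).trans ?_
      rw [map_mul, map_smul]
      rfl
    rw [e1, map_zero] at h1
    rw [← sub_eq_zero, ← h1]
    abel
  have hMone : ∀ g, ρ g = 1 → M g = 1 := by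
    intro g hg
    rw [hMdef, hg, map_one]
  have hMsmall : ∀ (g : GQ) (n : ℕ), (∀ v : Λ, ρ g v - v ∈ (𝔪 ^ n) • (⊤ : Submodule 𝒪' Λ)) →
      ∀ i k, (M g - 1) i k ∈ 𝔪 ^ n := by
    intro g n hg i k
    have h1 : (M g - 1) i k = b.coord i (ρ g (b k) - b k) := by
      rw [Matrix.sub_apply, hMdef, LinearMap.toMatrixAlgEquiv_apply, map_sub,
        Module.Basis.coord_apply, Module.Basis.coord_apply, Module.Basis.repr_self,
        Matrix.one_apply, Finsupp.single_apply]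
      congr 1
      by_cases hik : i = k
      · rw [if_pos hik, if_pos hik.symm]
      · rw [if_neg hik, if_neg (Ne.symm hik)]
    rw [h1]
    exact gad_functional_mem (b.coord i) (hg (b k))
  obtain ⟨𝒪'', i1, i2, i3, i4, i5, i6, i7, i8, i9, hinj, P, hchar, hone, hsm⟩ :=
    gad_main_matrix 𝒪' M t d hM
  have hPcont : GadmCont P := by
    intro n
    obtain ⟨L, hLfd, hL⟩ := hcont n
    haveI := hLfd
    obtain ⟨E, hEfd, hLE, hE⟩ := gadm_exists_level L (p ^ n) (pow_ne_zero _ hpp.ne_zero)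
    refine ⟨E, hEfd, fun σ hσ => ?_⟩
    apply hsm σ n
    · exact hMsmall σ n (hL σ fun x hx => hσ x (hLE hx))
    · have := hd n σ 1 fun ζ hζ => by rw [pow_one]; exact hE σ hσ ζ hζ
      have h2 := gad_natCast_pow_mem p 𝒪' hp n this
      simpa using h2
  refine ⟨𝒪'', i1, i2, i3, i4, i5, i6, i7, i8, i9, hinj, gadmOfMatrix P hPcont, ?_, ?_⟩
  · intro ℓ hℓ hℓN hℓS A hA σ hσ
    have hℓp : ℓ ≠ p := fun h => hℓS (h ▸ hpS)
    have hdσ := hdfrob ℓ hℓ hℓp A hA σ hσ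
    -- `t σ = a ℓ`
    have h1 := ht σ
    have h2 := hfrob ℓ hℓ hℓN hℓS A hA σ hσ
    rw [hdσ] at h1
    have h3 : (t σ - a ℓ) • ρ σ = 0 := by
      rw [sub_smul]
      have h4 : ρ σ * ρ σ - a ℓ • ρ σ + (ℓ : 𝒪') • (1 : Module.End 𝒪' Λ) -
          (ρ σ * ρ σ - t σ • ρ σ + (ℓ : 𝒪') • (1 : Module.End 𝒪' Λ)) = 0 := by
        rw [h1, h2, sub_zero]
      rw [← h4]
      abel
    have h5 : t σ = a ℓ := by
      have h6 : (t σ - a ℓ) • (1 : Module.End 𝒪' Λ) = 0 := by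
        have := congrArg (fun x => x * ρ σ⁻¹) h3
        simp only [smul_mul_assoc, zero_mul] at this
        rwa [← map_mul, mul_inv_cancel, map_one] at this
      obtain ⟨w, hw⟩ := exists_ne (0 : Λ)
      have h7 : (t σ - a ℓ) • w = 0 := by
        have := LinearMap.congr_fun h6 w
        simpa using this
      rcases smul_eq_zero.mp h7 with h8 | h8
      · exact sub_eq_zero.mp h8
      · exact absurd h8 hw
    rw [gadmOfMatrix_charpoly, hchar σ, h5, hdσ, map_natCast]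
  · intro q hq hqN hqp A hA σ hσ
    exact gadmOfMatrix_eq_one P hPcont σ
      (hone σ (hMone σ (hunr q hq hqN hqp A hA σ hσ)) (hdin q hq hqp A hA σ hσ))

end Fermat.Agent.G
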