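import Mathlib

/-!
# Program G / S30, package G/Adic : the `p`-adic Tate module of an abelian group (AXIOMATISED)

`GatTate p J` packages a model of `T_p J = lim_n J[p^n]` (transition maps = multiplication by `p`)
together with its `ℤ_[p]`-module structure, through its universal property:

* `ev n : T →+ J` the `n`-th component, `ev 0 = 0`, `p • ev (n+1) x = ev n x`;
* `ext`  : the `ev n` are jointly injective;
* `surj` : every compatible sequence is the sequence of components of an element;
* `ev_smul` : `c : ℤ_[p]` acts on the `n`-th component through the natural number `c.appr n`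
  (`c - c.appr n ∈ p^n ℤ_[p]`).

Everything else (functoriality, `ker (ev n) = p^n T`, torsion-freeness, finiteness and freeness
when `J[p]` is finite) is DERIVED from these axioms in the leaves of `Spec2.lean`.
-/

set_option autoImplicit false

namespace Fermat.Agent.G

/-- a model of the `p`-adic Tate module `T_p J` of an abelian group `J`. -/
structure GatTate (p : ℕ) [Fact p.Prime] (J : Type) [AddCommGroup J] where
  /-- the underlying type -/
  T : Type
  [instAddCommGroup : AddCommGroup T]
  [instModule : Module ℤ_[p] T]
  /-- the `n`-th component -/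
  ev : ℕ → T →+ J
  ev_zero : ∀ x : T, ev 0 x = 0
  ev_succ : ∀ (n : ℕ) (x : T), p • ev (n + 1) x = ev n x
  ext : ∀ x y : T, (∀ n : ℕ, ev n x = ev n y) → x = y
  surj : ∀ f : ℕ → J, f 0 = 0 → (∀ n : ℕ, p • f (n + 1) = f n) → ∃ x : T, ∀ n : ℕ, ev n x = f n
  ev_smul : ∀ (c : ℤ_[p]) (n : ℕ) (x : T), ev n (c • x) = c.appr n • ev n x

attribute [instance] GatTate.instAddCommGroup GatTate.instModule

end Fermat.Agent.G
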