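import Mathlib
import Fermat.Agent.G.Adic.TateDefs
import Fermat.Prelude.Def_GaloisRep_Adic
import Fermat.Prelude.Def_EllipticCurve_FrobeniusTrace
import Fermat.Prelude.Def_FLTPrelim_Ramification

/-!
# Program G / S30, package G/Adic, row (TATE): from the Tate module to `gad_main` (black boxes as
hypotheses)

`gadt_of_tate_aux` is the statement `gad_of_tate` of `G/Adic/Spec2.lean` (origin/helper2 094fd9b)
with the black boxes `gat_exists_lift`, `gat_eq_smul_of_ev_eq_zero`, `gat_finite_free` (rows T-LIFT,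
T-FF) and `gad_main` (A7) as explicit hypotheses; this file imports no stub.  The wiring is in
`G/Adic/OfTate.lean`.

* `gadtEigen t a` : the simultaneous eigen-submodule; saturated (`gadt_eigen_saturated`), stable
  under commuting endomorphisms (`gadt_eigen_stable`);
* `gadt_core` : the abstract core: a finite free `O'`-module `Λ₀` with a Galois action `ρ₀`
  commuting with Hecke operators `t₀ ℓ`, continuous in the sense `ρ₀ σ - 1 ∈ p^n End` on open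
  subgroups, unramified, with Eichler-Shimura relations and a nonzero eigenvector, gives the
  conclusion of S30 through `gad_main` applied to the eigen-submodule;
* `gadtRho` : the Galois action on the Tate module (lifts are unique by `ext`);
* `gadt_cont_T` : its `p`-adic continuity (generators of `T` + open stabilisers + `ker ev n = p^n T`).
-/

set_option autoImplicit false
set_option linter.style.haveILetI false

noncomputable section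

namespace Fermat.Agent.G

open Polynomial IsLocalRing
open scoped TensorProduct

local notation "Qb" => AlgebraicClosure ℚ
local notation "GQ" => (AlgebraicClosure ℚ ≃ₐ[ℚ] AlgebraicClosure ℚ)

section Eigen

variable {R : Type*} [CommRing R] {M : Type*} [AddCommGroup M] [Module R M] {ι : Type*}

/-- the simultaneous eigen-submodule of a family of endomorphisms -/
def gadtEigen (t : ι → Module.End R M) (a : ι → R) : Submodule R M where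
  carrier := {v | ∀ i, t i v = a i • v}
  add_mem' := fun {x y} hx hy i => by rw [map_add, hx i, hy i, smul_add]
  zero_mem' := fun i => by rw [map_zero, smul_zero]
  smul_mem' := fun c x hx i => by rw [map_smul, hx i, smul_comm]

theorem gadt_mem_eigen {t : ι → Module.End R M} {a : ι → R} {v : M} :
    v ∈ gadtEigen t a ↔ ∀ i, t i v = a i • v := Iff.rfl

/-- the eigen-submodule is saturated -/
theorem gadt_eigen_saturated [IsDomain R] [Module.IsTorsionFree R M] {t : ι → Module.End R M} {a : ι → R}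
    {c : R} (hc : c ≠ 0) {u : M} (h : c • u ∈ gadtEigen t a) : u ∈ gadtEigen t a := by
  intro i
  have h1 := h i
  rw [map_smul, smul_comm] at h1
  exact smul_right_injective M hc h1

/-- the eigen-submodule is stable under an endomorphism commuting with the family -/
theorem gadt_eigen_stable {t : ι → Module.End R M} {a : ι → R} (g : Module.End R M)
    (hg : ∀ i, g * t i = t i * g) {v : M} (hv : v ∈ gadtEigen t a) : g v ∈ gadtEigen t a := by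
  intro i
  have h1 : t i (g v) = g (t i v) := by
    have := congrArg (fun f : Module.End R M => f v) (hg i)
    simpa using this.symm
  rw [h1, hv i, map_smul]

end Eigen

section Restrict

variable {R : Type*} [CommRing R] {M : Type*} [AddCommGroup M] [Module R M]
  {G : Type*} [Monoid G]

/-- restriction of a representation to a stable submodule -/
def gadtRestrict (ρ₀ : G →* Module.End R M) (Λ : Submodule R M)
    (hst : ∀ g : G, ∀ v ∈ Λ, ρ₀ g v ∈ Λ) : G →* Module.End R Λ where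
  toFun g := (ρ₀ g).restrict (hst g)
  map_one' := by
    ext v
    simp
  map_mul' g h := by
    ext v
    simp [LinearMap.restrict_apply]

@[simp] theorem gadtRestrict_apply (ρ₀ : G →* Module.End R M) (Λ : Submodule R M)
    (hst : ∀ g : G, ∀ v ∈ Λ, ρ₀ g v ∈ Λ) (g : G) (v : Λ) :
    ((gadtRestrict ρ₀ Λ hst g v : Λ) : M) = ρ₀ g (v : M) := rfl

end Restrict


/-! ### the abstract core: from a finite free module with commuting Hecke operators to `gad_main` -/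

section Core

/-- the conclusion of `gad_main` / of S30 -/
def GadtConcl (p : ℕ) (N : ℕ) (S : Finset ℕ) (𝒪' : Type) [CommRing 𝒪'] (a : ℕ → 𝒪') : Prop :=
  ∃ (𝒪'' : Type) (_ : CommRing 𝒪'') (_ : IsDomain 𝒪'') (_ : IsDiscreteValuationRing 𝒪'')
    (_ : IsAdicComplete (maximalIdeal 𝒪'') 𝒪'') (_ : Finite (ResidueField 𝒪''))
    (_ : CharZero 𝒪'') (_ : Algebra 𝒪' 𝒪'') (_ : Module.Finite 𝒪' 𝒪'')
    (_ : IsLocalHom (algebraMap 𝒪' 𝒪'')),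
    Function.Injective (algebraMap 𝒪' 𝒪'') ∧
    ∃ ρ' : GaloisRepAdic 𝒪'',
      (∀ ℓ : ℕ, ℓ.Prime → ¬ ℓ ∣ N → ℓ ∉ S → ∀ A : ValuationSubring Qb,
        A.LiesOverPrime ℓ → ∀ σ : GQ, A.IsFrobeniusAt σ ℓ →
          LinearMap.charpoly (ρ'.ρ σ) =
            X ^ 2 - C (algebraMap 𝒪' 𝒪'' (a ℓ)) * X + C ((ℓ : 𝒪''))) ∧
      ∀ q : ℕ, q.Prime → ¬ q ∣ N → q ≠ p → ρ'.IsUnramifiedAt q

/-- the statement of `gad_main` (for fixed `p N S 𝒪'`), as a hypothesis -/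
def GadtMain (p : ℕ) (N : ℕ) (S : Finset ℕ) (𝒪' : Type) [CommRing 𝒪'] [IsDomain 𝒪']
    [IsDiscreteValuationRing 𝒪'] : Prop :=
  ∀ {Λ : Type} [AddCommGroup Λ] [Module 𝒪' Λ] [Module.Free 𝒪' Λ] [Module.Finite 𝒪' Λ]
    [Nontrivial Λ] (ρ : GQ →* Module.End 𝒪' Λ) (_ : GaloisActionIsAdicContinuous 𝒪' ρ)
    (a : ℕ → 𝒪')
    (_ : ∀ q : ℕ, q.Prime → ¬ q ∣ N → q ≠ p → ∀ A : ValuationSubring Qb,
      A.LiesOverPrime q → ∀ σ ∈ A.inertiaSubgroupIn ℚ, ρ σ = 1)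
    (_ : ∀ ℓ : ℕ, ℓ.Prime → ¬ ℓ ∣ N → ℓ ∉ S → ∀ A : ValuationSubring Qb,
      A.LiesOverPrime ℓ → ∀ σ : GQ, A.IsFrobeniusAt σ ℓ →
        ρ σ * ρ σ - a ℓ • ρ σ + (ℓ : 𝒪') • (1 : Module.End 𝒪' Λ) = 0),
    GadtConcl p N S 𝒪' a

theorem gadt_core (p : ℕ) [Fact p.Prime] (N : ℕ) (S : Finset ℕ)
    (𝒪' : Type) [CommRing 𝒪'] [IsDomain 𝒪'] [IsDiscreteValuationRing 𝒪'] [CharZero 𝒪']
    (hp : (p : 𝒪') ∈ maximalIdeal 𝒪')
    (Λ₀ : Type) [AddCommGroup Λ₀] [Module 𝒪' Λ₀] [Module.Free 𝒪' Λ₀] [Module.Finite 𝒪' Λ₀]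
    (ρ₀ : GQ →* Module.End 𝒪' Λ₀) (t₀ : ℕ → Module.End 𝒪' Λ₀) (a : ℕ → 𝒪')
    (hcomm₀ : ∀ (ℓ : ℕ) (σ : GQ), ρ₀ σ * t₀ ℓ = t₀ ℓ * ρ₀ σ)
    (hcont₀ : ∀ n : ℕ, ∃ L : IntermediateField ℚ Qb, FiniteDimensional ℚ L ∧
      ∀ σ : GQ, (∀ y ∈ L, σ y = y) → ∀ v : Λ₀, ∃ u : Λ₀, ρ₀ σ v - v = (p ^ n : ℕ) • u)
    (hunr₀ : ∀ q : ℕ, q.Prime → ¬ q ∣ N → q ≠ p → ∀ A : ValuationSubring Qb,
      A.LiesOverPrime q → ∀ σ ∈ A.inertiaSubgroupIn ℚ, ρ₀ σ = 1)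
    (hfrob₀ : ∀ ℓ : ℕ, ℓ.Prime → ¬ ℓ ∣ N → ℓ ∉ S → ∀ A : ValuationSubring Qb,
      A.LiesOverPrime ℓ → ∀ σ : GQ, A.IsFrobeniusAt σ ℓ →
        ρ₀ σ * ρ₀ σ - t₀ ℓ * ρ₀ σ + (ℓ : 𝒪') • (1 : Module.End 𝒪' Λ₀) = 0)
    (hv : ∃ v : Λ₀, v ≠ 0 ∧ ∀ ℓ : ℕ, ℓ.Prime → ¬ ℓ ∣ N → ℓ ∉ S → t₀ ℓ v = a ℓ • v)
    (hmain : GadtMain p N S 𝒪') : GadtConcl p N S 𝒪' a := by
  -- the eigen-submodule
  let ι : Type := {ℓ : ℕ // ℓ.Prime ∧ ¬ ℓ ∣ N ∧ ℓ ∉ S}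
  let Λ : Submodule 𝒪' Λ₀ := gadtEigen (fun i : ι => t₀ i.1) (fun i : ι => a i.1)
  have hΛ : ∀ v : Λ₀, v ∈ Λ ↔ ∀ ℓ : ℕ, ℓ.Prime → ¬ ℓ ∣ N → ℓ ∉ S → t₀ ℓ v = a ℓ • v := by
    intro v
    constructor
    · intro h ℓ h1 h2 h3
      exact h ⟨ℓ, h1, h2, h3⟩
    · intro h i
      exact h i.1 i.2.1 i.2.2.1 i.2.2.2
  have hst : ∀ σ : GQ, ∀ v ∈ Λ, ρ₀ σ v ∈ Λ := fun σ v hv' =>
    gadt_eigen_stable (ρ₀ σ) (fun i => hcomm₀ i.1 σ) hv'
  haveI : Nontrivial Λ := by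
    obtain ⟨v, hv0, hv1⟩ := hv
    exact ⟨⟨⟨v, (hΛ v).2 hv1⟩, 0, fun h => hv0 (congrArg Subtype.val h)⟩⟩
  have hpn : ∀ n : ℕ, ((p : 𝒪') ^ n) ≠ 0 := fun n =>
    pow_ne_zero n (by exact_mod_cast (Fact.out : p.Prime).ne_zero)
  refine hmain (Λ := Λ) (gadtRestrict ρ₀ Λ hst) ?_ a ?_ ?_
  · -- continuity
    intro n
    obtain ⟨L, hL, hLσ⟩ := hcont₀ n
    refine ⟨L, hL, fun σ hσ v => ?_⟩
    obtain ⟨u, hu⟩ := hLσ σ hσ (v : Λ₀)
    have hu' : ρ₀ σ (v : Λ₀) - (v : Λ₀) = ((p : 𝒪') ^ n) • u := by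
      rw [hu, ← Nat.cast_smul_eq_nsmul 𝒪', Nat.cast_pow]
    have hmem : ((p : 𝒪') ^ n) • u ∈ Λ := by
      rw [← hu']
      exact Λ.sub_mem (hst σ _ v.2) v.2
    have huΛ : u ∈ Λ := gadt_eigen_saturated (hpn n) hmem
    have heq : gadtRestrict ρ₀ Λ hst σ v - v = ((p : 𝒪') ^ n) • (⟨u, huΛ⟩ : Λ) := by
      apply Subtype.ext
      exact hu'
    rw [heq]
    exact Submodule.smul_mem_smul (Ideal.pow_mem_pow hp n) Submodule.mem_top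
  · -- unramified
    intro q hq hqN hqp A hA σ hσ
    ext v
    have := hunr₀ q hq hqN hqp A hA σ hσ
    show ρ₀ σ (v : Λ₀) = (v : Λ₀)
    rw [this]
    rfl
  · -- Frobenius
    intro ℓ hℓ hℓN hℓS A hA σ hσ
    ext v
    have h1 := hfrob₀ ℓ hℓ hℓN hℓS A hA σ hσ
    have h2 := congrArg (fun f : Module.End 𝒪' Λ₀ => f (v : Λ₀)) h1
    have h3 : t₀ ℓ (ρ₀ σ (v : Λ₀)) = a ℓ • ρ₀ σ (v : Λ₀) :=
      (hΛ _).1 (hst σ _ v.2) ℓ hℓ hℓN hℓS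
    simp only [LinearMap.add_apply, LinearMap.sub_apply, Module.End.mul_apply,
      LinearMap.smul_apply, Module.End.one_apply, LinearMap.zero_apply] at h2
    rw [h3] at h2
    simpa using h2

end Core


/-! ### the Tate module part -/

section Tate

variable {p : ℕ} [Fact p.Prime] {J : Type} [AddCommGroup J] (𝒯 : GatTate p J)

/-- the `n`-th component is killed by `p ^ n` -/
theorem gadt_pow_smul_ev (n : ℕ) (x : 𝒯.T) : p ^ n • 𝒯.ev n x = 0 := by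
  induction n with
  | zero => rw [pow_zero, one_smul]; exact 𝒯.ev_zero x
  | succ n ih => rw [pow_succ, mul_smul, 𝒯.ev_succ]; exact ih

/-- base change of a congruence `w ≡ 1 mod k` -/
theorem gadt_baseChange_sub (R : Type) [CommRing R] [Algebra ℤ_[p] R]
    (w : 𝒯.T →ₗ[ℤ_[p]] 𝒯.T) (k : ℕ) (h : ∀ x : 𝒯.T, ∃ y : 𝒯.T, w x - x = k • y)
    (v : R ⊗[ℤ_[p]] 𝒯.T) : ∃ u : R ⊗[ℤ_[p]] 𝒯.T, w.baseChange R v - v = k • u := by
  induction v using TensorProduct.induction_on with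
  | zero => exact ⟨0, by simp⟩
  | tmul b x =>
    obtain ⟨y, hy⟩ := h x
    refine ⟨b ⊗ₜ[ℤ_[p]] y, ?_⟩
    rw [LinearMap.baseChange_tmul, ← TensorProduct.tmul_sub, hy, ← Nat.cast_smul_eq_nsmul ℤ_[p],
      TensorProduct.tmul_smul, Nat.cast_smul_eq_nsmul]
  | add v₁ v₂ h₁ h₂ =>
    obtain ⟨u₁, hu₁⟩ := h₁
    obtain ⟨u₂, hu₂⟩ := h₂
    refine ⟨u₁ + u₂, ?_⟩
    rw [map_add, add_sub_add_comm, hu₁, hu₂, smul_add]

variable (hlift : ∀ f : J →+ J, ∃ w : 𝒯.T →ₗ[ℤ_[p]] 𝒯.T,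
  ∀ (n : ℕ) (x : 𝒯.T), 𝒯.ev n (w x) = f (𝒯.ev n x))

/-- a chosen lift of an additive endomorphism of `J` to the Tate module -/
def gadtLift (f : J →+ J) : 𝒯.T →ₗ[ℤ_[p]] 𝒯.T := Classical.choose (hlift f)

theorem gadtLift_spec (f : J →+ J) (n : ℕ) (x : 𝒯.T) :
    𝒯.ev n (gadtLift 𝒯 hlift f x) = f (𝒯.ev n x) := Classical.choose_spec (hlift f) n x

variable [DistribMulAction GQ J]

/-- the Galois action on the Tate module -/
def gadtRho : GQ →* Module.End ℤ_[p] 𝒯.T where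
  toFun σ := gadtLift 𝒯 hlift (DistribSMul.toAddMonoidHom J σ)
  map_one' := LinearMap.ext fun x => 𝒯.ext _ _ fun n => by
    rw [gadtLift_spec]
    simp
  map_mul' σ τ := LinearMap.ext fun x => 𝒯.ext _ _ fun n => by
    rw [gadtLift_spec, Module.End.mul_apply, gadtLift_spec, gadtLift_spec]
    simp [mul_smul]

theorem gadtRho_spec (σ : GQ) (n : ℕ) (x : 𝒯.T) :
    𝒯.ev n (gadtRho 𝒯 hlift σ x) = σ • 𝒯.ev n x :=
  gadtLift_spec 𝒯 hlift _ n x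

/-- finitely many torsion points are fixed by an open subgroup -/
theorem gadt_exists_fixing
    (hopen : ∀ x : J, (∃ n : ℕ, p ^ n • x = 0) → ∃ L : IntermediateField ℚ Qb,
      FiniteDimensional ℚ L ∧ ∀ σ : GQ, (∀ y ∈ L, σ y = y) → σ • x = x)
    (n : ℕ) (s : Finset 𝒯.T) :
    ∃ L : IntermediateField ℚ Qb, FiniteDimensional ℚ L ∧
      ∀ σ : GQ, (∀ y ∈ L, σ y = y) → ∀ x ∈ s, σ • 𝒯.ev n x = 𝒯.ev n x := by
  classical
  induction s using Finset.induction_on with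
  | empty =>
    exact ⟨⊥, inferInstance, fun σ _ x hx => absurd hx (Finset.notMem_empty x)⟩
  | insert a s ha ih =>
    obtain ⟨L₁, hL₁, h₁⟩ := hopen (𝒯.ev n a) ⟨n, gadt_pow_smul_ev 𝒯 n a⟩
    obtain ⟨L₂, hL₂, h₂⟩ := ih
    refine ⟨L₁ ⊔ L₂, IntermediateField.finiteDimensional_sup L₁ L₂, fun σ hσ x hx => ?_⟩
    rcases Finset.mem_insert.1 hx with rfl | hx
    · exact h₁ σ fun y hy => hσ y ((le_sup_left : L₁ ≤ L₁ ⊔ L₂) hy)
    · exact h₂ σ (fun y hy => hσ y ((le_sup_right : L₂ ≤ L₁ ⊔ L₂) hy)) x hx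

/-- the Galois action on the Tate module is `p`-adically continuous -/
theorem gadt_cont_T [Module.Finite ℤ_[p] 𝒯.T]
    (hker : ∀ (n : ℕ) (x : 𝒯.T), 𝒯.ev n x = 0 → ∃ y : 𝒯.T, x = (p ^ n : ℕ) • y)
    (hopen : ∀ x : J, (∃ n : ℕ, p ^ n • x = 0) → ∃ L : IntermediateField ℚ Qb,
      FiniteDimensional ℚ L ∧ ∀ σ : GQ, (∀ y ∈ L, σ y = y) → σ • x = x)
    (n : ℕ) :
    ∃ L : IntermediateField ℚ Qb, FiniteDimensional ℚ L ∧
      ∀ σ : GQ, (∀ y ∈ L, σ y = y) → ∀ x : 𝒯.T, ∃ y : 𝒯.T,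
        gadtRho 𝒯 hlift σ x - x = (p ^ n : ℕ) • y := by
  obtain ⟨s, hs⟩ := (Module.Finite.fg_top : (⊤ : Submodule ℤ_[p] 𝒯.T).FG)
  obtain ⟨L, hL, hLσ⟩ := gadt_exists_fixing 𝒯 hopen n s
  refine ⟨L, hL, fun σ hσ x => ?_⟩
  -- the submodule of elements whose `n`-th component is fixed by `σ`
  let K : Submodule ℤ_[p] 𝒯.T :=
    { carrier := {x | σ • 𝒯.ev n x = 𝒯.ev n x}
      add_mem' := fun {x y} hx hy => by
        show σ • 𝒯.ev n (x + y) = 𝒯.ev n (x + y)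
        rw [map_add, smul_add, hx, hy]
      zero_mem' := by
        show σ • 𝒯.ev n 0 = 𝒯.ev n 0
        rw [map_zero, smul_zero]
      smul_mem' := fun c x hx => by
        show σ • 𝒯.ev n (c • x) = 𝒯.ev n (c • x)
        rw [𝒯.ev_smul]
        have h1 : σ • (c.appr n • 𝒯.ev n x) = c.appr n • (σ • 𝒯.ev n x) :=
          (DistribSMul.toAddMonoidHom J σ).map_nsmul _ _
        rw [h1, hx] }
  have hK : (⊤ : Submodule ℤ_[p] 𝒯.T) ≤ K := by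
    rw [← hs]
    exact Submodule.span_le.2 fun y hy => hLσ σ hσ y hy
  have hx : σ • 𝒯.ev n x = 𝒯.ev n x := hK (Submodule.mem_top : x ∈ ⊤)
  apply hker
  rw [map_sub, gadtRho_spec, hx, sub_self]

end Tate


/-! ### the assembly -/

section Assembly

/-- **(TATE)**, with the black boxes (`gat_exists_lift`, `gat_eq_smul_of_ev_eq_zero`,
`gat_finite_free`, `gad_main`) as hypotheses. -/
theorem gadt_of_tate_aux (p : ℕ) [Fact p.Prime] (N : ℕ) (S : Finset ℕ)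
    (𝒪' : Type) [CommRing 𝒪'] [IsDomain 𝒪'] [IsDiscreteValuationRing 𝒪'] [CharZero 𝒪']
    (hp : (p : 𝒪') ∈ maximalIdeal 𝒪') [Algebra ℤ_[p] 𝒪']
    {J : Type} [AddCommGroup J] [DistribMulAction GQ J] (𝒯 : GatTate p J)
    (hopen : ∀ x : J, (∃ n : ℕ, p ^ n • x = 0) → ∃ L : IntermediateField ℚ Qb,
      FiniteDimensional ℚ L ∧ ∀ σ : GQ, (∀ y ∈ L, σ y = y) → σ • x = x)
    (Tℓ : ℕ → (J →+ J)) (hcomm : ∀ (ℓ : ℕ) (σ : GQ) (x : J), Tℓ ℓ (σ • x) = σ • Tℓ ℓ x)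
    (a : ℕ → 𝒪')
    (hunr : ∀ q : ℕ, q.Prime → ¬ q ∣ N → q ≠ p → ∀ A : ValuationSubring Qb,
      A.LiesOverPrime q → ∀ σ ∈ A.inertiaSubgroupIn ℚ, ∀ x : J, (∃ n : ℕ, p ^ n • x = 0) →
        σ • x = x)
    (hfrob : ∀ ℓ : ℕ, ℓ.Prime → ¬ ℓ ∣ N → ℓ ∉ S → ∀ A : ValuationSubring Qb,
      A.LiesOverPrime ℓ → ∀ σ : GQ, A.IsFrobeniusAt σ ℓ → ∀ x : J, (∃ n : ℕ, p ^ n • x = 0) →
        σ • σ • x - Tℓ ℓ (σ • x) + ℓ • x = 0)
    (hv : ∃ v : 𝒪' ⊗[ℤ_[p]] 𝒯.T, v ≠ 0 ∧ ∀ ℓ : ℕ, ℓ.Prime → ¬ ℓ ∣ N → ℓ ∉ S →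
      ∀ w : 𝒯.T →ₗ[ℤ_[p]] 𝒯.T, (∀ (n : ℕ) (x : 𝒯.T), 𝒯.ev n (w x) = Tℓ ℓ (𝒯.ev n x)) →
        w.baseChange 𝒪' v = a ℓ • v)
    (hlift : ∀ f : J →+ J, ∃ w : 𝒯.T →ₗ[ℤ_[p]] 𝒯.T,
      ∀ (n : ℕ) (x : 𝒯.T), 𝒯.ev n (w x) = f (𝒯.ev n x))
    (hker : ∀ (n : ℕ) (x : 𝒯.T), 𝒯.ev n x = 0 → ∃ y : 𝒯.T, x = (p ^ n : ℕ) • y)
    (hff : Module.Finite ℤ_[p] 𝒯.T ∧ Module.Free ℤ_[p] 𝒯.T)
    (hmain : GadtMain p N S 𝒪') : GadtConcl p N S 𝒪' a := by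
  obtain ⟨hfinT, hfreeT⟩ := hff
  haveI := hfinT
  haveI := hfreeT
  have htors : ∀ (n : ℕ) (x : 𝒯.T), ∃ m : ℕ, p ^ m • 𝒯.ev n x = 0 := fun n x =>
    ⟨n, gadt_pow_smul_ev 𝒯 n x⟩
  -- the Hecke operators on `T`
  let tT : ℕ → Module.End ℤ_[p] 𝒯.T := fun ℓ => gadtLift 𝒯 hlift (Tℓ ℓ)
  have htT : ∀ (ℓ n : ℕ) (x : 𝒯.T), 𝒯.ev n (tT ℓ x) = Tℓ ℓ (𝒯.ev n x) := fun ℓ n x =>
    gadtLift_spec 𝒯 hlift (Tℓ ℓ) n x
  have hρT : ∀ (σ : GQ) (n : ℕ) (x : 𝒯.T), 𝒯.ev n (gadtRho 𝒯 hlift σ x) = σ • 𝒯.ev n x :=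
    gadtRho_spec 𝒯 hlift
  -- base change
  let ρ₀ : GQ →* Module.End 𝒪' (𝒪' ⊗[ℤ_[p]] 𝒯.T) :=
    { toFun := fun σ => (gadtRho 𝒯 hlift σ).baseChange 𝒪'
      map_one' := by rw [map_one]; exact LinearMap.baseChange_one _ _
      map_mul' := fun σ τ => by rw [map_mul]; exact LinearMap.baseChange_mul _ _ }
  have hρ₀ : ∀ σ : GQ, ρ₀ σ = (gadtRho 𝒯 hlift σ).baseChange 𝒪' := fun σ => rfl
  let t₀ : ℕ → Module.End 𝒪' (𝒪' ⊗[ℤ_[p]] 𝒯.T) := fun ℓ => (tT ℓ).baseChange 𝒪'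
  have ht₀ : ∀ ℓ : ℕ, t₀ ℓ = (tT ℓ).baseChange 𝒪' := fun ℓ => rfl
  refine gadt_core p N S 𝒪' hp (𝒪' ⊗[ℤ_[p]] 𝒯.T) ρ₀ t₀ a ?_ ?_ ?_ ?_ ?_ hmain
  · -- commutation
    intro ℓ σ
    have h1 : gadtRho 𝒯 hlift σ * tT ℓ = tT ℓ * gadtRho 𝒯 hlift σ := by
      refine LinearMap.ext fun x => 𝒯.ext _ _ fun n => ?_
      rw [Module.End.mul_apply, Module.End.mul_apply, hρT, htT, htT, hρT, hcomm]
    rw [hρ₀, ht₀]
    have h2 := congrArg (LinearMap.baseChange 𝒪') h1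
    rw [LinearMap.baseChange_mul, LinearMap.baseChange_mul] at h2
    exact h2
  · -- continuity
    intro n
    obtain ⟨L, hL, hLσ⟩ := gadt_cont_T 𝒯 hlift hker hopen n
    exact ⟨L, hL, fun σ hσ v => gadt_baseChange_sub 𝒯 𝒪' _ _ (hLσ σ hσ) v⟩
  · -- inertia
    intro q hq hqN hqp A hA σ hσ
    have h1 : gadtRho 𝒯 hlift σ = 1 := by
      refine LinearMap.ext fun x => 𝒯.ext _ _ fun n => ?_
      rw [hρT, Module.End.one_apply]
      exact hunr q hq hqN hqp A hA σ hσ _ (htors n x)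
    rw [hρ₀, h1]
    exact LinearMap.baseChange_one _ _
  · -- Frobenius
    intro ℓ hℓ hℓN hℓS A hA σ hσ
    have h1 : ∀ x : 𝒯.T, gadtRho 𝒯 hlift σ (gadtRho 𝒯 hlift σ x) -
        tT ℓ (gadtRho 𝒯 hlift σ x) + ℓ • x = 0 := by
      intro x
      refine 𝒯.ext _ _ fun n => ?_
      rw [map_add, map_sub, map_nsmul, hρT, hρT, htT, hρT, map_zero]
      exact hfrob ℓ hℓ hℓN hℓS A hA σ hσ _ (htors n x)
    refine LinearMap.ext fun v => ?_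
    simp only [LinearMap.add_apply, LinearMap.sub_apply, Module.End.mul_apply,
      LinearMap.smul_apply, Module.End.one_apply, LinearMap.zero_apply]
    rw [hρ₀, ht₀]
    induction v using TensorProduct.induction_on with
    | zero => simp
    | tmul b x =>
      rw [LinearMap.baseChange_tmul, LinearMap.baseChange_tmul, LinearMap.baseChange_tmul,
        Nat.cast_smul_eq_nsmul, ← Nat.cast_smul_eq_nsmul ℤ_[p] ℓ (b ⊗ₜ[ℤ_[p]] x),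
        ← TensorProduct.tmul_smul, Nat.cast_smul_eq_nsmul, ← TensorProduct.tmul_sub,
        ← TensorProduct.tmul_add, h1 x, TensorProduct.tmul_zero]
    | add v₁ v₂ h₁ h₂ =>
      have : ∀ u₁ u₂ u₃ w₁ w₂ w₃ : 𝒪' ⊗[ℤ_[p]] 𝒯.T,
          (u₁ + w₁) - (u₂ + w₂) + (u₃ + w₃) = (u₁ - u₂ + u₃) + (w₁ - w₂ + w₃) := by
        intros; abel
      rw [map_add, map_add, map_add, smul_add, this, h₁, h₂, add_zero]
  · -- the eigenvector
    obtain ⟨v, hv0, hv1⟩ := hv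
    exact ⟨v, hv0, fun ℓ h1 h2 h3 => hv1 ℓ h1 h2 h3 (tT ℓ) (htT ℓ)⟩

end Assembly

end Fermat.Agent.G
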