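import Mathlib
import Fermat.Agent.G.Adic.TateDefs

/-!
# Program G / S30, package G/Adic, row (T-FF): the Tate module is finite free when `J[p]` is finite

`gat_finite_free` VERBATIM from `G/Adic/Spec2.lean` (origin/helper2 094fd9b).  The file is
self-contained: the two facts `ker (ev n) = p^n T` and torsion-freeness are re-proved here with the
prefix `gatf_` (they are rows of their own, T-LIFT, under the names `gat_…`).

Route: `ev 1 : T → J[p]` has kernel `p T`, so finitely many `t_r` represent `T / p T`; successive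
approximation `x = ∑_{k<n} p^k t_{r_k} + p^n x_n`; the coefficients `a_r(n) = ∑_{k<n, r_k = r} p^k`
converge in `ℤ_[p]` (`IsPrecomplete`); `x - ∑_r c_r t_r ∈ ⋂ p^n T = 0`.
-/

set_option autoImplicit false

noncomputable section

namespace Fermat.Agent.G

open IsLocalRing

variable {p : ℕ} [Fact p.Prime] {J : Type} [AddCommGroup J]

/-- `p^k • ev (n + k) x = ev n x`. -/
theorem gatf_pow_smul_ev_add (𝒯 : GatTate p J) (n k : ℕ) (x : 𝒯.T) :
    (p ^ k) • 𝒯.ev (n + k) x = 𝒯.ev n x := by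
  induction k with
  | zero => simp
  | succ k ih =>
    rw [pow_succ, mul_smul, ← Nat.add_assoc, 𝒯.ev_succ, ih]

/-- the `n`-th component is killed by `p^n`. -/
theorem gatf_pow_smul_ev (𝒯 : GatTate p J) (n : ℕ) (x : 𝒯.T) : (p ^ n) • 𝒯.ev n x = 0 := by
  have h := gatf_pow_smul_ev_add 𝒯 0 n x
  rw [Nat.zero_add, 𝒯.ev_zero] at h
  exact h

/-- `ker (ev n) = p^n T`. -/
theorem gatf_eq_smul_of_ev_eq_zero (𝒯 : GatTate p J) (n : ℕ) (x : 𝒯.T) (hx : 𝒯.ev n x = 0) :
    ∃ y : 𝒯.T, x = (p ^ n : ℕ) • y := by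
  obtain ⟨y, hy⟩ := 𝒯.surj (fun k => 𝒯.ev (k + n) x) (by simpa using hx) (fun k => by
    show p • 𝒯.ev (k + 1 + n) x = 𝒯.ev (k + n) x
    rw [Nat.add_right_comm, 𝒯.ev_succ])
  refine ⟨y, 𝒯.ext _ _ (fun m => ?_)⟩
  rw [map_nsmul, hy m, gatf_pow_smul_ev_add]

/-- `⋂ p^n T = 0`. -/
theorem gatf_eq_zero_of_forall_smul (𝒯 : GatTate p J) (z : 𝒯.T)
    (h : ∀ n : ℕ, ∃ y : 𝒯.T, z = (p ^ n : ℕ) • y) : z = 0 := by
  refine 𝒯.ext _ _ (fun n => ?_)
  obtain ⟨y, hy⟩ := h n
  rw [hy, map_nsmul, gatf_pow_smul_ev, map_zero]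

/-- `T` is torsion-free over `ℤ_[p]`. -/
theorem gatf_isTorsionFree (𝒯 : GatTate p J) (c : ℤ_[p]) (hc : c ≠ 0) (x : 𝒯.T)
    (hx : c • x = 0) : x = 0 := by
  have hspec := PadicInt.unitCoeff_spec hc
  set u := PadicInt.unitCoeff hc with hu
  set k := c.valuation with hk
  have h1 : ((p : ℤ_[p]) ^ k) • x = 0 := by
    have h2 : ((u⁻¹ : ℤ_[p]ˣ) : ℤ_[p]) • (c • x) = 0 := by rw [hx, smul_zero]
    rw [hspec, ← mul_smul, ← mul_assoc, Units.inv_mul, one_mul] at h2
    exact h2
  have h3 : (p ^ k : ℕ) • x = 0 := by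
    rw [← Nat.cast_smul_eq_nsmul ℤ_[p], Nat.cast_pow]
    exact h1
  refine 𝒯.ext _ _ (fun n => ?_)
  rw [← gatf_pow_smul_ev_add 𝒯 n k x, ← map_nsmul, h3, map_zero, map_zero]

/-- **(T-FF)** if `J[p]` is finite, `T` is a finite free `ℤ_[p]`-module. -/
theorem gat_finite_free (𝒯 : GatTate p J) (hfin : {x : J | p • x = 0}.Finite) :
    Module.Finite ℤ_[p] 𝒯.T ∧ Module.Free ℤ_[p] 𝒯.T := by
  classical
  have : Finite ↥{x : J | p • x = 0} := hfin.to_subtype
  cases nonempty_fintype ↥{x : J | p • x = 0}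
  -- the first digit of `x`
  let digit : 𝒯.T → ↥{x : J | p • x = 0} := fun x => ⟨𝒯.ev 1 x, by
    have h := 𝒯.ev_succ 0 x
    rw [𝒯.ev_zero] at h
    exact h⟩
  -- representatives
  let t : ↥{x : J | p • x = 0} → 𝒯.T := fun r => if h : ∃ z, digit z = r then h.choose else 0
  have ht : ∀ x : 𝒯.T, digit (t (digit x)) = digit x := by
    intro x
    have h : ∃ z, digit z = digit x := ⟨x, rfl⟩
    simp only [t, dif_pos h]
    exact h.choose_spec
  have hstep : ∀ x : 𝒯.T, ∃ y : 𝒯.T, x = t (digit x) + p • y := by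
    intro x
    have h1 : 𝒯.ev 1 (x - t (digit x)) = 0 := by
      rw [map_sub, sub_eq_zero]
      exact (congrArg Subtype.val (ht x)).symm
    obtain ⟨y, hy⟩ := gatf_eq_smul_of_ev_eq_zero 𝒯 1 _ h1
    refine ⟨y, ?_⟩
    rw [pow_one] at hy
    rw [← hy]
    abel
  choose nxt hnxt using hstep
  suffices hspan : ∀ x : 𝒯.T, x ∈ Submodule.span ℤ_[p] (Set.range t) by
    have hfin' : Module.Finite ℤ_[p] 𝒯.T := by
      rw [Module.finite_def]
      have : (⊤ : Submodule ℤ_[p] 𝒯.T) = Submodule.span ℤ_[p] (Set.range t) :=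
        (eq_top_iff.mpr fun x _ => hspan x).symm
      rw [this]
      exact Submodule.fg_span (Set.finite_range t)
    have := hfin'
    have : Module.IsTorsionFree ℤ_[p] 𝒯.T := Module.IsTorsionFree.of_smul_eq_zero
      (fun c x h => by
        by_cases hc : c = 0
        · exact Or.inl hc
        · exact Or.inr (gatf_isTorsionFree 𝒯 c hc x h))
    exact ⟨hfin', Module.free_of_finite_type_torsion_free'⟩
  intro x
  -- the approximating sequence
  let xs : ℕ → 𝒯.T := fun k => nxt^[k] x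
  have hxs : ∀ k, xs k = t (digit (xs k)) + p • xs (k + 1) := by
    intro k
    have := hnxt (xs k)
    simp only [xs, Function.iterate_succ_apply'] at this ⊢
    exact this
  have hA : ∀ n : ℕ, x = ∑ k ∈ Finset.range n, (p ^ k) • t (digit (xs k)) + (p ^ n) • xs n := by
    intro n
    induction n with
    | zero => simp [xs]
    | succ n ih =>
      rw [Finset.sum_range_succ, add_assoc, pow_succ, mul_smul, ← smul_add, ← hxs n]
      exact ih
  -- the coefficients
  let a : ↥{x : J | p • x = 0} → ℕ → ℕ := fun r n =>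
    ∑ k ∈ Finset.range n, if digit (xs k) = r then p ^ k else 0
  have hB : ∀ n : ℕ, ∑ k ∈ Finset.range n, (p ^ k) • t (digit (xs k)) = ∑ r, (a r n) • t r := by
    intro n
    simp only [a, Finset.sum_smul]
    rw [Finset.sum_comm]
    refine Finset.sum_congr rfl (fun k _ => ?_)
    simp [ite_smul]
  have hcauchy : ∀ r (m n : ℕ), m ≤ n → ∃ e : ℕ, a r n = a r m + p ^ m * e := by
    intro r m n hmn
    induction n, hmn using Nat.le_induction with
    | base => exact ⟨0, by simp⟩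
    | succ n hmn ih =>
      obtain ⟨e, he⟩ := ih
      have hsucc : a r (n + 1) = a r n + if digit (xs n) = r then p ^ n else 0 := by
        simp only [a, Finset.sum_range_succ]
      by_cases hr : digit (xs n) = r
      · refine ⟨e + p ^ (n - m), ?_⟩
        rw [hsucc, if_pos hr, he, mul_add, ← pow_add, Nat.add_sub_cancel' hmn, add_assoc]
      · exact ⟨e, by rw [hsucc, if_neg hr, he, add_zero]⟩
  have hcomp : ∀ r, ∃ c : ℤ_[p], ∀ n : ℕ, ∃ d : ℤ_[p],
      c - (a r n : ℤ_[p]) = (p : ℤ_[p]) ^ n * d := by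
    intro r
    obtain ⟨L, hL⟩ := IsPrecomplete.prec' (I := maximalIdeal ℤ_[p]) (fun n => (a r n : ℤ_[p])) (by
      intro m n hmn
      obtain ⟨e, he⟩ := hcauchy r m n hmn
      simp only [smul_eq_mul, Ideal.mul_top, SModEq.sub_mem, PadicInt.maximalIdeal_eq_span_p,
        Ideal.span_singleton_pow, Ideal.mem_span_singleton]
      refine ⟨-(e : ℤ_[p]), ?_⟩
      rw [he]
      push_cast
      ring)
    refine ⟨L, fun n => ?_⟩
    have h := hL n
    simp only [smul_eq_mul, Ideal.mul_top, SModEq.sub_mem, PadicInt.maximalIdeal_eq_span_p,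
      Ideal.span_singleton_pow, Ideal.mem_span_singleton] at h
    obtain ⟨d, hd⟩ := h
    refine ⟨-d, ?_⟩
    rw [mul_neg, ← hd]
    ring
  choose c hc using hcomp
  have hz : x - ∑ r, c r • t r = 0 := by
    refine gatf_eq_zero_of_forall_smul 𝒯 _ (fun n => ?_)
    choose d hd using fun r => hc r n
    refine ⟨xs n - ∑ r, d r • t r, ?_⟩
    have h1 : ∀ r, c r • t r = (a r n) • t r + (p ^ n : ℕ) • (d r • t r) := by
      intro r
      have h2 : c r = (a r n : ℤ_[p]) + (p : ℤ_[p]) ^ n * d r := by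
        rw [← hd r]
        ring
      rw [h2, add_smul, mul_smul, Nat.cast_smul_eq_nsmul ℤ_[p], ← Nat.cast_pow,
        Nat.cast_smul_eq_nsmul ℤ_[p]]
    rw [Finset.sum_congr rfl (fun r _ => h1 r), Finset.sum_add_distrib, ← hB n,
      ← Finset.smul_sum, smul_sub]
    nth_rewrite 1 [hA n]
    abel
  rw [sub_eq_zero.mp hz]
  exact Submodule.sum_mem _ (fun r _ => Submodule.smul_mem _ _ (Submodule.subset_span ⟨r, rfl⟩))

end Fermat.Agent.G
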