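import Mathlib
import Fermat.Agent.G.Adic.TateDefs

/-!
# Program G / S30, package G/Adic, row T-LIFT : consequences of the axioms of `GatTate`

* `gat_exists_lift`            : functoriality of the Tate module;
* `gat_eq_smul_of_ev_eq_zero`  : `ker (ev n) = p^n T`;
* `gat_isTorsionFree`          : `T` is torsion-free over `ℤ_[p]`.
-/

set_option autoImplicit false

noncomputable section

namespace Fermat.Agent.G

variable {p : ℕ} [Fact p.Prime] {J : Type} [AddCommGroup J]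

/-- iterating `ev_succ` -/
theorem gatl_pow_smul_ev (𝒯 : GatTate p J) (m n : ℕ) (x : 𝒯.T) :
    p ^ n • 𝒯.ev (m + n) x = 𝒯.ev m x := by
  induction n with
  | zero => simp
  | succ n ih =>
    rw [pow_succ, mul_smul, ← add_assoc, 𝒯.ev_succ, ih]

/-- **(T-LIFT, 1)** functoriality: an additive endomorphism of `J` lifts (uniquely, by `ext`) to a
`ℤ_[p]`-linear endomorphism of `T`. -/
theorem gat_exists_lift (𝒯 : GatTate p J) (f : J →+ J) :
    ∃ w : 𝒯.T →ₗ[ℤ_[p]] 𝒯.T, ∀ (n : ℕ) (x : 𝒯.T), 𝒯.ev n (w x) = f (𝒯.ev n x) := by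
  have hex : ∀ x : 𝒯.T, ∃ y : 𝒯.T, ∀ n : ℕ, 𝒯.ev n y = f (𝒯.ev n x) := fun x =>
    𝒯.surj (fun n => f (𝒯.ev n x)) (by simp [𝒯.ev_zero]) (fun n => by
      show p • f (𝒯.ev (n + 1) x) = f (𝒯.ev n x)
      rw [← map_nsmul, 𝒯.ev_succ])
  choose w hw using hex
  refine ⟨{ toFun := w, map_add' := fun x y => ?_, map_smul' := fun c x => ?_ },
    fun n x => hw x n⟩
  · apply 𝒯.ext
    intro n
    rw [hw, map_add, map_add, map_add, hw, hw]
  · apply 𝒯.ext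
    intro n
    rw [RingHom.id_apply, hw, 𝒯.ev_smul, 𝒯.ev_smul, map_nsmul, hw]

/-- **(T-LIFT, 2)** `ker (ev n) = p^n T`. -/
theorem gat_eq_smul_of_ev_eq_zero (𝒯 : GatTate p J) (n : ℕ) (x : 𝒯.T) (hx : 𝒯.ev n x = 0) :
    ∃ y : 𝒯.T, x = (p ^ n : ℕ) • y := by
  obtain ⟨y, hy⟩ := 𝒯.surj (fun k => 𝒯.ev (k + n) x) (by simpa using hx) (fun k => by
    show p • 𝒯.ev (k + 1 + n) x = 𝒯.ev (k + n) x
    rw [show k + 1 + n = k + n + 1 by omega, 𝒯.ev_succ])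
  refine ⟨y, 𝒯.ext _ _ fun m => ?_⟩
  rw [map_nsmul, hy, gatl_pow_smul_ev]

/-- **(T-LIFT, 3)** `T` is torsion-free over `ℤ_[p]`. -/
theorem gat_isTorsionFree (𝒯 : GatTate p J) (c : ℤ_[p]) (hc : c ≠ 0) (x : 𝒯.T)
    (hx : c • x = 0) : x = 0 := by
  have hspec := PadicInt.unitCoeff_spec hc
  set u := PadicInt.unitCoeff hc with hu
  set k := c.valuation with hk
  have h1 : ((p : ℤ_[p]) ^ k) • x = 0 := by
    have h2 : (u : ℤ_[p]) • (((p : ℤ_[p]) ^ k) • x) = 0 := by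
      rw [smul_smul, ← hspec, hx]
    have h3 := congrArg (fun z => ((u⁻¹ : ℤ_[p]ˣ) : ℤ_[p]) • z) h2
    simpa [smul_smul] using h3
  have h4 : (p ^ k : ℕ) • x = 0 := by
    rw [← Nat.cast_smul_eq_nsmul ℤ_[p], Nat.cast_pow]
    exact h1
  apply 𝒯.ext
  intro n
  rw [map_zero, ← gatl_pow_smul_ev 𝒯 n k x, ← map_nsmul, h4, map_zero]

end Fermat.Agent.G
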