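import Mathlib
import Fermat.Agent.G.Adic.OfTateAux
import Fermat.Agent.G.Adic.TateLift
import Fermat.Agent.G.Adic.TateFF
import Fermat.Agent.G.Adic.Main

/-!
# Program G / S30, package G/Adic, row (TATE): `gad_of_tate`

VERBATIM from `G/Adic/Spec2.lean` (origin/helper2 094fd9b).  Wiring of `gadt_of_tate_aux`
(`OfTateAux.lean`, no stubs) with `gat_exists_lift`, `gat_eq_smul_of_ev_eq_zero` (row T-LIFT,
`TateLift.lean`), `gat_finite_free` (row T-FF, `TateFF.lean`) and `gad_main` (A7; imported here from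
`Spec.lean` - replace that import by the file proving `gad_main`).
-/

set_option autoImplicit false

noncomputable section

namespace Fermat.Agent.G

open Polynomial IsLocalRing
open scoped TensorProduct

local notation "Qb" => AlgebraicClosure ℚ
local notation "GQ" => (AlgebraicClosure ℚ ≃ₐ[ℚ] AlgebraicClosure ℚ)

/-- **(TATE)** `J` an abelian group with an action of `G_ℚ` with open stabilisers on the `p`-power
torsion, `J[p]` finite, commuting endomorphisms `Tℓ ℓ`, trivial inertia and Eichler–Shimura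
relations on the `p`-power torsion, and a nonzero eigenvector in `𝒪' ⊗ T_p J`: the conclusion of
S30.  (`Λ₀ := 𝒪' ⊗ T` finite free (T-FF), Galois and Hecke act by base change of the lifts
(T-LIFT); `Λ := ` the eigen-submodule: saturated in `Λ₀` hence free, `G_ℚ`-stable, nonzero;
adically continuous by `ker (ev n) = p^n T` + saturation; apply `gad_main`.) -/
theorem gad_of_tate (p : ℕ) [Fact p.Prime] (N : ℕ) (hN : N ≠ 0) (S : Finset ℕ) (hpS : p ∈ S)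
    (𝒪' : Type) [CommRing 𝒪'] [IsDomain 𝒪'] [IsDiscreteValuationRing 𝒪']
    [IsAdicComplete (maximalIdeal 𝒪') 𝒪'] [Finite (ResidueField 𝒪')] [CharZero 𝒪']
    (hp : (p : 𝒪') ∈ maximalIdeal 𝒪') [Algebra ℤ_[p] 𝒪']
    {J : Type} [AddCommGroup J] [DistribMulAction GQ J] (𝒯 : GatTate p J)
    (hfin : {x : J | p • x = 0}.Finite)
    (hopen : ∀ x : J, (∃ n : ℕ, p ^ n • x = 0) → ∃ L : IntermediateField ℚ Qb,
      FiniteDimensional ℚ L ∧ ∀ σ : GQ, (∀ y ∈ L, σ y = y) → σ • x = x)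
    (Tℓ : ℕ → (J →+ J)) (hcomm : ∀ (ℓ : ℕ) (σ : GQ) (x : J), Tℓ ℓ (σ • x) = σ • Tℓ ℓ x)
    (a : ℕ → 𝒪')
    (hunr : ∀ q : ℕ, q.Prime → ¬ q ∣ N → q ≠ p → ∀ A : ValuationSubring Qb,
      A.LiesOverPrime q → ∀ σ ∈ A.inertiaSubgroupIn ℚ, ∀ x : J, (∃ n : ℕ, p ^ n • x = 0) →
        σ • x = x)
    (hfrob : ∀ ℓ : ℕ, ℓ.Prime → ¬ ℓ ∣ N → ℓ ∉ S → ∀ A : ValuationSubring Qb,
      A.LiesOverPrime ℓ → ∀ σ : GQ, A.IsFrobeniusAt σ ℓ → ∀ x : J, (∃ n : ℕ, p ^ n • x = 0) →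
        σ • σ • x - Tℓ ℓ (σ • x) + ℓ • x = 0)
    (hv : ∃ v : 𝒪' ⊗[ℤ_[p]] 𝒯.T, v ≠ 0 ∧ ∀ ℓ : ℕ, ℓ.Prime → ¬ ℓ ∣ N → ℓ ∉ S →
      ∀ w : 𝒯.T →ₗ[ℤ_[p]] 𝒯.T, (∀ (n : ℕ) (x : 𝒯.T), 𝒯.ev n (w x) = Tℓ ℓ (𝒯.ev n x)) →
        w.baseChange 𝒪' v = a ℓ • v) :
    ∃ (𝒪'' : Type) (_ : CommRing 𝒪'') (_ : IsDomain 𝒪'') (_ : IsDiscreteValuationRing 𝒪'')
      (_ : IsAdicComplete (maximalIdeal 𝒪'') 𝒪'') (_ : Finite (ResidueField 𝒪''))
      (_ : CharZero 𝒪'') (_ : Algebra 𝒪' 𝒪'') (_ : Module.Finite 𝒪' 𝒪'')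
      (_ : IsLocalHom (algebraMap 𝒪' 𝒪'')),
      Function.Injective (algebraMap 𝒪' 𝒪'') ∧
      ∃ ρ' : GaloisRepAdic 𝒪'',
        (∀ ℓ : ℕ, ℓ.Prime → ¬ ℓ ∣ N → ℓ ∉ S → ∀ A : ValuationSubring Qb,
          A.LiesOverPrime ℓ → ∀ σ : GQ, A.IsFrobeniusAt σ ℓ →
            LinearMap.charpoly (ρ'.ρ σ) =
              X ^ 2 - C (algebraMap 𝒪' 𝒪'' (a ℓ)) * X + C ((ℓ : 𝒪''))) ∧
        ∀ q : ℕ, q.Prime → ¬ q ∣ N → q ≠ p → ρ'.IsUnramifiedAt q :=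
  gadt_of_tate_aux p N S 𝒪' hp 𝒯 hopen Tℓ hcomm a hunr hfrob hv
    (gat_exists_lift 𝒯) (gat_eq_smul_of_ev_eq_zero 𝒯) (gat_finite_free 𝒯 hfin)
    (fun ρ hcont a' hunr' hfrob' => gad_main p N hN S hpS 𝒪' hp ρ hcont a' hunr' hfrob')

end Fermat.Agent.G
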