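import Mathlib
import Fermat.Agent.G.Adic.TateDefs

/-!
# Program G / S30, package G/Adic, row T-EX: a model of the `p`-adic Tate module exists

`T := {x : ℕ → J | x 0 = 0 ∧ ∀ n, p • x (n+1) = x n}` with `(c • x) n := c.appr n • x n`
(`x n` is `p^n`-torsion, and `c ↦ (c.appr n mod p^n)` is the ring homomorphism
`PadicInt.toZModPow n`).
-/

set_option autoImplicit false
set_option linter.unusedSectionVars false

noncomputable section

namespace Fermat.Agent.G

section

variable {p : ℕ} [Fact p.Prime] {J : Type} [AddCommGroup J]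

/-- multiples of a `p^n`-torsion element depend only on the class modulo `p^n`. -/
theorem gatx_nsmul_eq {n : ℕ} {y : J} (hy : (p ^ n) • y = 0) {k k' : ℕ}
    (h : (k : ZMod (p ^ n)) = (k' : ZMod (p ^ n))) : k • y = k' • y := by
  have hmod : k ≡ k' [MOD p ^ n] := (ZMod.natCast_eq_natCast_iff k k' (p ^ n)).1 h
  wlog hle : k ≤ k' generalizing k k'
  · exact (this h.symm hmod.symm (le_of_not_ge hle)).symm
  obtain ⟨t, ht⟩ : p ^ n ∣ k' - k := (Nat.modEq_iff_dvd' hle).1 hmod
  have hk : k' = k + t * p ^ n := by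
    have := Nat.sub_add_cancel hle
    rw [ht] at this
    rw [← this]
    ring
  rw [hk, add_smul, mul_smul, hy, smul_zero, add_zero]

/-- `c.appr n` modulo `p^n` is the image of `c` under the ring homomorphism `toZModPow n`. -/
theorem gatx_cast_appr (c : ℤ_[p]) (n : ℕ) :
    ((c.appr n : ℕ) : ZMod (p ^ n)) = PadicInt.toZModPow n c := rfl

/-- compatibility of the approximations. -/
theorem gatx_cast_appr_succ (c : ℤ_[p]) (n : ℕ) :
    ((c.appr (n + 1) : ℕ) : ZMod (p ^ n)) = ((c.appr n : ℕ) : ZMod (p ^ n)) := by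
  rw [gatx_cast_appr c n, ← PadicInt.cast_toZModPow n (n + 1) (Nat.le_succ n) c,
    ← gatx_cast_appr c (n + 1), ZMod.cast_natCast (pow_dvd_pow p (Nat.le_succ n))]

end

/-- compatible sequences of `p`-power torsion elements. -/
def gatxSub (p : ℕ) (J : Type) [AddCommGroup J] : AddSubgroup (ℕ → J) where
  carrier := {x | x 0 = 0 ∧ ∀ n, p • x (n + 1) = x n}
  zero_mem' := ⟨rfl, fun _ => smul_zero _⟩
  add_mem' := by
    rintro x y ⟨hx0, hx⟩ ⟨hy0, hy⟩
    refine ⟨by rw [Pi.add_apply, hx0, hy0, add_zero], fun n => ?_⟩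
    rw [Pi.add_apply, Pi.add_apply, smul_add, hx, hy]
  neg_mem' := by
    rintro x ⟨hx0, hx⟩
    refine ⟨by rw [Pi.neg_apply, hx0, neg_zero], fun n => ?_⟩
    rw [Pi.neg_apply, Pi.neg_apply, smul_neg, hx]

section

variable {p : ℕ} [Fact p.Prime] {J : Type} [AddCommGroup J]

theorem gatx_torsion (x : gatxSub p J) (n : ℕ) : (p ^ n) • (x : ℕ → J) n = 0 := by
  induction n with
  | zero => rw [pow_zero, one_smul]; exact x.2.1
  | succ n ih => rw [pow_succ, mul_smul, x.2.2 n, ih]

instance gatxSMul : SMul ℤ_[p] (gatxSub p J) where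
  smul c x := ⟨fun n => c.appr n • (x : ℕ → J) n, by
    refine ⟨?_, fun n => ?_⟩
    · show c.appr 0 • (x : ℕ → J) 0 = 0
      rw [x.2.1, smul_zero]
    · show p • (c.appr (n + 1) • (x : ℕ → J) (n + 1)) = c.appr n • (x : ℕ → J) n
      rw [smul_comm, x.2.2 n]
      exact gatx_nsmul_eq (gatx_torsion x n) (gatx_cast_appr_succ c n)⟩

theorem gatx_smul_apply (c : ℤ_[p]) (x : gatxSub p J) (n : ℕ) :
    ((c • x : gatxSub p J) : ℕ → J) n = c.appr n • (x : ℕ → J) n := rfl

theorem gatx_add_apply (x y : gatxSub p J) (n : ℕ) :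
    ((x + y : gatxSub p J) : ℕ → J) n = (x : ℕ → J) n + (y : ℕ → J) n := rfl

theorem gatx_zero_apply (n : ℕ) : ((0 : gatxSub p J) : ℕ → J) n = 0 := rfl

instance gatxModule : Module ℤ_[p] (gatxSub p J) where
  one_smul x := Subtype.ext <| funext fun n => by
    rw [gatx_smul_apply]
    refine (gatx_nsmul_eq (gatx_torsion x n) (k' := 1) ?_).trans (one_smul _ _)
    rw [gatx_cast_appr, map_one, Nat.cast_one]
  mul_smul c d x := Subtype.ext <| funext fun n => by
    rw [gatx_smul_apply, gatx_smul_apply, gatx_smul_apply, ← mul_smul]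
    refine gatx_nsmul_eq (gatx_torsion x n) ?_
    rw [gatx_cast_appr, map_mul, Nat.cast_mul, gatx_cast_appr, gatx_cast_appr]
  smul_zero c := Subtype.ext <| funext fun n => by
    rw [gatx_smul_apply, gatx_zero_apply, smul_zero]
  smul_add c x y := Subtype.ext <| funext fun n => by
    rw [gatx_smul_apply, gatx_add_apply, gatx_add_apply, gatx_smul_apply, gatx_smul_apply,
      smul_add]
  add_smul c d x := Subtype.ext <| funext fun n => by
    rw [gatx_smul_apply, gatx_add_apply, gatx_smul_apply, gatx_smul_apply, ← add_smul]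
    refine gatx_nsmul_eq (gatx_torsion x n) ?_
    rw [gatx_cast_appr, map_add, Nat.cast_add, gatx_cast_appr, gatx_cast_appr]
  zero_smul x := Subtype.ext <| funext fun n => by
    rw [gatx_smul_apply, gatx_zero_apply]
    refine (gatx_nsmul_eq (gatx_torsion x n) (k' := 0) ?_).trans (zero_smul _ _)
    rw [gatx_cast_appr, map_zero, Nat.cast_zero]

/-- the model. -/
def gatxTate (p : ℕ) [Fact p.Prime] (J : Type) [AddCommGroup J] : GatTate p J where
  T := gatxSub p J
  instAddCommGroup := inferInstance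
  instModule := gatxModule
  ev n := (Pi.evalAddMonoidHom (fun _ : ℕ => J) n).comp (gatxSub p J).subtype
  ev_zero x := x.2.1
  ev_succ n x := x.2.2 n
  ext _ _ h := Subtype.ext (funext h)
  surj f h0 hs := ⟨⟨f, h0, hs⟩, fun _ => rfl⟩
  ev_smul _ _ _ := rfl

end

/-- **(T-EX)** a model of the Tate module exists.
(`T := {x : ∀ n, J[p^n] | p • x (n+1) = x n}` as a `ℤ_[p]`-submodule of the product of the
`J[p^n]`, each a `ZMod (p^n)`-module (`AddCommGroup.zmodModule`) hence a `ℤ_[p]`-module through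
`PadicInt.toZModPow n`; or by hand with `c • x := fun n => c.appr n • x n`.) -/
theorem gat_exists (p : ℕ) [Fact p.Prime] (J : Type) [AddCommGroup J] : Nonempty (GatTate p J) := by
  exact ⟨gatxTate p J⟩

end Fermat.Agent.G
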