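/-
Program G / S30, package G/Adic, row 567 G-ADIC-THETA-FAM (helper11): `gad_theta_family`
(helper2's interface, Spec3.lean) as a corollary of helper22's compatible family `gktf_family`
(G/Kum/ThetaFamily.lean).  Prefix `gadtf_`.
-/
import Mathlib
import Fermat.Agent.G.Kum.ThetaFamily

set_option autoImplicit false
set_option linter.unusedSectionVars false
set_option linter.style.haveILetI false

noncomputable section

namespace Fermat.Agent.G

open CongruenceSubgroup ModularCurve AlgebraicCurve Fermat.Agent.S16LB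
open scoped MatrixGroups

/-- `exp(2πi · d k/(n d)) = exp(2πi · k/n)` -/
theorem gadtf_stdAddChar_mul (n d : ℕ) [NeZero n] [NeZero d] (k : ℤ) :
    ZMod.stdAddChar (N := n * d) (((d * k : ℤ)) : ZMod (n * d)) =
      ZMod.stdAddChar (N := n) ((k : ℤ) : ZMod n) := by
  rw [ZMod.stdAddChar_coe, ZMod.stdAddChar_coe]
  congr 1
  have hd : (d : ℂ) ≠ 0 := Nat.cast_ne_zero.mpr (NeZero.ne d)
  have hn : (n : ℂ) ≠ 0 := Nat.cast_ne_zero.mpr (NeZero.ne n)
  push_cast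
  field_simp

/-- the cast-free compatibility hypothesis gives equality of the multiplicative characters -/
theorem gadtf_gkcChar_eq {N : ℕ} (n d : ℕ) [NeZero n] [NeZero d] (a : s16lbAb N →+ ZMod n)
    (b : s16lbAb N →+ ZMod (n * d))
    (h : ∀ x : s16lbAb N, ∃ k : ℤ, a x = (k : ZMod n) ∧ b x = ((d * k : ℤ) : ZMod (n * d))) :
    gkcChar (n * d) b = gkcChar n a := by
  refine MonoidHom.ext fun γ => Units.ext ?_
  rw [gkcChar_apply, gkcChar_apply]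
  obtain ⟨k, hk1, hk2⟩ := h (s16lbCls N (Additive.ofMul γ))
  rw [hk1, hk2]
  exact gadtf_stdAddChar_mul n d k

/-- **(THETA-FAM)** the Kummer maps `Θ_n : Hom_pe(Γ₀(N)^ab, ℤ/n) → J₀(N)(ℚ̄)` for ALL `n > 0`:
injective, Hecke equivariant for the primes `ℓ ∤ N n`, and compatible with the inclusions
`ℤ/n →(×d) ℤ/(n d)`: if `b = d · a` then `Θ_(n d) b = Θ_n a`.
(`gasm_theta` is the case `n = p` without the last clause; the last clause is
`gkm_rel_pow_level` + UNIQ + `gd_descent_inj` + `gdkRep_pow`: same `f^d`.) -/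
theorem gad_theta_family (N : ℕ) [NeZero N] :
    ∃ Θ : ∀ n : ℕ, gasmPEHoms N (ZMod n) →+ JZero N,
      (∀ n : ℕ, 0 < n → Function.Injective (Θ n)) ∧
      (∀ n : ℕ, 0 < n → ∀ (ℓ : ℕ) [Fact ℓ.Prime] (hℓN : ¬ ℓ ∣ N) (_ : ¬ ℓ ∣ n)
        (χ χ' : gasmPEHoms N (ZMod n)),
        (χ' : s16lbAb N →+ ZMod n) = (χ : s16lbAb N →+ ZMod n).comp (gasmTr N ℓ hℓN) →
          Θ n χ' = heckeOperatorBar N ⟨ℓ, Fact.out⟩ (Θ n χ)) ∧
      (∀ n d : ℕ, 0 < n → 0 < d → ∀ (a : gasmPEHoms N (ZMod n))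
        (b : gasmPEHoms N (ZMod (n * d))),
        (∀ x : s16lbAb N, ∃ k : ℤ, (a : s16lbAb N →+ ZMod n) x = (k : ZMod n) ∧
          (b : s16lbAb N →+ ZMod (n * d)) x = ((d * k : ℤ) : ZMod (n * d))) →
          Θ (n * d) b = Θ n a) := by
  classical
  obtain ⟨Θ, hinj, -, -, hhecke, hcompat⟩ := gktf_family N
  -- remove the `NeZero` binder: `Θ' 0 := 0`
  let Θ' : ∀ n : ℕ, gasmPEHoms N (ZMod n) →+ JZero N := fun n =>
    if h : n = 0 then 0 else @Θ n ⟨h⟩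
  have hΘ' : ∀ (n : ℕ) (h : n ≠ 0), Θ' n = @Θ n ⟨h⟩ := fun n h => dif_neg h
  refine ⟨Θ', ?_, ?_, ?_⟩
  · intro n hn
    rw [hΘ' n hn.ne']
    exact @hinj n ⟨hn.ne'⟩
  · intro n hn ℓ _ hℓN _ χ χ' hχ
    rw [hΘ' n hn.ne']
    exact @hhecke n ⟨hn.ne'⟩ ℓ _ hℓN χ χ' hχ
  · intro n d hn hd a b hab
    have hnd : n * d ≠ 0 := Nat.mul_ne_zero hn.ne' hd.ne'
    rw [hΘ' n hn.ne', hΘ' (n * d) hnd]
    haveI : NeZero n := ⟨hn.ne'⟩
    haveI : NeZero d := ⟨hd.ne'⟩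
    refine @hcompat (n * d) n ⟨hnd⟩ ⟨hn.ne'⟩ b a ?_
    exact gadtf_gkcChar_eq n d _ _ hab

end Fermat.Agent.G
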