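import Mathlib
import Fermat.Agent.G.Adic.TateDefs
import Fermat.Agent.G.Adic.Lat

/-!
# Program G / S30, package G/Adic, row 546 (VEC): `gad_exists_eigenvector`

A nonzero eigen-character `ω : H → Frac 𝒪'` killing `PE` produces a nonzero eigenvector in
`𝒪' ⊗ T`, through the Kummer maps `Θ m : Hom_pe(H, ℤ/p^m) → J[p^m]`.
-/

set_option autoImplicit false

noncomputable section

namespace Fermat.Agent.G

open scoped TensorProduct

/-- the characters of `H` with values in `A` killing `PE`. -/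
def gadvP {H : Type} [AddCommGroup H] (PE : Set H) (A : Type*) [AddCommGroup A] :
    AddSubgroup (H →+ A) where
  carrier := {χ | ∀ s ∈ PE, χ s = 0}
  zero_mem' := fun _ _ => rfl
  add_mem' := by
    intro χ χ' hχ hχ' s hs
    rw [AddMonoidHom.add_apply, hχ s hs, hχ' s hs, add_zero]
  neg_mem' := by
    intro χ hχ s hs
    rw [AddMonoidHom.neg_apply, hχ s hs, neg_zero]

theorem gadv_mem_P {H : Type} [AddCommGroup H] {PE : Set H} {A : Type*} [AddCommGroup A]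
    (χ : H →+ A) : χ ∈ gadvP PE A ↔ ∀ s ∈ PE, χ s = 0 := Iff.rfl

/-- reduction of an integral character modulo `n`. -/
def gadvRed {H : Type} [AddCommGroup H] (PE : Set H) (n : ℕ) : gadvP PE ℤ →+ gadvP PE (ZMod n) where
  toFun e := ⟨(Int.castAddHom (ZMod n)).comp e.1, fun s hs => by
    rw [AddMonoidHom.comp_apply, e.2 s hs, map_zero]⟩
  map_zero' := by
    apply Subtype.ext
    exact AddMonoidHom.comp_zero _
  map_add' e e' := by
    apply Subtype.ext
    exact AddMonoidHom.comp_add _ _ _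

theorem gadvRed_apply {H : Type} [AddCommGroup H] (PE : Set H) (n : ℕ) (e : gadvP PE ℤ) (x : H) :
    (gadvRed PE n e : H →+ ZMod n) x = ((e : H →+ ℤ) x : ZMod n) := rfl

/-- `p`-adic integers divisible by all powers of `p` vanish. -/
theorem gadv_padic_eq_zero {p : ℕ} [Fact p.Prime] (x : ℤ_[p])
    (hx : ∀ n : ℕ, ((x.appr n : ℕ) : ZMod (p ^ n)) = 0) : x = 0 := by
  apply PadicInt.ext_of_toZModPow.mp
  intro n
  rw [map_zero]
  exact hx n

section Theta

variable {p : ℕ} [Fact p.Prime] {J : Type} [AddCommGroup J] (𝒯 : GatTate p J)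
  {H : Type} [AddCommGroup H] (PE : Set H) (Θ : ∀ m : ℕ, (H →+ ZMod (p ^ m)) → J)
  (hadd : ∀ (m : ℕ) (χ χ' : H →+ ZMod (p ^ m)), (∀ s ∈ PE, χ s = 0) → (∀ s ∈ PE, χ' s = 0) →
    Θ m (χ + χ') = Θ m χ + Θ m χ')

/-- `Θ m` as an additive homomorphism on the characters killing `PE`. -/
def gadvTheta (m : ℕ) : gadvP PE (ZMod (p ^ m)) →+ J :=
  AddMonoidHom.mk' (fun χ => Θ m χ.1) (fun χ χ' => hadd m χ.1 χ'.1 χ.2 χ'.2)

omit [Fact p.Prime] in
theorem gadvTheta_apply (m : ℕ) (χ : gadvP PE (ZMod (p ^ m))) :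
    gadvTheta PE Θ hadd m χ = Θ m χ.1 := rfl

/-- the limit map `Θ_∞ : Hom_pe(H, ℤ) → T`. -/
theorem gadv_exists_inf
    (hcompat : ∀ (m : ℕ) (χ : H →+ ZMod (p ^ m)) (χ' : H →+ ZMod (p ^ (m + 1))),
      (∀ s ∈ PE, χ s = 0) → (∀ s ∈ PE, χ' s = 0) →
      (∀ x : H, ∃ k : ℤ, χ x = (k : ZMod (p ^ m)) ∧ χ' x = ((p * k : ℤ) : ZMod (p ^ (m + 1)))) →
        Θ (m + 1) χ' = Θ m χ) :
    ∃ t : gadvP PE ℤ →+ 𝒯.T, ∀ (e : gadvP PE ℤ) (n : ℕ),
      𝒯.ev n (t e) = gadvTheta PE Θ hadd n (gadvRed PE (p ^ n) e) := by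
  have hex : ∀ e : gadvP PE ℤ, ∃ x : 𝒯.T, ∀ n : ℕ,
      𝒯.ev n x = gadvTheta PE Θ hadd n (gadvRed PE (p ^ n) e) := by
    intro e
    refine 𝒯.surj (fun n => gadvTheta PE Θ hadd n (gadvRed PE (p ^ n) e)) ?_ ?_
    · have h0 : gadvRed PE (p ^ 0) e = 0 := by
        apply Subtype.ext
        refine AddMonoidHom.ext fun x => ?_
        have : Subsingleton (ZMod (p ^ 0)) := by
          rw [pow_zero]
          exact inferInstanceAs (Subsingleton (Fin 1))
        exact Subsingleton.elim _ _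
      show gadvTheta PE Θ hadd 0 (gadvRed PE (p ^ 0) e) = 0
      rw [h0, map_zero]
    · intro n
      show p • gadvTheta PE Θ hadd (n + 1) (gadvRed PE (p ^ (n + 1)) e)
        = gadvTheta PE Θ hadd n (gadvRed PE (p ^ n) e)
      rw [← map_nsmul, gadvTheta_apply, gadvTheta_apply]
      refine hcompat n _ _ (gadvRed PE (p ^ n) e).2 (p • gadvRed PE (p ^ (n + 1)) e).2 ?_
      intro x
      refine ⟨(e : H →+ ℤ) x, rfl, ?_⟩
      rw [AddSubgroup.coe_nsmul, AddMonoidHom.nsmul_apply, gadvRed_apply, nsmul_eq_mul]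
      push_cast
      rfl
  choose t ht using hex
  refine ⟨AddMonoidHom.mk' t ?_, ht⟩
  intro e e'
  apply 𝒯.ext
  intro n
  rw [map_add, ht, ht, ht, map_add, map_add]

/-- the `Θ_∞ (e i)` are `ℤ_[p]`-linearly independent. -/
theorem gadv_indep
    (hΘinj : ∀ (m : ℕ) (χ : H →+ ZMod (p ^ m)), (∀ s ∈ PE, χ s = 0) → Θ m χ = 0 → χ = 0)
    {s : ℕ} (h : Fin s → H) (e : Fin s → gadvP PE ℤ)
    (heh : ∀ i j, (e i : H →+ ℤ) (h j) = if i = j then 1 else 0)
    (t : gadvP PE ℤ →+ 𝒯.T)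
    (ht : ∀ (e : gadvP PE ℤ) (n : ℕ),
      𝒯.ev n (t e) = gadvTheta PE Θ hadd n (gadvRed PE (p ^ n) e))
    (x : Fin s → ℤ_[p]) (hx : ∑ i, x i • t (e i) = 0) : x = 0 := by
  classical
  funext j
  apply gadv_padic_eq_zero
  intro n
  have h1 : 𝒯.ev n (∑ i, x i • t (e i)) = 0 := by rw [hx, map_zero]
  rw [map_sum] at h1
  have h2 : ∑ i, 𝒯.ev n (x i • t (e i))
      = gadvTheta PE Θ hadd n (∑ i, (x i).appr n • gadvRed PE (p ^ n) (e i)) := by
    rw [map_sum]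
    refine Finset.sum_congr rfl fun i _ => ?_
    rw [𝒯.ev_smul, ht, map_nsmul]
  rw [h2, gadvTheta_apply] at h1
  have h3 := hΘinj n _ (∑ i, (x i).appr n • gadvRed PE (p ^ n) (e i)).2 h1
  have h4 := DFunLike.congr_fun h3 (h j)
  rw [AddSubgroup.val_finsetSum, AddMonoidHom.finsetSum_apply, AddMonoidHom.zero_apply] at h4
  rw [← h4]
  rw [Finset.sum_eq_single j]
  · rw [AddSubgroup.coe_nsmul, AddMonoidHom.nsmul_apply, gadvRed_apply, heh, if_pos rfl,
      Int.cast_one, nsmul_eq_mul, mul_one]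
  · intro i _ hij
    rw [AddSubgroup.coe_nsmul, AddMonoidHom.nsmul_apply, gadvRed_apply, heh, if_neg hij,
      Int.cast_zero, smul_zero]
  · intro hj
    exact absurd (Finset.mem_univ j) hj

end Theta

/-- **(VEC)** a nonzero eigen-character `ω : H → Frac 𝒪'` killing `PE` produces a nonzero
eigenvector in `𝒪' ⊗ T`, through the Kummer maps `Θ m : Hom_pe(H, ℤ/p^m) → J[p^m]` (injective,
additive, compatible with `ℤ/p^m →(×p) ℤ/p^(m+1)`, equivariant). -/
theorem gad_exists_eigenvector (p : ℕ) [Fact p.Prime]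
    (𝒪' : Type) [CommRing 𝒪'] [IsDomain 𝒪'] [Algebra ℤ_[p] 𝒪']
    (hinj : Function.Injective (algebraMap ℤ_[p] 𝒪'))
    {K : Type} [Field K] [Algebra 𝒪' K] [IsFractionRing 𝒪' K]
    {J : Type} [AddCommGroup J] (𝒯 : GatTate p J)
    {H : Type} [AddCommGroup H] (hH : AddGroup.FG H) (PE : Set H)
    (Θ : ∀ m : ℕ, (H →+ ZMod (p ^ m)) → J)
    (hadd : ∀ (m : ℕ) (χ χ' : H →+ ZMod (p ^ m)), (∀ s ∈ PE, χ s = 0) → (∀ s ∈ PE, χ' s = 0) →
      Θ m (χ + χ') = Θ m χ + Θ m χ')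
    (hΘinj : ∀ (m : ℕ) (χ : H →+ ZMod (p ^ m)), (∀ s ∈ PE, χ s = 0) → Θ m χ = 0 → χ = 0)
    (hcompat : ∀ (m : ℕ) (χ : H →+ ZMod (p ^ m)) (χ' : H →+ ZMod (p ^ (m + 1))),
      (∀ s ∈ PE, χ s = 0) → (∀ s ∈ PE, χ' s = 0) →
      (∀ x : H, ∃ k : ℤ, χ x = (k : ZMod (p ^ m)) ∧ χ' x = ((p * k : ℤ) : ZMod (p ^ (m + 1)))) →
        Θ (m + 1) χ' = Θ m χ)
    {I : Type} (τ : I → H →+ H) (TJ : I → J →+ J)
    (hτPE : ∀ (i : I) (A : Type) [AddCommGroup A] (χ : H →+ A), (∀ s ∈ PE, χ s = 0) →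
      ∀ s ∈ PE, χ (τ i s) = 0)
    (hequiv : ∀ (i : I) (m : ℕ) (χ : H →+ ZMod (p ^ m)), (∀ s ∈ PE, χ s = 0) →
      Θ m (χ.comp (τ i)) = TJ i (Θ m χ))
    (a : I → 𝒪') (ω : H →+ K) (hω : ω ≠ 0) (hωPE : ∀ s ∈ PE, ω s = 0)
    (hωeig : ∀ i, ω.comp (τ i) = algebraMap 𝒪' K (a i) • ω) :
    ∃ v : 𝒪' ⊗[ℤ_[p]] 𝒯.T, v ≠ 0 ∧ ∀ (i : I) (w : 𝒯.T →ₗ[ℤ_[p]] 𝒯.T),
      (∀ (n : ℕ) (x : 𝒯.T), 𝒯.ev n (w x) = TJ i (𝒯.ev n x)) → w.baseChange 𝒪' v = a i • v := by
  classical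
  -- the dual bases
  obtain ⟨s, h, e₀, he₀PE, he₀h, hexp⟩ := gad_exists_dual_basis hH PE
  let e : Fin s → gadvP PE ℤ := fun i => ⟨e₀ i, he₀PE i⟩
  have heh : ∀ i j, (e i : H →+ ℤ) (h j) = if i = j then 1 else 0 := he₀h
  -- characteristic zero
  have hinjK : Function.Injective (algebraMap 𝒪' K) := IsFractionRing.injective 𝒪' K
  have hchar : CharZero K :=
    charZero_of_injective_ringHom (f := (algebraMap 𝒪' K).comp (algebraMap ℤ_[p] 𝒪'))
      (hinjK.comp hinj)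
  -- the limit map
  obtain ⟨t, ht⟩ := gadv_exists_inf 𝒯 PE Θ hadd hcompat
  -- clearing denominators
  obtain ⟨d, hd⟩ := IsLocalization.exist_integer_multiples_of_finite (nonZeroDivisors 𝒪')
    (fun i : Fin s => ω (h i))
  choose c hc using hd
  have hd0 : algebraMap 𝒪' K (d : 𝒪') ≠ 0 := by
    intro h0
    exact nonZeroDivisors.coe_ne_zero d (hinjK (by rw [h0, map_zero]))
  have hc' : ∀ i, algebraMap 𝒪' K (c i) = algebraMap 𝒪' K (d : 𝒪') * ω (h i) := by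
    intro i
    rw [hc i, Algebra.smul_def]
  -- some coefficient is nonzero
  have hcne : ∃ j, c j ≠ 0 := by
    by_contra hcon
    push Not at hcon
    apply hω
    refine AddMonoidHom.ext fun x => ?_
    rw [hexp K ω hωPE x, AddMonoidHom.zero_apply]
    refine Finset.sum_eq_zero fun i _ => ?_
    have h1 := hc' i
    rw [hcon i, map_zero] at h1
    rcases mul_eq_zero.mp h1.symm with h2 | h2
    · exact absurd h2 hd0
    · rw [h2, smul_zero]
  refine ⟨∑ i, c i ⊗ₜ[ℤ_[p]] t (e i), ?_, ?_⟩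
  · -- nonvanishing
    obtain ⟨j, hj⟩ := hcne
    intro hv
    apply hj
    let φ : (Fin s → ℤ_[p]) →ₗ[ℤ_[p]] 𝒯.T := Fintype.linearCombination ℤ_[p] (fun i => t (e i))
    have hφinj : Function.Injective φ := by
      rw [injective_iff_map_eq_zero]
      intro x hx
      refine gadv_indep 𝒯 PE Θ hadd hΘinj h e heh t ht x ?_
      rw [← hx]
      exact (Fintype.linearCombination_apply ℤ_[p] _ x).symm
    have htf : Module.IsTorsionFree ℤ_[p] 𝒪' := by
      refine Module.IsTorsionFree.of_smul_eq_zero fun r m hrm => ?_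
      rw [Algebra.smul_def] at hrm
      rcases mul_eq_zero.mp hrm with h1 | h1
      · left
        exact hinj (by rw [h1, map_zero])
      · right
        exact h1
    have hflat : Module.Flat ℤ_[p] 𝒪' := inferInstance
    have hLinj := Module.Flat.lTensor_preserves_injective_linearMap (M := 𝒪') φ hφinj
    let u : 𝒪' ⊗[ℤ_[p]] (Fin s → ℤ_[p]) := ∑ i, c i ⊗ₜ[ℤ_[p]] (Pi.single i (1 : ℤ_[p]))
    have hu : LinearMap.lTensor 𝒪' φ u = ∑ i, c i ⊗ₜ[ℤ_[p]] t (e i) := by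
      simp only [u, map_sum, LinearMap.lTensor_tmul]
      refine Finset.sum_congr rfl fun i _ => ?_
      congr 1
      show Fintype.linearCombination ℤ_[p] (fun i => t (e i)) (Pi.single i 1) = _
      rw [Fintype.linearCombination_apply_single, one_smul]
    have hu0 : u = 0 := hLinj (by rw [hu, hv, map_zero])
    -- read off the `j`-th coordinate
    let π : 𝒪' ⊗[ℤ_[p]] (Fin s → ℤ_[p]) →ₗ[ℤ_[p]] 𝒪' :=
      (TensorProduct.rid ℤ_[p] 𝒪').toLinearMap ∘ₗ
        LinearMap.lTensor 𝒪' (LinearMap.proj (R := ℤ_[p]) (φ := fun _ : Fin s => ℤ_[p]) j)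
    have hπ : π u = c j := by
      simp only [u, π, map_sum, LinearMap.comp_apply, LinearMap.lTensor_tmul,
        LinearEquiv.coe_toLinearMap, LinearMap.proj_apply, TensorProduct.rid_tmul]
      rw [Finset.sum_eq_single j]
      · rw [Pi.single_eq_same, one_smul]
      · intro i _ hij
        rw [Pi.single_eq_of_ne (Ne.symm hij), zero_smul]
      · intro hj'
        exact absurd (Finset.mem_univ j) hj'
    rw [← hπ, hu0, map_zero]
  · -- the eigen-property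
    intro i₀ w hw
    -- `w (Θ_∞ e) = Θ_∞ (e ∘ τ)`
    have hτmem : ∀ e' : gadvP PE ℤ, (e' : H →+ ℤ).comp (τ i₀) ∈ gadvP PE ℤ :=
      fun e' => hτPE i₀ ℤ e'.1 e'.2
    have hw1 : ∀ e' : gadvP PE ℤ, w (t e') = t ⟨(e' : H →+ ℤ).comp (τ i₀), hτmem e'⟩ := by
      intro e'
      apply 𝒯.ext
      intro n
      rw [hw, ht, ht, gadvTheta_apply, gadvTheta_apply, ← hequiv i₀ n _ (gadvRed PE (p ^ n) e').2]
      rfl
    -- expansion of `e ∘ τ` in the dual basis
    have hexpτ : ∀ k : Fin s, (⟨(e k : H →+ ℤ).comp (τ i₀), hτmem (e k)⟩ : gadvP PE ℤ)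
        = ∑ j, (e k : H →+ ℤ) (τ i₀ (h j)) • e j := by
      intro k
      apply Subtype.ext
      refine AddMonoidHom.ext fun x => ?_
      rw [AddSubgroup.val_finsetSum, AddMonoidHom.finsetSum_apply]
      have := hexp ℤ ((e k : H →+ ℤ).comp (τ i₀)) (hτmem (e k)) x
      rw [this]
      refine Finset.sum_congr rfl fun j _ => ?_
      rw [AddSubgroup.coe_zsmul, AddMonoidHom.zsmul_apply, AddMonoidHom.comp_apply, smul_eq_mul,
        smul_eq_mul, mul_comm]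
    -- the matrix identity
    have hmat : ∀ j : Fin s, ∑ k, (e k : H →+ ℤ) (τ i₀ (h j)) • c k = a i₀ * c j := by
      intro j
      apply hinjK
      rw [map_sum, map_mul, hc']
      have h1 := DFunLike.congr_fun (hωeig i₀) (h j)
      rw [AddMonoidHom.comp_apply, AddMonoidHom.smul_apply, smul_eq_mul] at h1
      have h2 := hexp K ω hωPE (τ i₀ (h j))
      calc ∑ k, algebraMap 𝒪' K ((e k : H →+ ℤ) (τ i₀ (h j)) • c k)
          = ∑ k, algebraMap 𝒪' K (d : 𝒪') * ((e₀ k) (τ i₀ (h j)) • ω (h k)) := by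
            refine Finset.sum_congr rfl fun k _ => ?_
            rw [map_zsmul, hc', mul_smul_comm]
        _ = algebraMap 𝒪' K (d : 𝒪') * ω (τ i₀ (h j)) := by rw [← Finset.mul_sum, ← h2]
        _ = algebraMap 𝒪' K (a i₀) * (algebraMap 𝒪' K (d : 𝒪') * ω (h j)) := by rw [h1]; ring
    calc w.baseChange 𝒪' (∑ k, c k ⊗ₜ[ℤ_[p]] t (e k))
        = ∑ k, c k ⊗ₜ[ℤ_[p]] (∑ j, (e k : H →+ ℤ) (τ i₀ (h j)) • t (e j)) := by
          rw [map_sum]
          refine Finset.sum_congr rfl fun k _ => ?_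
          rw [LinearMap.baseChange_tmul, hw1, hexpτ, map_sum]
          congr 1
          refine Finset.sum_congr rfl fun j _ => ?_
          rw [map_zsmul]
      _ = ∑ k, ∑ j, ((e k : H →+ ℤ) (τ i₀ (h j)) • c k) ⊗ₜ[ℤ_[p]] t (e j) := by
          refine Finset.sum_congr rfl fun k _ => ?_
          rw [TensorProduct.tmul_sum]
          refine Finset.sum_congr rfl fun j _ => ?_
          rw [TensorProduct.smul_tmul]
      _ = ∑ j, (∑ k, (e k : H →+ ℤ) (τ i₀ (h j)) • c k) ⊗ₜ[ℤ_[p]] t (e j) := by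
          rw [Finset.sum_comm]
          refine Finset.sum_congr rfl fun j _ => ?_
          rw [TensorProduct.sum_tmul]
      _ = ∑ j, (a i₀ * c j) ⊗ₜ[ℤ_[p]] t (e j) := by
          refine Finset.sum_congr rfl fun j _ => ?_
          rw [hmat]
      _ = a i₀ • ∑ j, c j ⊗ₜ[ℤ_[p]] t (e j) := by
          rw [Finset.smul_sum]
          refine Finset.sum_congr rfl fun j _ => ?_
          rw [TensorProduct.smul_tmul', smul_eq_mul]

end Fermat.Agent.G
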