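import Mathlib
import Fermat.Agent.G.Adic.TateEx
import Fermat.Agent.G.Adic.Vec
import Fermat.Agent.G.Adic.OfTate
import Fermat.Agent.G.Adic.EigenChar
import Fermat.Agent.G.Adic.FinTors
import Fermat.Agent.G.Adic.ThetaFam
import Fermat.Agent.G.Adic.Cyclo
import Fermat.Agent.G.EsTor.Main
import Fermat.Agent.G.Asm.HeckeGalois
import Fermat.Agent.G.Open.Main
import Fermat.Agent.G.Per.Stable
import Fermat.Agent.G.Per.Fg
import Fermat.Prelude.Def_CuspForm_HeckeGaloisRepDatum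

/-!
# Program G / S30, package G/Adic : the top wiring

`gad_s30` is the frozen statement S30, from
* `gad_of_tate` (TATE, helper17), `gat_exists` (T-EX, helper18), `gad_exists_eigenvector` (VEC,
  helper1), `gad_main` (the engine)
* `gad_exists_eigenchar` (PER', helper1), `gad_finite_torsion` (FIN-J, helper17),
  `gad_theta_family` (THETA-FAM, helper11 + helper22)
* `g_es_torsion` (G/EsTor), `gop_exists_fixing` (G/Open), `gasm_hecke_galois` (G/Asm),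
  `gprT_mem_PE`, `gpr_ab_fg` (G/Per), `gadcPadicHom` (G/Adic/Cyclo).
-/

set_option autoImplicit false
set_option linter.style.haveILetI false

noncomputable section

namespace Fermat.Agent.G

open Polynomial IsLocalRing CongruenceSubgroup ModularCurve AlgebraicCurve Fermat.Agent.S16LB
open scoped TensorProduct MatrixGroups

local notation "Qb" => AlgebraicClosure ℚ
local notation "GQ" => (AlgebraicClosure ℚ ≃ₐ[ℚ] AlgebraicClosure ℚ)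

/-- the set of parabolic + elliptic classes of `Γ₀(N)^ab`. -/
def gadwPE (N : ℕ) : Set (s16lbAb N) :=
  {x | ∃ γ : Gamma0 N, gprIsPE γ ∧ s16lbCls N (Additive.ofMul γ) = x}

theorem gadw_kills_iff {N : ℕ} {A : Type*} [AddCommGroup A] (χ : s16lbAb N →+ A) :
    (∀ s ∈ gadwPE N, χ s = 0) ↔ GasmPE χ := by
  constructor
  · intro h γ hγ
    exact h _ ⟨γ, hγ, rfl⟩
  · rintro h _ ⟨γ, hγ, rfl⟩
    exact h γ hγ

theorem gadw_kills_comp {N : ℕ} {A : Type*} [AddCommGroup A] (χ : s16lbAb N →+ A)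
    (h : ∀ s ∈ gadwPE N, χ s = 0) (ℓ : ℕ) [Fact ℓ.Prime] (hℓN : ¬ ℓ ∣ N) :
    ∀ s ∈ gadwPE N, χ (gasmTr N ℓ hℓN s) = 0 := by
  intro s hs
  have h1 : χ ∈ gprHomPE N A := fun γ hγ => h _ ⟨γ, hγ, rfl⟩
  have h2 : gprPE N ≤ χ.ker := (gpr_mem_homPE_iff_le_ker χ).mp h1
  have h3 : gprT N ℓ s ∈ gprPE N := gprT_mem_PE N ℓ (AddSubgroup.subset_closure hs)
  have h4 : gasmTr N ℓ hℓN = gprT N ℓ := (gprT_eq N hℓN).symm
  rw [h4]
  exact h2 h3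


/-- the Hecke operators as additive endomorphisms indexed by `ℕ` (junk `0` at non-primes). -/
def gadwT (N : ℕ) [NeZero N] (ℓ : ℕ) : JZero N →+ JZero N :=
  if h : ℓ.Prime then (heckeOperatorBar N ⟨ℓ, h⟩ : JZero N →ₗ[ℤ] JZero N).toAddMonoidHom else 0

theorem gadwT_apply (N : ℕ) [NeZero N] {ℓ : ℕ} (h : ℓ.Prime) (x : JZero N) :
    gadwT N ℓ x = heckeOperatorBar N ⟨ℓ, h⟩ x := by
  unfold gadwT
  rw [dif_pos h]
  rfl

/-- the Kummer maps extended by `0` outside `Hom_pe`. -/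
def gadwTheta (N : ℕ) [NeZero N] (Θ : ∀ n : ℕ, gasmPEHoms N (ZMod n) →+ JZero N) (n : ℕ)
    (χ : s16lbAb N →+ ZMod n) : JZero N := by
  classical
  exact if h : GasmPE χ then Θ n ⟨χ, h⟩ else 0

theorem gadwTheta_eq (N : ℕ) [NeZero N] (Θ : ∀ n : ℕ, gasmPEHoms N (ZMod n) →+ JZero N) (n : ℕ)
    (χ : s16lbAb N →+ ZMod n) (h : GasmPE χ) : gadwTheta N Θ n χ = Θ n ⟨χ, h⟩ := by
  unfold gadwTheta
  rw [dif_pos h]

/-- **S30** (the frozen statement, verbatim). -/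
theorem gad_s30 :
    ∀ (p : ℕ) [Fact p.Prime] (N : ℕ) [NeZero N] (S : Finset ℕ)
      (_hpS : p ∈ S) (_hNS : ∀ q : ℕ, q.Prime → q ∣ N → q ∈ S)
      (𝒪' : Type) [CommRing 𝒪'] [IsDomain 𝒪'] [IsDiscreteValuationRing 𝒪']
      [IsAdicComplete (IsLocalRing.maximalIdeal 𝒪') 𝒪'] [Finite (IsLocalRing.ResidueField 𝒪')]
      [CharZero 𝒪'] (_hp𝒪' : (p : 𝒪') ∈ IsLocalRing.maximalIdeal 𝒪')
      (χ : CuspForm.heckeAlgebra N 2 (↑S : Set ℕ) →+* 𝒪'),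
      ∃ (𝒪'' : Type) (_ : CommRing 𝒪'') (_ : IsDomain 𝒪'') (_ : IsDiscreteValuationRing 𝒪'')
        (_ : IsAdicComplete (IsLocalRing.maximalIdeal 𝒪'') 𝒪'')
        (_ : Finite (IsLocalRing.ResidueField 𝒪'')) (_ : CharZero 𝒪'')
        (_ : Algebra 𝒪' 𝒪'') (_ : Module.Finite 𝒪' 𝒪'') (_ : IsLocalHom (algebraMap 𝒪' 𝒪'')),
      Function.Injective (algebraMap 𝒪' 𝒪'') ∧
      ∃ ρ : GaloisRepAdic 𝒪'',
        (∀ (ℓ : ℕ) (hℓ : ℓ.Prime) (hℓN : ¬ ℓ ∣ N) (hℓS : ℓ ∉ (↑S : Set ℕ)),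
          ∀ A : ValuationSubring (AlgebraicClosure ℚ), A.LiesOverPrime ℓ →
            ∀ σ : AlgebraicClosure ℚ ≃ₐ[ℚ] AlgebraicClosure ℚ, A.IsFrobeniusAt σ ℓ →
              LinearMap.charpoly (ρ.ρ σ) =
                X ^ 2 - C (algebraMap 𝒪' 𝒪'' (χ (CuspForm.heckeAlgebra.T hℓ hℓN hℓS))) * X
                  + C ((ℓ : 𝒪''))) ∧
        (∀ q : ℕ, q.Prime → ¬ q ∣ N → q ≠ p → ρ.IsUnramifiedAt q) := by
  intro p _ N _ S hpS hNS 𝒪' _ _ _ _ _ _ hp χ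
  classical
  have hpp : p.Prime := Fact.out
  -- the `ℤ_[p]`-algebra structure of `𝒪'`
  letI : Algebra ℤ_[p] 𝒪' := (gadcPadicHom p (maximalIdeal 𝒪') hp).toAlgebra
  have hinj : Function.Injective (algebraMap ℤ_[p] 𝒪') := by
    rw [injective_iff_map_eq_zero]
    intro x hx
    by_contra hx0
    obtain ⟨k, u, rfl⟩ : ∃ (k : ℕ) (u : ℤ_[p]ˣ), x = (u : ℤ_[p]) * (p : ℤ_[p]) ^ k :=
      ⟨_, _, PadicInt.unitCoeff_spec hx0⟩
    rw [map_mul, map_pow, map_natCast] at hx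
    rcases mul_eq_zero.mp hx with h | h
    · exact ((u.map (algebraMap ℤ_[p] 𝒪' : ℤ_[p] →* 𝒪')).ne_zero) h
    · exact pow_ne_zero k (Nat.cast_ne_zero.mpr hpp.ne_zero) h
  obtain ⟨𝒯⟩ := gat_exists p (JZero N)
  -- the eigenvalues
  let a : ℕ → 𝒪' := fun ℓ =>
    if h : ℓ.Prime ∧ ¬ ℓ ∣ N ∧ ℓ ∉ (↑S : Set ℕ) then χ (CuspForm.heckeAlgebra.T h.1 h.2.1 h.2.2)
    else 0
  have ha : ∀ (ℓ : ℕ) (hℓ : ℓ.Prime) (hℓN : ¬ ℓ ∣ N) (hℓS : ℓ ∉ (↑S : Set ℕ)),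
      a ℓ = χ (CuspForm.heckeAlgebra.T hℓ hℓN hℓS) := by
    intro ℓ hℓ hℓN hℓS
    simp only [a]
    rw [dif_pos ⟨hℓ, hℓN, hℓS⟩]
  -- finiteness, open stabilisers, commutation
  have hfin : {x : JZero N | p • x = 0}.Finite := gad_finite_torsion N p hpp.pos
  have hopen : ∀ x : JZero N, (∃ n : ℕ, p ^ n • x = 0) → ∃ L : IntermediateField ℚ Qb,
      FiniteDimensional ℚ L ∧ ∀ σ : GQ, (∀ y ∈ L, σ y = y) → σ • x = x := by
    intro x _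
    obtain ⟨E, hE, h⟩ := gop_exists_fixing N x
    refine ⟨E, hE, fun σ hσ => h σ ?_⟩
    rw [IntermediateField.mem_fixingSubgroup_iff]
    exact hσ
  have hcomm : ∀ (ℓ : ℕ) (σ : GQ) (x : JZero N), gadwT N ℓ (σ • x) = σ • gadwT N ℓ x := by
    intro ℓ σ x
    by_cases h : ℓ.Prime
    · rw [gadwT_apply N h, gadwT_apply N h]
      exact (gasm_hecke_galois N ⟨ℓ, h⟩ σ x).symm
    · unfold gadwT
      rw [dif_neg h]
      simp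
  have hpS' : ∀ ℓ : ℕ, ℓ ∉ S → ℓ ≠ p := fun ℓ hℓS h => hℓS (h ▸ hpS)
  have hunr : ∀ q : ℕ, q.Prime → ¬ q ∣ N → q ≠ p → ∀ A : ValuationSubring Qb,
      A.LiesOverPrime q → ∀ σ ∈ A.inertiaSubgroupIn ℚ, ∀ x : JZero N,
        (∃ n : ℕ, p ^ n • x = 0) → σ • x = x := by
    intro q hq hqN hqp A hA σ hσ x hx
    exact (g_es_torsion N p hpp q hq hqN hqp A hA).1 σ hσ x hx
  have hfrob : ∀ ℓ : ℕ, ℓ.Prime → ¬ ℓ ∣ N → ℓ ∉ S → ∀ A : ValuationSubring Qb,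
      A.LiesOverPrime ℓ → ∀ σ : GQ, A.IsFrobeniusAt σ ℓ → ∀ x : JZero N,
        (∃ n : ℕ, p ^ n • x = 0) → σ • σ • x - gadwT N ℓ (σ • x) + ℓ • x = 0 := by
    intro ℓ hℓ hℓN hℓS A hA σ hσ x hx
    rw [gadwT_apply N hℓ]
    exact (g_es_torsion N p hpp ℓ hℓ hℓN (hpS' ℓ hℓS) A hA).2 σ hσ x hx
  -- the eigenvector
  have hv : ∃ v : 𝒪' ⊗[ℤ_[p]] 𝒯.T, v ≠ 0 ∧ ∀ ℓ : ℕ, ℓ.Prime → ¬ ℓ ∣ N → ℓ ∉ S →
      ∀ w : 𝒯.T →ₗ[ℤ_[p]] 𝒯.T, (∀ (n : ℕ) (x : 𝒯.T), 𝒯.ev n (w x) = gadwT N ℓ (𝒯.ev n x)) →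
        w.baseChange 𝒪' v = a ℓ • v := by
    obtain ⟨Θ, hΘinj, hΘeq, hΘcompat⟩ := gad_theta_family N
    obtain ⟨ω, hω0, hωPE, hωeig⟩ := gad_exists_eigenchar N S hNS
      (K := FractionRing 𝒪') ((algebraMap 𝒪' (FractionRing 𝒪')).comp χ)
    let I : Type := {ℓ : ℕ // ℓ.Prime ∧ ¬ ℓ ∣ N ∧ ℓ ∉ (↑S : Set ℕ)}
    let τ : I → s16lbAb N →+ s16lbAb N := fun i =>
      haveI : Fact (i.1).Prime := ⟨i.2.1⟩
      gasmTr N i.1 i.2.2.1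
    obtain ⟨v, hv0, hv⟩ := gad_exists_eigenvector p 𝒪' hinj (K := FractionRing 𝒪') 𝒯
      (gpr_ab_fg N) (gadwPE N) (fun m => gadwTheta N Θ (p ^ m))
      (by
        intro m χ₁ χ₂ h₁ h₂
        have h₁' := (gadw_kills_iff χ₁).mp h₁
        have h₂' := (gadw_kills_iff χ₂).mp h₂
        have h₁₂ : GasmPE (χ₁ + χ₂) := (gasmPEHoms N (ZMod (p ^ m))).add_mem h₁' h₂'
        rw [gadwTheta_eq N Θ _ _ h₁', gadwTheta_eq N Θ _ _ h₂', gadwTheta_eq N Θ _ _ h₁₂,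
          ← map_add]
        rfl)
      (by
        intro m χ₁ h₁ h0
        have h₁' := (gadw_kills_iff χ₁).mp h₁
        rw [gadwTheta_eq N Θ _ _ h₁'] at h0
        have := hΘinj (p ^ m) (pow_pos hpp.pos m) (a₁ := ⟨χ₁, h₁'⟩) (a₂ := 0)
          (by rw [h0, map_zero])
        exact congrArg Subtype.val this)
      (by
        intro m χ₁ χ₂ h₁ h₂ hk
        have h₁' := (gadw_kills_iff χ₁).mp h₁
        have h₂' := (gadw_kills_iff χ₂).mp h₂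
        rw [gadwTheta_eq N Θ _ _ h₁', gadwTheta_eq N Θ _ _ h₂']
        exact hΘcompat (p ^ m) p (pow_pos hpp.pos m) hpp.pos ⟨χ₁, h₁'⟩ ⟨χ₂, h₂'⟩ hk)
      τ (fun i => gadwT N i.1)
      (by
        intro i A _ χ₁ h₁
        haveI : Fact (i.1).Prime := ⟨i.2.1⟩
        exact gadw_kills_comp χ₁ h₁ i.1 i.2.2.1)
      (by
        intro i m χ₁ h₁
        haveI : Fact (i.1).Prime := ⟨i.2.1⟩
        have h₁' := (gadw_kills_iff χ₁).mp h₁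
        have h₂' : GasmPE (χ₁.comp (τ i)) :=
          (gadw_kills_iff _).mp (gadw_kills_comp χ₁ h₁ i.1 i.2.2.1)
        rw [gadwTheta_eq N Θ _ _ h₁', gadwTheta_eq N Θ _ _ h₂', gadwT_apply N i.2.1]
        have hndvd : ¬ i.1 ∣ p ^ m := by
          intro hdvd
          have := (Nat.prime_dvd_prime_iff_eq i.2.1 hpp).mp (i.2.1.dvd_of_dvd_pow hdvd)
          exact hpS' i.1 (by exact_mod_cast i.2.2.2) this
        exact hΘeq (p ^ m) (pow_pos hpp.pos m) i.1 i.2.2.1 hndvd ⟨χ₁, h₁'⟩ ⟨_, h₂'⟩ rfl)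
      (fun i => a i.1) ω hω0 ((gadw_kills_iff ω).mpr hωPE)
      (by
        intro i
        haveI : Fact (i.1).Prime := ⟨i.2.1⟩
        have := hωeig i.1 i.2.2.1 i.2.2.2
        rw [ha i.1 i.2.1 i.2.2.1 i.2.2.2]
        exact this)
    exact ⟨v, hv0, fun ℓ hℓ hℓN hℓS w hw => hv ⟨ℓ, hℓ, hℓN, by exact_mod_cast hℓS⟩ w hw⟩
  obtain ⟨𝒪'', i1, i2, i3, i4, i5, i6, i7, i8, i9, hinj'', ρ', h1, h2⟩ :=
    gad_of_tate p N (NeZero.ne N) S hpS 𝒪' hp 𝒯 hfin hopen (gadwT N) hcomm a hunr hfrob hv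
  refine ⟨𝒪'', i1, i2, i3, i4, i5, i6, i7, i8, i9, hinj'', ρ', ?_, h2⟩
  intro ℓ hℓ hℓN hℓS A hA σ hσ
  rw [h1 ℓ hℓ hℓN (by exact_mod_cast hℓS) A hA σ hσ, ha ℓ hℓ hℓN hℓS]

end Fermat.Agent.G
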